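import Fermat.Agent.RT.Sys.Act
import Fermat.Agent.RT.Ihara.TW
import Fermat.Agent.RT.World.System

/-!
# The degeneracy maps between two truncated levels

The two degeneracy maps between the parts at levels `N` and `N q`, their left inverses, adjoints
and preimages give the data of a raising step between the matrices of the deformation ring.
-/

set_option autoImplicit false
set_option linter.unusedSectionVars false

noncomputable section

namespace FLTAgent.RT.Sys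

open LevelRaise CongruenceSubgroup IsLocalRing Matrix

local notation "Γℚ" => AlgebraicClosure ℚ ≃ₐ[ℚ] AlgebraicClosure ℚ

variable {O : Type} [CommRing O] [IsDomain O] [IsDiscreteValuationRing O]
  [IsAdicComplete (maximalIdeal O) O] [Finite (ResidueField O)] [CharZero O]
  {M N q d f : ℕ} {D : Type} [CommGroup D] [Fintype D] {χ : (ZMod M)ˣ →* D}
  [Fact (Odd (Nat.card D))] [NeZero N] [NeZero q] (W : WData N q) (hMN : M ∣ N) {ι : Type*}
  {l : ι → ℕ} (hl : ∀ i, (l i).Prime) {a : ι → O} (hne : ∀ i, l i ≠ q)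

/-- Away from the image of maps with left inverses intertwining an operator, a power of the
operator vanishes if a power of it lands in the image and it does so uniformly. -/
theorem proj_mul_pow_eq_zero {R P Q : Type*} [CommRing R] [AddCommGroup P] [Module R P]
    [AddCommGroup Q] [Module R Q] {i₁ i₂ : P →ₗ[R] Q} {l₁ l₂ : Q →ₗ[R] P}
    (l₁i₁ : l₁ ∘ₗ i₁ = LinearMap.id) (l₁i₂ : l₁ ∘ₗ i₂ = 0) (l₂i₁ : l₂ ∘ₗ i₁ = 0)
    (l₂i₂ : l₂ ∘ₗ i₂ = LinearMap.id) {V : Module.End R P} {U : Module.End R Q}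
    (h₁ : i₁ ∘ₗ V = U ∘ₗ i₁) (h₂ : i₂ ∘ₗ V = U ∘ₗ i₂)
    (hm : ∃ m : ℕ, ∀ z, ∃ x₁ x₂, (U ^ m) z = i₁ x₁ + i₂ x₂) {K : ℕ} (hK : 0 < K)
    (hnil : ∀ g : Module.End R Q, g = (LinearMap.id - i₁ ∘ₗ l₁ - i₂ ∘ₗ l₂) * U →
      IsNilpotent g → g ^ K = 0) :
    (LinearMap.id - i₁ ∘ₗ l₁ - i₂ ∘ₗ l₂) * U ^ K = 0 := by
  set e : Module.End R Q := LinearMap.id - i₁ ∘ₗ l₁ - i₂ ∘ₗ l₂
  have eapp : ∀ z, e z = z - i₁ (l₁ z) - i₂ (l₂ z) := fun z => rfl
  have ei : ∀ x₁ x₂, e (i₁ x₁ + i₂ x₂) = 0 := fun x₁ x₂ => by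
    simp only [eapp, map_add,
      show l₁ (i₁ x₁) = x₁ from LinearMap.congr_fun l₁i₁ x₁,
      show l₁ (i₂ x₂) = 0 from LinearMap.congr_fun l₁i₂ x₂,
      show l₂ (i₁ x₁) = 0 from LinearMap.congr_fun l₂i₁ x₁,
      show l₂ (i₂ x₂) = x₂ from LinearMap.congr_fun l₂i₂ x₂, map_zero]
    abel
  have eUe : ∀ z, e (U (e z)) = e (U z) := fun z => by
    rw [eapp z, map_sub, map_sub U, show U (i₁ (l₁ z)) = i₁ (V (l₁ z)) from
      (LinearMap.congr_fun h₁ _).symm, show U (i₂ (l₂ z)) = i₂ (V (l₂ z)) from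
      (LinearMap.congr_fun h₂ _).symm, sub_sub, map_sub, ei, sub_zero]
  have hpow : ∀ k, (e * U) ^ (k + 1) = e * U ^ (k + 1) := fun k => by
    induction k with
    | zero => rw [pow_one, pow_one]
    | succ k ih =>
      refine LinearMap.ext fun z => ?_
      rw [pow_succ', ih, pow_succ' U (k + 1)]
      simp only [Module.End.mul_apply, eUe]
  obtain ⟨k, rfl⟩ : ∃ k, K = k + 1 := ⟨K - 1, by omega⟩
  rw [← hpow]
  refine hnil _ rfl ?_
  obtain ⟨m, hm⟩ := hm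
  refine ⟨m + 1, LinearMap.ext fun z => ?_⟩
  rw [hpow, pow_succ, Module.End.mul_apply, Module.End.mul_apply]
  obtain ⟨x₁, x₂, h⟩ := hm (U z)
  rw [h, ei]; rfl

/-- The part at level `N q`. -/
abbrev upPart (χ : (ZMod M)ˣ →* D) (hMN : M ∣ N) (hl : ∀ i, (l i).Prime) (a : ι → O) (q : ℕ)
    [NeZero q] : Submodule O (Coh (N * q) χ O) :=
  cohPart χ (hMN.trans (dvd_mul_right N q)) hl a

include W hne in
theorem resB_mem_upPart {x : Coh N χ O} (hx : x ∈ cohPart χ hMN hl a) :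
    resB O χ (dvd_mul_right N q) x ∈ upPart χ hMN hl a q := by
  have := degB_mem_cohPart W hMN hl hne
    (u := (x, 0)) ⟨hx, (cohPart χ hMN hl a).zero_mem⟩
  rwa [degB_apply, map_zero, map_zero, add_zero] at this

/-- The first degeneracy map on the parts. -/
def degFst : cohPart χ hMN hl a →ₗ[O] upPart χ hMN hl a q :=
  (resB O χ (dvd_mul_right N q)).restrict fun _ hx => resB_mem_upPart W hMN hl hne hx

/-- The second degeneracy map on the parts. -/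
def degSnd : cohPart χ hMN hl a →ₗ[O] upPart χ hMN hl a q :=
  ((opW O W χ hMN).comp (resB O χ (dvd_mul_right N q))).restrict fun x hx => by
    have := degB_mem_cohPart W hMN hl hne (u := (0, x)) ⟨(cohPart χ hMN hl a).zero_mem, hx⟩
    rwa [degB_apply, map_zero, zero_add] at this

/-- The first adjoint map on the parts. -/
def adjFst : upPart χ hMN hl a q →ₗ[O] cohPart χ hMN hl a :=
  (coresB O W χ hMN).restrict fun _ hz => (adjB_mem_cohPart W hMN hl hne hz).1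

/-- The second adjoint map on the parts. -/
def adjSnd : upPart χ hMN hl a q →ₗ[O] cohPart χ hMN hl a :=
  ((coresB O W χ hMN).comp (opW O W χ hMN)).restrict fun _ hz =>
    (adjB_mem_cohPart W hMN hl hne hz).2

theorem coe_degFst (x : cohPart χ hMN hl a) :
    (degFst W hMN hl hne x : Coh (N * q) χ O) = resB O χ (dvd_mul_right N q) x := rfl

theorem coe_degSnd (x : cohPart χ hMN hl a) :
    (degSnd W hMN hl hne x : Coh (N * q) χ O) =
      opW O W χ hMN (resB O χ (dvd_mul_right N q) x) := rfl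

theorem coe_adjFst (z : upPart χ hMN hl a q) :
    (adjFst W hMN hl hne z : Coh N χ O) = coresB O W χ hMN z := rfl

theorem coe_adjSnd (z : upPart χ hMN hl a q) :
    (adjSnd W hMN hl hne z : Coh N χ O) = coresB O W χ hMN (opW O W χ hMN z) := rfl

section Equivariant

variable {hχ : Function.Surjective χ} (B : DBasis hMN hχ (cohPart χ hMN hl a) d)
  (B' : DBasis (hMN.trans (dvd_mul_right N q)) hχ (upPart χ hMN hl a q) f)

theorem isEquivariant_degFst : B.IsEquivariant B' (degFst W hMN hl hne) := fun δ x =>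
  Subtype.ext (by
    rw [coe_degFst, B.coe_dia, B'.coe_dia, coe_degFst, resB_diamond O hMN])

theorem isEquivariant_degSnd : B.IsEquivariant B' (degSnd W hMN hl hne) := fun δ x =>
  Subtype.ext (by
    rw [coe_degSnd, B.coe_dia, B'.coe_dia, coe_degSnd, ← resB_diamond O hMN (dvd_mul_right N q) hχ,
      ← Module.End.mul_apply, (opW_diamond O W hMN hχ δ).eq, Module.End.mul_apply])

theorem isEquivariant_adjFst : B'.IsEquivariant B (adjFst W hMN hl hne) := fun δ z =>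
  Subtype.ext (by rw [coe_adjFst, B.coe_dia, B'.coe_dia, coe_adjFst, coresB_diamond O W hMN hχ])

theorem isEquivariant_adjSnd : B'.IsEquivariant B (adjSnd W hMN hl hne) := fun δ z =>
  Subtype.ext (by
    rw [coe_adjSnd, B.coe_dia, B'.coe_dia, coe_adjSnd, ← Module.End.mul_apply (opW O W χ hMN),
      (opW_diamond O W hMN hχ δ).eq, Module.End.mul_apply, coresB_diamond O W hMN hχ])

end Equivariant

section Intertwine

variable {ρbar : ResidualGaloisRep (ResidueField O)}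
  {𝒟 : ∀ ⦃A : Type⦄ [CommRing A] [IsLocalRing A] [Algebra O A], GaloisRepAdic A → Prop}
  (h𝒟 : GaloisRep.IsDeformationCondition O 𝒟) {Dat : GaloisRep.DeformationRingData O ρbar 𝒟}
  {S₁ : Finset ℕ} (hq : q ∈ S₁) {φ : Dat.R →ₐ[O] Module.End O (cohPart χ hMN hl a)}
  (hφ : IsFrobCompat Dat S₁ φ) {φ' : Dat.R →ₐ[O] Module.End O (upPart χ hMN hl a q)}
  (hφ' : IsFrobCompat Dat S₁ φ')

include h𝒟 hq hφ hφ' W in
/-- **The degeneracy maps intertwine the actions.** -/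
theorem intertwine_deg (r : Dat.R) :
    degFst W hMN hl hne ∘ₗ φ r = φ' r ∘ₗ degFst W hMN hl hne ∧
      degSnd W hMN hl hne ∘ₗ φ r = φ' r ∘ₗ degSnd W hMN hl hne ∧
      adjFst W hMN hl hne ∘ₗ φ' r = φ r ∘ₗ adjFst W hMN hl hne ∧
      adjSnd W hMN hl hne ∘ₗ φ' r = φ r ∘ₗ adjSnd W hMN hl hne := by
  have := moduleFinite_coh (χ := χ) O O hMN
  have := moduleFinite_coh (χ := χ) O O (hMN.trans (dvd_mul_right N q))
  have := isNoetherian_of_isNoetherianRing_of_finite O (Coh N χ O)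
  have := isNoetherian_of_isNoetherianRing_of_finite O (Coh (N * q) χ O)
  have hne' : ∀ ℓ, ℓ ∉ S₁ → ℓ ≠ q := fun ℓ h e => h (e ▸ hq)
  have hkind : ∀ ℓ, ℓ.Prime → ℓ ∉ S₁ → ℓ ∣ N * q → ℓ ∣ N := fun ℓ hℓ h hd =>
    (hℓ.dvd_mul.mp hd).resolve_right fun hd' =>
      hne' ℓ h ((Nat.prime_dvd_prime_iff_eq hℓ W.prime).mp hd')
  refine ⟨intertwine_of_frobTraces h𝒟 Dat S₁ φ φ' _ ?_ r,
    intertwine_of_frobTraces h𝒟 Dat S₁ φ φ' _ ?_ r,
    intertwine_of_frobTraces h𝒟 Dat S₁ φ' φ _ ?_ r,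
    intertwine_of_frobTraces h𝒟 Dat S₁ φ' φ _ ?_ r⟩ <;>
  rintro _ ⟨ℓ, hℓ, hℓS, A, hA, σ, hσ, rfl⟩ <;> refine LinearMap.ext fun v => Subtype.ext ?_ <;>
    rw [LinearMap.comp_apply, LinearMap.comp_apply]
  · rw [coe_degFst, hφ ℓ hℓ hℓS A hA σ hσ, hφ' ℓ hℓ hℓS A hA σ hσ, coe_degFst,
      resB_opP hMN (dvd_mul_right N q) hℓ (hkind ℓ hℓ hℓS)]
  · rw [coe_degSnd, hφ ℓ hℓ hℓS A hA σ hσ, hφ' ℓ hℓ hℓS A hA σ hσ, coe_degSnd,
      ← resB_opP hMN (dvd_mul_right N q) hℓ (hkind ℓ hℓ hℓS), ← Module.End.mul_apply,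
      (opW_opP W hMN hℓ (hne' ℓ hℓS)).eq, Module.End.mul_apply]
  · rw [coe_adjFst, hφ ℓ hℓ hℓS A hA σ hσ, hφ' ℓ hℓ hℓS A hA σ hσ, coe_adjFst,
      coresB_opP W hMN hℓ (hne' ℓ hℓS)]
  · rw [coe_adjSnd, hφ ℓ hℓ hℓS A hA σ hσ, hφ' ℓ hℓ hℓS A hA σ hσ, coe_adjSnd,
      ← Module.End.mul_apply (opW O W χ hMN), (opW_opP W hMN hℓ (hne' ℓ hℓS)).eq,
      Module.End.mul_apply, coresB_opP W hMN hℓ (hne' ℓ hℓS)]

variable {hχ : Function.Surjective χ} {B : DBasis hMN hχ (cohPart χ hMN hl a) d}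
  {B' : DBasis (hMN.trans (dvd_mul_right N q)) hχ (upPart χ hMN hl a q) f}
  {ι' X : Type} [Finite ι'] [Finite X]

set_option maxHeartbeats 1600000 in
include h𝒟 hq in
/-- **The raising step between the truncated levels.** -/
theorem nonempty_truncRaise {r n : ℕ} (ε : D →* STrunc O r n)
    (hφB : ∀ x, φ x ∈ B.equivEnd) (hφ'B : ∀ x, φ' x ∈ B'.equivEnd)
    (hφ : IsFrobCompat Dat S₁ φ) (hφ' : IsFrobCompat Dat S₁ φ')
    (H : RaiseHyp N q l a) (p : ℕ) [Fact p.Prime] (hD : IsPGroup p D)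
    (hp : (p : O) ∈ maximalIdeal O) (he : EllCond χ N)
    (γ : MvPowerSeries (LocVar ι' X) O →ₐ[O] Dat.R) {c t u : MvPowerSeries (LocVar ι' X) O}
    (hc : γ c = (q : Dat.R) + 1)
    (ht : ∀ v, (φ (γ t) v : Coh N χ O) = opP O O χ hMN W.prime v)
    (hu : ∃ m : ℕ, ∀ z, ∃ x₁ x₂,
      (φ' (γ u) ^ m) z = degFst W hMN hl hne x₁ + degSnd W hMN hl hne x₂)
    {K : ℕ} (hK : f ≤ K) (hK0 : 0 < K) :
    Nonempty (TruncRaise (actMat B ε φ hφB γ) (actMat B' ε φ' hφ'B γ) c t u K) := by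
  classical
  set i₁ := degFst W hMN hl hne (a := a) (χ := χ)
  set i₂ := degSnd W hMN hl hne (a := a) (χ := χ)
  set j₁ := adjFst W hMN hl hne (a := a) (χ := χ)
  set j₂ := adjSnd W hMN hl hne (a := a) (χ := χ)
  obtain ⟨L, hLmem, hLD, hL⟩ := H.exists_leftInverse W hMN hl hχ he p hD hp
  let l₁ : upPart χ hMN hl a q →ₗ[O] cohPart χ hMN hl a :=
    ((LinearMap.fst O _ _).comp L).restrict fun z _ => (hLmem z).1
  let l₂ : upPart χ hMN hl a q →ₗ[O] cohPart χ hMN hl a :=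
    ((LinearMap.snd O _ _).comp L).restrict fun z _ => (hLmem z).2
  have hl₁ : B'.IsEquivariant B l₁ := fun δ z => Subtype.ext (by
    show (L (B'.dia δ z : Coh (N * q) χ O)).1 = _
    rw [B'.coe_dia, hLD, B.coe_dia]; rfl)
  have hl₂ : B'.IsEquivariant B l₂ := fun δ z => Subtype.ext (by
    show (L (B'.dia δ z : Coh (N * q) χ O)).2 = _
    rw [B'.coe_dia, hLD, B.coe_dia]; rfl)
  have hLfst : ∀ x : cohPart χ hMN hl a, L (i₁ x : Coh (N * q) χ O) = ((x : Coh N χ O), 0) :=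
    fun x => by
      have := hL ((x : Coh N χ O), 0) ⟨x.2, (cohPart χ hMN hl a).zero_mem⟩
      rwa [degB_apply, map_zero, map_zero, add_zero] at this
  have hLsnd : ∀ x : cohPart χ hMN hl a, L (i₂ x : Coh (N * q) χ O) = (0, (x : Coh N χ O)) :=
    fun x => by
      have := hL (0, (x : Coh N χ O)) ⟨(cohPart χ hMN hl a).zero_mem, x.2⟩
      rwa [degB_apply, map_zero, zero_add] at this
  have l₁i₁ : l₁ ∘ₗ i₁ = LinearMap.id := LinearMap.ext fun x => Subtype.ext (by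
    show (L (i₁ x : Coh (N * q) χ O)).1 = _; rw [hLfst]; rfl)
  have l₁i₂ : l₁ ∘ₗ i₂ = 0 := LinearMap.ext fun x => Subtype.ext (by
    show (L (i₂ x : Coh (N * q) χ O)).1 = _; rw [hLsnd]; rfl)
  have l₂i₁ : l₂ ∘ₗ i₁ = 0 := LinearMap.ext fun x => Subtype.ext (by
    show (L (i₁ x : Coh (N * q) χ O)).2 = _; rw [hLfst]; rfl)
  have l₂i₂ : l₂ ∘ₗ i₂ = LinearMap.id := LinearMap.ext fun x => Subtype.ext (by
    show (L (i₂ x : Coh (N * q) χ O)).2 = _; rw [hLsnd]; rfl)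
  have hjj : ∀ x₁ x₂, adjB W χ hMN
      ((i₁ x₁ : Coh (N * q) χ O) + (i₂ x₂ : Coh (N * q) χ O)) =
      ((q + 1) • (x₁ : Coh N χ O) + opT O O χ hMN W.prime W.not_dvd x₂,
        opT O O χ hMN W.prime W.not_dvd x₁ + (q + 1) • (x₂ : Coh N χ O)) :=
    fun x₁ x₂ => adjB_degB W hMN (_, _)
  have hjfst : ∀ x, adjB W χ hMN (i₁ x : Coh (N * q) χ O) =
      ((q + 1) • (x : Coh N χ O), opT O O χ hMN W.prime W.not_dvd x) := fun x => by
    have := hjj x 0
    simpa using this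
  have hjsnd : ∀ x, adjB W χ hMN (i₂ x : Coh (N * q) χ O) =
      (opT O O χ hMN W.prime W.not_dvd x, (q + 1) • (x : Coh N χ O)) := fun x => by
    have := hjj 0 x
    simpa using this
  have ht' : ∀ x : cohPart χ hMN hl a, (φ (γ t) x : Coh N χ O) =
      opT O O χ hMN W.prime W.not_dvd x := fun x => by
    rw [ht, opP_of_not_dvd (χ := χ) O O hMN W.prime W.not_dvd]
  have hc' : ∀ x : cohPart χ hMN hl a, (φ (γ c) x : Coh N χ O) = (q + 1) • (x : Coh N χ O) :=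
    fun x => by
      rw [hc, show ((q : Dat.R) + 1) = ((q + 1 : ℕ) : Dat.R) by push_cast; ring, map_natCast]
      exact congrArg Subtype.val (Module.End.natCast_apply (q + 1) x)
  have j₁i₁ : j₁ ∘ₗ i₁ = φ (γ c) := LinearMap.ext fun x => Subtype.ext (by
    rw [hc']; exact congrArg Prod.fst (hjfst x))
  have j₁i₂ : j₁ ∘ₗ i₂ = φ (γ t) := LinearMap.ext fun x => Subtype.ext (by
    rw [ht']; exact congrArg Prod.fst (hjsnd x))
  have j₂i₁ : j₂ ∘ₗ i₁ = φ (γ t) := LinearMap.ext fun x => Subtype.ext (by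
    rw [ht']; exact congrArg Prod.snd (hjfst x))
  have j₂i₂ : j₂ ∘ₗ i₂ = φ (γ c) := LinearMap.ext fun x => Subtype.ext (by
    rw [hc']; exact congrArg Prod.snd (hjsnd x))
  have hi₁ := isEquivariant_degFst W hMN hl hne B B'
  have hi₂ := isEquivariant_degSnd W hMN hl hne B B'
  have hj₁ := isEquivariant_adjFst W hMN hl hne B B'
  have hj₂ := isEquivariant_adjSnd W hMN hl hne B B'
  have hint := intertwine_deg W hMN hl hne h𝒟 hq hφ hφ' (γ u)
  set e : Module.End O (upPart χ hMN hl a q) := LinearMap.id - i₁ ∘ₗ l₁ - i₂ ∘ₗ l₂ with he'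
  have heq : B'.IsEquivariant B' e := fun δ z => by
    simp only [e, LinearMap.sub_apply, LinearMap.id_apply, LinearMap.comp_apply, hl₁ δ z, hl₂ δ z,
      hi₁ δ (l₁ z), hi₂ δ (l₂ z), map_sub, i₁, i₂]
  have hnew : e * φ' (γ u) ^ K = 0 :=
    proj_mul_pow_eq_zero l₁i₁ l₁i₂ l₂i₁ l₂i₂ hint.1 hint.2.1 hu hK0 fun g hg hn =>
      pow_eq_zero_of_le hK (B'.pow_eq_zero
        (hg ▸ (B'.mem_equivEnd.mp (hφ'B (γ u))).comp _ heq) hn)
  -- preimages under the adjoint maps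
  have hs : ∀ j : Fin d, ∃ z, j₁ z = B.vec j ∧ j₂ z = 0 := fun j => by
    obtain ⟨z, hz, hzz⟩ := H.exists_adjB_eq W hMN hl hχ he p hD hp
      (u := ((B.vec j : Coh N χ O), 0)) ⟨(B.vec j).2, (cohPart χ hMN hl a).zero_mem⟩
    exact ⟨⟨z, hz⟩, Subtype.ext (congrArg Prod.fst hzz), Subtype.ext (congrArg Prod.snd hzz)⟩
  choose z hz₁ hz₂ using hs
  let s₁ : Matrix (Fin f) (Fin d) (STrunc O r n) := Matrix.of fun i j => B'.coord ε (z j) i
  have intX := fun x => intertwine_deg W hMN hl hne h𝒟 hq hφ hφ' (γ (MvPowerSeries.X x))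
  refine ⟨{
    i₁ := B.mat B' ε i₁
    i₂ := B.mat B' ε i₂
    l₁ := B'.mat B ε l₁
    l₂ := B'.mat B ε l₂
    j₁ := B'.mat B ε j₁
    j₂ := B'.mat B ε j₂
    s₁ := s₁
    l₁i₁ := by rw [← DBasis.mat_comp _ ε hl₁, l₁i₁, B.mat_id]
    l₁i₂ := by rw [← DBasis.mat_comp _ ε hl₁, l₁i₂, B.mat_zero]
    l₂i₁ := by rw [← DBasis.mat_comp _ ε hl₂, l₂i₁, B.mat_zero]
    l₂i₂ := by rw [← DBasis.mat_comp _ ε hl₂, l₂i₂, B.mat_id]
    i₁_act := fun x => by
      rw [actMat_apply, actMat_apply, ← DBasis.mat_comp _ ε (B'.mem_equivEnd.mp (hφ'B _)),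
        ← DBasis.mat_comp _ ε hi₁, ← (intX x).1]
    i₂_act := fun x => by
      rw [actMat_apply, actMat_apply, ← DBasis.mat_comp _ ε (B'.mem_equivEnd.mp (hφ'B _)),
        ← DBasis.mat_comp _ ε hi₂, ← (intX x).2.1]
    j₁_act := fun x => by
      rw [actMat_apply, actMat_apply, ← DBasis.mat_comp _ ε hj₁,
        ← DBasis.mat_comp _ ε (B.mem_equivEnd.mp (hφB _)), (intX x).2.2.1]
    j₂_act := fun x => by
      rw [actMat_apply, actMat_apply, ← DBasis.mat_comp _ ε hj₂,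
        ← DBasis.mat_comp _ ε (B.mem_equivEnd.mp (hφB _)), (intX x).2.2.2]
    j₁s₁ := Matrix.ext fun i j => by
      show (B'.mat B ε j₁ *ᵥ B'.coord ε (z j)) i = _
      rw [← DBasis.coord_map ε hj₁, hz₁, B.coord_vec, Pi.single_apply, Matrix.one_apply]
    j₂s₁ := Matrix.ext fun i j => by
      show (B'.mat B ε j₂ *ᵥ B'.coord ε (z j)) i = _
      rw [← DBasis.coord_map ε hj₂, hz₂, map_zero]; rfl
    j₁i₁ := by rw [← DBasis.mat_comp _ ε hj₁, j₁i₁, actMat_apply]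
    j₁i₂ := by rw [← DBasis.mat_comp _ ε hj₁, j₁i₂, actMat_apply]
    j₂i₁ := by rw [← DBasis.mat_comp _ ε hj₂, j₂i₁, actMat_apply]
    j₂i₂ := by rw [← DBasis.mat_comp _ ε hj₂, j₂i₂, actMat_apply]
    new := ?_ }⟩
  rw [actMat_apply, map_pow, map_pow, ← DBasis.mat_comp _ ε hi₁, ← DBasis.mat_comp _ ε hi₂, ← B'.mat_id ε]
  have hsub : ∀ g g' : upPart χ hMN hl a q →ₗ[O] upPart χ hMN hl a q,
      B'.mat B' ε (g - g') = B'.mat B' ε g - B'.mat B' ε g' := fun g g' =>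
    eq_sub_of_add_eq ((B'.mat_add B' ε _ _).symm.trans (congrArg _ (LinearMap.ext fun z => by
      simp [LinearMap.add_apply, LinearMap.sub_apply])))
  rw [← hsub, ← hsub, ← DBasis.mat_comp _ ε heq, ← Module.End.mul_eq_comp, hnew, B'.mat_zero]

end Intertwine

end FLTAgent.RT.Sys
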