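import Fermat.Agent.RT.Sys.DiamondMat
import Fermat.Agent.RT.Coh.TWStep
import Fermat.Agent.RT.Ihara.TW

/-!
# Taylor–Wiles levels

Adding a set of Taylor–Wiles primes to the level does not change the part on `Γ₀`, compatibly with
the operators away from these primes; the part with diamonds is free on lifts of a fixed basis of
the part at the base level.
-/

set_option autoImplicit false

noncomputable section

namespace FLTAgent.RT.Sys

open LevelRaise CongruenceSubgroup IsLocalRing
open scoped MatrixGroups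

/-- Taylor–Wiles primes for the system `a` at level `N`, `a'` carrying the chosen roots. -/
structure TWPrimes {O : Type*} [CommRing O] [IsLocalRing O] {ι : Type*} (N : ℕ) (l : ι → ℕ)
    (a a' : ι → O) (qs : Finset ℕ) : Prop where
  prime : ∀ q ∈ qs, q.Prime
  not_dvd : ∀ q ∈ qs, ¬ q ∣ N
  of_notMem : ∀ i, l i ∉ qs → a' i = a i
  index : ∀ q ∈ qs, ∃ (i : ι) (β : O), l i = q ∧ (∀ j, l j = q → j = i) ∧
    (q : O) - 1 ∈ maximalIdeal O ∧ a i - (a' i + β) ∈ maximalIdeal O ∧
    a' i * β - 1 ∈ maximalIdeal O ∧ IsUnit (a' i - β)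

section Transport

variable {O : Type*} [CommRing O] {ι : Type*} {l : ι → ℕ} {a a' : ι → O}

/-- Changing the system at the primes of `M` keeps it non-Eisenstein. -/
theorem nonEis_of_eq (h : NonEis l a) {M : ℕ} (hM : M ≠ 0)
    (heq : ∀ i, (l i).Coprime M → a' i = a i) : NonEis l a' := by
  intro m hm
  obtain ⟨i, hi, hu⟩ := h (m * M) (mul_ne_zero hm hM)
  have h1 := congrArg (ZMod.castHom (dvd_mul_right m M) (ZMod m)) hi
  rw [map_natCast, map_one] at h1
  have h2 := congrArg (ZMod.castHom (dvd_mul_left M m) (ZMod M)) hi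
  rw [map_natCast, map_one] at h2
  refine ⟨i, h1, ?_⟩
  rw [heq i ((ZMod.isUnit_iff_coprime (l i) M).mp (h2 ▸ isUnit_one))]
  exact hu

/-- The vanishing of `ν₃` passes to multiples of the level. -/
theorem nuThree_mul_eq_zero {N : ℕ} [NeZero N] (k : ℕ) [NeZero k]
    (h : ModularCurve.nuThree N = 0) : ModularCurve.nuThree (N * k) = 0 := by
  rw [ModularCurve.nuThree, Nat.card_eq_zero] at h ⊢
  refine Or.inl ⟨fun x => ?_⟩
  rcases h with h | h
  · refine h.false ⟨ZMod.castHom (dvd_mul_right N k) (ZMod N) x.1, ?_⟩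
    have := congrArg (ZMod.castHom (dvd_mul_right N k) (ZMod N)) x.2
    simpa using this
  · exact not_finite {x : ZMod N // x ^ 2 + x + 1 = 0}

variable [IsLocalRing O]

theorem TWPrimes.nonEis {N : ℕ} {qs : Finset ℕ} (h : TWPrimes N l a a' qs) (hne : NonEis l a) :
    NonEis l a' := by
  refine nonEis_of_eq hne (Finset.prod_ne_zero_iff.mpr fun q hq => (h.prime q hq).ne_zero)
    fun i hi => h.of_notMem i fun hmem => ?_
  have := Nat.Coprime.eq_one_of_dvd hi (Finset.dvd_prod_of_mem (fun q => q) hmem)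
  exact (h.prime _ hmem).one_lt.ne' this

/-- The hypotheses of level raising at `q` hold at the Taylor–Wiles level. -/
theorem TWPrimes.raiseHyp {N q : ℕ} [NeZero N] {qs : Finset ℕ} (h : TWPrimes N l a a' qs)
    (H : RaiseHyp N q l a) : RaiseHyp (N * ∏ x ∈ qs, x) q l a' where
  ne := H.ne
  nonEis := h.nonEis H.nonEis
  raise S := by
    obtain ⟨i, hi, hu⟩ := H.raise (S ∪ qs)
    rw [Finset.mem_union, not_or] at hi
    exact ⟨i, hi.1, by rwa [h.of_notMem i hi.2]⟩
  two := H.two
  three := H.three.imp id fun h3 => by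
    have : NeZero (∏ x ∈ qs, x) :=
      ⟨Finset.prod_ne_zero_iff.mpr fun x hx => (h.prime x hx).ne_zero⟩
    exact nuThree_mul_eq_zero _ h3

end Transport

variable {O : Type*} [CommRing O] [IsDomain O] [IsDiscreteValuationRing O]
  [IsAdicComplete (maximalIdeal O) O] [Finite (ResidueField O)] [CharZero O] {ι : Type*}
  {l : ι → ℕ} (hl : ∀ i, (l i).Prime)

omit [CharZero O] in
/-- **Taylor–Wiles primes do not change the part on `Γ₀`.** -/
theorem TWPrimes.exists_equiv (qs : Finset ℕ) :
    ∀ {N N' : ℕ} [NeZero N] [NeZero N'] {a a' : ι → O}, TWPrimes N l a a' qs →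
      N' = N * ∏ q ∈ qs, q →
      ∃ e : cohPart trivChar (one_dvd N') hl a' ≃ₗ[O] cohPart trivChar (one_dvd N) hl a,
        ∀ (ℓ : ℕ) (hℓ : ℓ.Prime), ℓ ∉ qs → ∀ v w : cohPart trivChar (one_dvd N') hl a',
          (w : Coh N' trivChar O) = opP O O trivChar (one_dvd N') hℓ v →
          (e w : Coh N trivChar O) = opP O O trivChar (one_dvd N) hℓ (e v) := by
  classical
  induction qs using Finset.induction_on with
  | empty =>
    intro N N' _ _ a a' h hN'
    rw [Finset.prod_empty, mul_one] at hN'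
    subst hN'
    obtain rfl : a' = a := funext fun i => h.of_notMem i (Finset.notMem_empty _)
    exact ⟨LinearEquiv.refl _ _, fun ℓ hℓ _ v w hw => hw⟩
  | insert q s hqs ih =>
    intro N N' _ _ a a' h hN'
    obtain ⟨i₀, β, hi₀, huniq, hq1, hadd, hmul, hsep⟩ := h.index q (Finset.mem_insert_self q s)
    have hq := h.prime q (Finset.mem_insert_self q s)
    set L := N * ∏ x ∈ s, x with hL
    have : NeZero L := ⟨mul_ne_zero (NeZero.ne N) (Finset.prod_ne_zero_iff.mpr fun x hx =>
      (h.prime x (Finset.mem_insert_of_mem hx)).ne_zero)⟩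
    have : NeZero q := ⟨hq.ne_zero⟩
    have hqL : ¬ q ∣ L := fun hd => by
      rcases hq.dvd_mul.mp hd with hd | hd
      · exact h.not_dvd q (Finset.mem_insert_self q s) hd
      · obtain ⟨x, hx, hqx⟩ := hq.prime.exists_mem_finset_dvd hd
        exact hqs ((Nat.prime_dvd_prime_iff_eq hq (h.prime x (Finset.mem_insert_of_mem hx))).mp hqx ▸ hx)
    let a₁ : ι → O := fun i => if l i = q then a i else a' i
    have h1 : TWPrimes N l a a₁ s :=
      { prime := fun x hx => h.prime x (Finset.mem_insert_of_mem hx)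
        not_dvd := fun x hx => h.not_dvd x (Finset.mem_insert_of_mem hx)
        of_notMem := fun i hi => by
          by_cases hiq : l i = q
          · simp only [a₁, if_pos hiq]
          · simp only [a₁, if_neg hiq]
            exact h.of_notMem i (by simp [hi, hiq])
        index := fun x hx => by
          obtain ⟨i, β', e, hu, c1, c2, c3, c4⟩ := h.index x (Finset.mem_insert_of_mem hx)
          have hiq : l i ≠ q := fun e' => hqs (e' ▸ e ▸ hx)
          exact ⟨i, β', e, hu, c1, by simp only [a₁, if_neg hiq]; exact c2,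
            by simp only [a₁, if_neg hiq]; exact c3, by simp only [a₁, if_neg hiq]; exact c4⟩ }
    obtain ⟨e₁, he₁⟩ := ih h1 rfl
    have hN'q : N' = L * q := by
      rw [hN', Finset.prod_insert hqs, hL]; ring
    subst hN'q
    obtain ⟨W⟩ := exists_wData hq hqL
    have hTW : TWHyp l q i₀ a₁ a' (a' i₀) β :=
      { eq_q := hi₀
        uniq := huniq
        of_ne := fun i hi => by
          have : l i ≠ q := fun e => hi (huniq i e)
          simp only [a₁, if_neg this]
        eq_alpha := rfl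
        q_one := hq1
        add_mem := by simp only [a₁, if_pos hi₀]; exact hadd
        mul_mem := hmul
        sep := hsep }
    let c : cohPart trivChar (one_dvd (L * q)) hl a' →ₗ[O] cohPart trivChar (one_dvd L) hl a₁ :=
      LinearMap.codRestrict _ ((coresB O W trivChar (one_dvd L)).comp
        (cohPart trivChar (one_dvd (L * q)) hl a').subtype)
        fun y => coresB_mem_cohPart W (one_dvd L) hl hTW y.2
    have hc : Function.Bijective c := by
      refine ⟨(injective_iff_map_eq_zero c).mpr fun y hy =>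
        Subtype.ext (coresB_injOn_cohPart W (one_dvd L) hl hTW y.2 (congrArg Subtype.val hy)),
        fun φ => ?_⟩
      obtain ⟨y, hy, hy'⟩ := exists_coresB_eq W (one_dvd L) hl hTW φ.2
      exact ⟨⟨y, hy⟩, Subtype.ext hy'⟩
    refine ⟨(LinearEquiv.ofBijective c hc).trans e₁, fun ℓ hℓ hℓqs v w hw => ?_⟩
    rw [Finset.mem_insert, not_or] at hℓqs
    exact he₁ ℓ hℓ hℓqs.2 (c v) (c w) (by
      show coresB O W trivChar (one_dvd L) (w : Coh (L * q) trivChar O) = _
      rw [hw, coresB_opP W (one_dvd L) hℓ hℓqs.1]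
      rfl)

variable {M : ℕ} {D : Type*} [CommGroup D] [Fintype D] {χ : (ZMod M)ˣ →* D}
  [Fact (Odd (Nat.card D))] {N N' : ℕ} [NeZero N] [NeZero N'] {a a' : ι → O} {qs : Finset ℕ}
  (hMN : M ∣ N') (hχ : Function.Surjective χ)

/-- **The part of a Taylor–Wiles level**: free over `O[D]` on lifts of any basis of the part at the
base level, with a corestriction to that part commuting with the operators away from the
Taylor–Wiles primes. -/
theorem TWPrimes.exists_dBasis (h : TWPrimes N l a a' qs) (hN' : N' = N * ∏ q ∈ qs, q) (p : ℕ)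
    [Fact p.Prime] (hD : IsPGroup p D) (hp : (p : O) ∈ maximalIdeal O) (he : EllCond χ N')
    (hne : NonEis l a) {d : ℕ} (e₀ : Module.Basis (Fin d) O (cohPart trivChar (one_dvd N) hl a)) :
    ∃ (B : DBasis hMN hχ (cohPart χ hMN hl a') d)
      (c : cohPart χ hMN hl a' →ₗ[O] cohPart trivChar (one_dvd N) hl a)
      (e : cohPart trivChar (one_dvd N') hl a' ≃ₗ[O] cohPart trivChar (one_dvd N) hl a),
      (∀ j, c (B.vec j) = e₀ j) ∧ (∀ δ v, c (B.dia δ v) = c v) ∧ Function.Surjective c ∧
      (∀ j, coresC O χ hMN hχ (B.b j) = (e.symm (e₀ j) : Coh N' trivChar O)) ∧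
      (∀ v : cohPart χ hMN hl a', coresC O χ hMN hχ (v : Coh N' χ O) = (e.symm (c v) : Coh N' trivChar O)) ∧
      ∀ (ℓ : ℕ) (hℓ : ℓ.Prime), ℓ ∉ qs → ∀ v w : cohPart χ hMN hl a',
        (w : Coh N' χ O) = opP O O χ hMN hℓ v →
        (c w : Coh N trivChar O) = opP O O trivChar (one_dvd N) hℓ (c v) := by
  obtain ⟨e, he'⟩ := TWPrimes.exists_equiv hl qs h hN'
  obtain ⟨B, hB⟩ := Sys.exists_dBasis hMN hχ hl p hD hp he (h.nonEis hne) (e₀.map e.symm)
  let c' : cohPart χ hMN hl a' →ₗ[O] cohPart trivChar (one_dvd N') hl a' :=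
    LinearMap.codRestrict _ ((coresC O χ hMN hχ).comp (cohPart χ hMN hl a').subtype)
      fun v => coresC_mem_cohPart hMN hχ hl v.2
  refine ⟨B, e.toLinearMap.comp c', e, fun j => ?_, fun δ v => ?_, fun y => ?_, fun j => ?_,
    fun v => ?_, fun ℓ hℓ hℓq v w hw => ?_⟩
  · have h1 : c' (B.vec j) = e.symm (e₀ j) := Subtype.ext (by
      show coresC O χ hMN hχ (B.b j) = _
      rw [hB]; rfl)
    rw [LinearMap.comp_apply, LinearEquiv.coe_coe, h1, LinearEquiv.apply_symm_apply]
  · have h1 : c' (B.dia δ v) = c' v := Subtype.ext (by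
      show coresC O χ hMN hχ (B.dia δ v : Coh N' χ O) = coresC O χ hMN hχ (v : Coh N' χ O)
      rw [B.coe_dia, coresC_diamond])
    rw [LinearMap.comp_apply, LinearMap.comp_apply, h1]
  · obtain ⟨φ, hφ, hφ'⟩ := exists_coresC_eq_of_mem_cohPart hMN hχ hl he (e.symm y).2
    refine ⟨⟨φ, hφ⟩, ?_⟩
    rw [LinearMap.comp_apply, show c' ⟨φ, hφ⟩ = e.symm y from Subtype.ext hφ', LinearEquiv.coe_coe,
      LinearEquiv.apply_symm_apply]
  · rw [hB]; rfl
  · rw [LinearMap.comp_apply, LinearEquiv.coe_coe, LinearEquiv.symm_apply_apply]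
    rfl
  · rw [LinearMap.comp_apply, LinearMap.comp_apply]
    exact he' ℓ hℓ hℓq (c' v) (c' w) (by
      show coresC O χ hMN hχ (w : Coh N' χ O) = _
      rw [hw]
      exact (coresC_opP (R := O) hMN hχ hℓ _).symm)

end FLTAgent.RT.Sys
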