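import Fermat.Agent.RT.Gen.Surjective
import Fermat.Agent.RT.HeckeRep.Datum
import Fermat.Agent.RT.HeckeRep.TraceExt
import Fermat.Agent.RT.Patch.Module
import Fermat.Agent.GalRep.Dense
import Mathlib.RingTheory.Filtration

/-!
# Deformation rings are generated by traces of Frobenius elements

The polynomials in the traces of the Frobenius elements outside any finite set of primes are dense
in a deformation ring, so maps agreeing on these traces agree everywhere.
-/

set_option autoImplicit false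

noncomputable section

namespace FLTAgent.RT.Sys

open IsLocalRing FLTAgent.Deformation

attribute [local instance] dualAlg

local notation "Γℚ" => AlgebraicClosure ℚ ≃ₐ[ℚ] AlgebraicClosure ℚ

variable {𝒪 : Type} [CommRing 𝒪] [IsDomain 𝒪] [IsDiscreteValuationRing 𝒪]
  [IsAdicComplete (maximalIdeal 𝒪) 𝒪] [Finite (ResidueField 𝒪)]
  {ρbar : ResidualGaloisRep (ResidueField 𝒪)}
  {𝒟 : ∀ ⦃A : Type⦄ [CommRing A] [IsLocalRing A] [Algebra 𝒪 A], GaloisRepAdic A → Prop}

/-- The traces of Frobenius elements at the primes outside `S₁`. -/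
def frobTraces (D : GaloisRep.DeformationRingData 𝒪 ρbar 𝒟) (S₁ : Finset ℕ) : Set D.R :=
  {x | ∃ ℓ : ℕ, ℓ.Prime ∧ ℓ ∉ S₁ ∧ ∃ A : ValuationSubring (AlgebraicClosure ℚ),
    A.LiesOverPrime ℓ ∧ ∃ σ : Γℚ, A.IsFrobeniusAt σ ℓ ∧ D.ρ.trace σ = x}

variable (h𝒟 : GaloisRep.IsDeformationCondition 𝒪 𝒟)
  (D : GaloisRep.DeformationRingData 𝒪 ρbar 𝒟) (S₁ : Finset ℕ)

include h𝒟 in
/-- Maps to the dual numbers agreeing on the traces of Frobenius elements are equal. -/
theorem algHom_dual_ext {f g : D.R →ₐ[𝒪] DualNumber (ResidueField 𝒪)}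
    (h : ∀ x ∈ frobTraces D S₁, f x = g x) : f = g := by
  have hE := isArtinianTestAlgebra_dual (𝒪 := 𝒪)
  have hR := isCoeff_deformationRing D
  have := hE.isArtinian
  have := hE.isLocalHom
  have hf := hR.isLocalHom_algHom hE.isCoeff f
  have hg := hR.isLocalHom_algHom hE.isCoeff g
  refine algHom_eq_of_isEquiv D hE hf hg
    (cond_baseChangeAlong_of_complete h𝒟 hR hE f hf D.isOfType) ?_
  refine isEquiv_of_frobenius GalRep.frobeniusDense ?_ S₁ fun ℓ hℓ hℓS A hA σ hσ => ?_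
  · exact isAbsolutelyIrreducible_of_isEquiv
      (residual_baseChangeAlong_isEquiv D hE.isCoeff f hf
        (ι := ResidueField.map (algebraMap 𝒪 (DualNumber (ResidueField 𝒪)))) fun _ => rfl)
      (isAbsolutelyIrreducible_baseChangeAlong _ ρbar D.absIrr)
  · rw [CommAlg.trace_baseChangeAlong, CommAlg.trace_baseChangeAlong]
    exact h _ ⟨ℓ, hℓ, hℓS, A, hA, σ, hσ, rfl⟩

/-- Maps to the dual numbers only see the ring modulo the square of the maximal ideal. -/
theorem finite_algHom_dual : Finite (D.R →ₐ[𝒪] DualNumber (ResidueField 𝒪)) := by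
  have hE := isArtinianTestAlgebra_dual (𝒪 := 𝒪)
  have hR := isCoeff_deformationRing D
  have := hR.finite_residueField
  have : Finite (D.R ⧸ maximalIdeal D.R ^ 2) := IsLocalRing.finite_quotient_iff.mpr ⟨2, le_rfl⟩
  have : Finite (DualNumber (ResidueField 𝒪)) :=
    Finite.of_equiv (ResidueField 𝒪 × ResidueField 𝒪) (Equiv.refl _)
  let : Fintype (DualNumber (ResidueField 𝒪)) := Fintype.ofFinite _
  have key : ∀ (f : D.R →ₐ[𝒪] DualNumber (ResidueField 𝒪)), ∀ x ∈ maximalIdeal D.R ^ 2,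
      (f : D.R →+* DualNumber (ResidueField 𝒪)) x = 0 := by
    intro f x hx
    show f x = 0
    have h1 := hR.map_mem_maximalIdeal_pow hE.isCoeff f hx
    have h0 : maximalIdeal (DualNumber (ResidueField 𝒪)) ^ 2 = ⊥ := by
      rw [eq_bot_iff, pow_two, Ideal.mul_le]
      intro a ha b hb
      rw [IsLocalRing.mem_maximalIdeal, mem_nonunits_iff, TrivSqZeroExt.isUnit_iff_isUnit_fst,
        isUnit_iff_ne_zero, not_not] at ha hb
      rw [Ideal.mem_bot]
      exact TrivSqZeroExt.ext (by simp [ha]) (by simp [TrivSqZeroExt.snd_mul, ha, hb])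
    rwa [h0, Ideal.mem_bot] at h1
  refine Finite.of_injective (fun f : D.R →ₐ[𝒪] DualNumber (ResidueField 𝒪) =>
    fun z : D.R ⧸ maximalIdeal D.R ^ 2 => Ideal.Quotient.lift _ (f : D.R →+* DualNumber (ResidueField 𝒪)) (key f) z) ?_
  intro f g e
  exact AlgHom.ext fun x => congrFun e (Ideal.Quotient.mk _ x)

include h𝒟 in
/-- Finitely many traces of Frobenius elements, shifted into the maximal ideal, generate. -/
theorem exists_surjective_frobTraces :
    ∃ (n : ℕ) (t : Fin n → D.R) (c : Fin n → 𝒪)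
      (γ : MvPowerSeries (Fin n) 𝒪 →ₐ[𝒪] D.R), Function.Surjective γ ∧
      ∀ i, t i ∈ frobTraces D S₁ ∧ γ (MvPowerSeries.X i) = t i - algebraMap 𝒪 D.R (c i) := by
  classical
  have := finite_algHom_dual D
  have hsep : ∀ q : {q : (D.R →ₐ[𝒪] DualNumber (ResidueField 𝒪)) ×
      (D.R →ₐ[𝒪] DualNumber (ResidueField 𝒪)) // q.1 ≠ q.2},
      ∃ x ∈ frobTraces D S₁, q.1.1 x ≠ q.1.2 x := fun q => by
    by_contra hcon
    push Not at hcon
    exact q.2 (algHom_dual_ext h𝒟 D S₁ hcon)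
  choose x hx hne using hsep
  obtain ⟨n, ⟨e⟩⟩ := Finite.exists_equiv_fin {q : (D.R →ₐ[𝒪] DualNumber (ResidueField 𝒪)) ×
      (D.R →ₐ[𝒪] DualNumber (ResidueField 𝒪)) // q.1 ≠ q.2}
  let t : Fin n → D.R := fun i => x (e.symm i)
  choose c hc using fun i => D.residue_surjective (residue D.R (t i))
  let v : Fin n → D.R := fun i => t i - algebraMap 𝒪 D.R (c i)
  have hv : ∀ i, v i ∈ maximalIdeal D.R := fun i => by
    rw [← residue_eq_zero_iff, map_sub, sub_eq_zero]
    exact (hc i).symm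
  have hsub : Subsingleton {f : D.R →ₐ[𝒪] DualNumber (ResidueField 𝒪) // ∀ i, f (v i) = 0} := by
    refine ⟨fun f g => Subtype.ext (by_contra fun h => hne ⟨(f.1, g.1), h⟩ ?_)⟩
    have h1 := f.2 (e ⟨(f.1, g.1), h⟩)
    have h2 := g.2 (e ⟨(f.1, g.1), h⟩)
    simp only [v, t, Equiv.symm_apply_apply, map_sub, AlgHom.commutes, sub_eq_zero] at h1 h2
    exact h1.trans h2.symm
  obtain ⟨γ, hγ, hγv⟩ := Gen.exists_surjective_extend (isCoeff_deformationRing D) v hv 0
    (by rw [pow_zero]; exact Finite.card_le_one_iff_subsingleton.mpr hsub)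
  refine ⟨n, t, c, γ.comp (MvPowerSeries.renameEquiv (R := 𝒪)
    (Equiv.sumEmpty (Fin n) (Fin 0)).symm).toAlgHom, hγ.comp (AlgEquiv.surjective _),
    fun i => ⟨hx _, ?_⟩⟩
  show γ (MvPowerSeries.rename (R := 𝒪) _ (MvPowerSeries.X i)) = _
  rw [MvPowerSeries.rename_X]
  exact hγv i

include h𝒟 in
/-- **The polynomials in the traces of Frobenius elements are dense.** -/
theorem exists_mem_adjoin_sub_mem (r : D.R) (n : ℕ) :
    ∃ x ∈ Algebra.adjoin 𝒪 (frobTraces D S₁), r - x ∈ maximalIdeal D.R ^ n := by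
  obtain ⟨m, t, c, γ, hγ, ht⟩ := exists_surjective_frobTraces h𝒟 D S₁
  obtain ⟨f, rfl⟩ := hγ r
  obtain ⟨q, hq⟩ := Patch.exists_polynomial_sub_mem f n
  refine ⟨γ (q : MvPowerSeries (Fin m) 𝒪), ?_, ?_⟩
  · have : ∀ q, (γ.comp (MvPolynomial.coeToMvPowerSeries.algHom 𝒪)) q ∈
        Algebra.adjoin 𝒪 (frobTraces D S₁) := by
      intro q
      induction q using MvPolynomial.induction_on with
      | C a =>
        rw [← MvPolynomial.algebraMap_eq, AlgHom.commutes]
        exact Subalgebra.algebraMap_mem _ a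
      | add a b ha hb => rw [map_add]; exact add_mem ha hb
      | mul_X a i ha =>
        rw [map_mul]
        refine mul_mem ha ?_
        rw [AlgHom.comp_apply]
        simp only [MvPolynomial.coeToMvPowerSeries.algHom_apply, Algebra.algebraMap_self,
          MvPowerSeries.map_id, RingHom.id_apply, MvPolynomial.coe_X]
        rw [(ht i).2]
        exact sub_mem (Algebra.subset_adjoin (ht i).1) (Subalgebra.algebraMap_mem _ _)
    simpa using this q
  · rw [← map_sub]
    exact isCoeff_powerSeries.map_mem_maximalIdeal_pow (isCoeff_deformationRing D) γ hq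

include h𝒟 in
/-- Homomorphisms to a finite algebra agreeing on the traces of Frobenius elements are equal. -/
theorem algHom_finite_ext_frobTraces {E : Type*} [Ring E] [Algebra 𝒪 E] [Finite E]
    {φ ψ : D.R →ₐ[𝒪] E} (h : ∀ x ∈ frobTraces D S₁, φ x = ψ x) : φ = ψ := by
  refine AlgHom.ext fun r => ?_
  obtain ⟨n, hn⟩ := Patch.exists_pow_le_ker (φ : D.R →+* E)
  obtain ⟨m, hm⟩ := Patch.exists_pow_le_ker (ψ : D.R →+* E)
  obtain ⟨x, hx, hrx⟩ := exists_mem_adjoin_sub_mem h𝒟 D S₁ r (n + m)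
  have e1 : φ r = φ x := by
    have := hn (Ideal.pow_le_pow_right (Nat.le_add_right n m) hrx)
    rwa [RingHom.mem_ker, map_sub, sub_eq_zero] at this
  have e2 : ψ r = ψ x := by
    have := hm (Ideal.pow_le_pow_right (Nat.le_add_left m n) hrx)
    rwa [RingHom.mem_ker, map_sub, sub_eq_zero] at this
  rw [e1, e2]
  exact (AlgHom.eqOn_adjoin_iff (φ := φ) (ψ := ψ)).mpr h hx

include h𝒟 in
/-- **A map intertwining the traces of Frobenius elements intertwines the whole ring.** -/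
theorem intertwine_of_frobTraces {P Q : Type} [AddCommGroup P] [Module 𝒪 P] [Module.Finite 𝒪 P]
    [AddCommGroup Q] [Module 𝒪 Q] [Module.Finite 𝒪 Q] (φ : D.R →ₐ[𝒪] Module.End 𝒪 P)
    (ψ : D.R →ₐ[𝒪] Module.End 𝒪 Q) (f : P →ₗ[𝒪] Q)
    (h : ∀ x ∈ frobTraces D S₁, f ∘ₗ φ x = ψ x ∘ₗ f) (r : D.R) : f ∘ₗ φ r = ψ r ∘ₗ f := by
  let T : Subalgebra 𝒪 D.R :=
    { carrier := {x | f ∘ₗ φ x = ψ x ∘ₗ f}
      add_mem' := fun {a b} ha hb => by
        change f ∘ₗ φ a = ψ a ∘ₗ f at ha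
        change f ∘ₗ φ b = ψ b ∘ₗ f at hb
        show f ∘ₗ φ _ = ψ _ ∘ₗ f
        rw [map_add, map_add, LinearMap.comp_add, LinearMap.add_comp, ha, hb]
      mul_mem' := fun {a b} ha hb => by
        change f ∘ₗ φ a = ψ a ∘ₗ f at ha
        change f ∘ₗ φ b = ψ b ∘ₗ f at hb
        show f ∘ₗ φ _ = ψ _ ∘ₗ f
        rw [map_mul, map_mul, Module.End.mul_eq_comp, Module.End.mul_eq_comp,
          ← LinearMap.comp_assoc, ha, LinearMap.comp_assoc, hb, LinearMap.comp_assoc]
      algebraMap_mem' := fun a => by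
        show f ∘ₗ φ _ = ψ _ ∘ₗ f
        rw [AlgHom.commutes, AlgHom.commutes]
        ext v
        simp [Module.algebraMap_end_apply] }
  have hT : Algebra.adjoin 𝒪 (frobTraces D S₁) ≤ T := Algebra.adjoin_le h
  refine LinearMap.ext fun v => sub_eq_zero.mp ?_
  rw [← Submodule.mem_bot 𝒪, ← Ideal.iInf_pow_smul_eq_bot_of_isLocalRing (R := 𝒪) (M := Q)
    (I := maximalIdeal 𝒪) (maximalIdeal.isMaximal 𝒪).ne_top, Submodule.mem_iInf]
  intro n
  -- both actions modulo the `n`th power of the maximal ideal factor through a finite ring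
  have key : ∀ {X : Type} [AddCommGroup X] [Module 𝒪 X] [Module.Finite 𝒪 X]
      (χ : D.R →ₐ[𝒪] Module.End 𝒪 X), ∃ N, ∀ y ∈ maximalIdeal D.R ^ N, ∀ u : X,
        χ y u ∈ maximalIdeal 𝒪 ^ n • (⊤ : Submodule 𝒪 X) := by
    intro X _ _ _ χ
    let U := maximalIdeal 𝒪 ^ n • (⊤ : Submodule 𝒪 X)
    have hU : ∀ (g : Module.End 𝒪 X), U ≤ U.comap g := fun g => by
      rw [← Submodule.map_le_iff_le_comap, Submodule.map_smul'']
      exact Submodule.smul_mono le_rfl le_top
    let red : Module.End 𝒪 X →+* Module.End 𝒪 (X ⧸ U) :=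
      { toFun := fun g => U.mapQ U g (hU g)
        map_one' := by ext; rfl
        map_mul' := fun a b => by ext; rfl
        map_zero' := by ext; simp
        map_add' := fun a b => by ext; simp }
    have : Finite (𝒪 ⧸ maximalIdeal 𝒪 ^ n) := IsLocalRing.finite_quotient_iff.mpr ⟨n, le_rfl⟩
    have : Finite (X ⧸ U) := Module.finite_of_finite (𝒪 ⧸ maximalIdeal 𝒪 ^ n)
    have : Finite (Module.End 𝒪 (X ⧸ U)) := Finite.of_injective _ DFunLike.coe_injective
    obtain ⟨N, hN⟩ := Patch.exists_pow_le_ker (red.comp (χ : D.R →+* Module.End 𝒪 X))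
    refine ⟨N, fun y hy u => ?_⟩
    exact (Submodule.Quotient.mk_eq_zero U).mp (LinearMap.congr_fun (hN hy) (Submodule.Quotient.mk u))
  obtain ⟨N₁, hN₁⟩ := key φ
  obtain ⟨N₂, hN₂⟩ := key ψ
  obtain ⟨x, hx, hrx⟩ := exists_mem_adjoin_sub_mem h𝒟 D S₁ r (N₁ + N₂)
  have e : (f ∘ₗ φ r) v - (ψ r ∘ₗ f) v = f (φ (r - x) v) - ψ (r - x) (f v) := by
    have e0 := LinearMap.congr_fun (hT hx) v
    simp only [LinearMap.comp_apply] at e0 ⊢
    rw [map_sub, map_sub, LinearMap.sub_apply, LinearMap.sub_apply, map_sub, e0]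
    abel
  rw [e]
  refine Submodule.sub_mem _ ?_ (hN₂ _ (Ideal.pow_le_pow_right (Nat.le_add_left N₂ N₁) hrx) _)
  have h1 := Submodule.mem_map_of_mem (f := f)
    (hN₁ _ (Ideal.pow_le_pow_right (Nat.le_add_right N₁ N₂) hrx) v)
  rw [Submodule.map_smul''] at h1
  exact Submodule.smul_mono le_rfl le_top h1

end FLTAgent.RT.Sys
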