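import Fermat.Agent.RT.Sys.DiamondMat
import Fermat.Agent.RT.Sys.TraceGen

/-!
# Matrices of the deformation ring acting on a part

An action of a deformation ring through which the traces of Frobenius elements act as the good
operators commutes with the diamonds, hence gives matrices over any algebra with a character.
-/

set_option autoImplicit false
set_option linter.unusedSectionVars false

noncomputable section

namespace FLTAgent.RT.Sys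

open IsLocalRing

local notation "Γℚ" => AlgebraicClosure ℚ ≃ₐ[ℚ] AlgebraicClosure ℚ

variable {𝒪 : Type} [CommRing 𝒪] [IsDomain 𝒪] [IsDiscreteValuationRing 𝒪]
  [IsAdicComplete (maximalIdeal 𝒪) 𝒪] [Finite (ResidueField 𝒪)] [CharZero 𝒪]
  {ρbar : ResidualGaloisRep (ResidueField 𝒪)}
  {𝒟 : ∀ ⦃A : Type⦄ [CommRing A] [IsLocalRing A] [Algebra 𝒪 A], GaloisRepAdic A → Prop}
  {M N d : ℕ} {D : Type} [CommGroup D] [Fintype D] {χ : (ZMod M)ˣ →* D}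
  [Fact (Odd (Nat.card D))] [NeZero N] {hMN : M ∣ N} {hχ : Function.Surjective χ} {ι : Type*}
  {l : ι → ℕ} {hl : ∀ i, (l i).Prime} {a : ι → 𝒪}

/-- The traces of Frobenius elements outside `S₁` act as the operators at their primes. -/
def IsFrobCompat (Dat : GaloisRep.DeformationRingData 𝒪 ρbar 𝒟) (S₁ : Finset ℕ)
    (φ : Dat.R →ₐ[𝒪] Module.End 𝒪 (cohPart χ hMN hl a)) : Prop :=
  ∀ (ℓ : ℕ) (hℓ : ℓ.Prime), ℓ ∉ S₁ → ∀ A : ValuationSubring (AlgebraicClosure ℚ),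
    A.LiesOverPrime ℓ → ∀ σ : Γℚ, A.IsFrobeniusAt σ ℓ → ∀ v,
      (φ (Dat.ρ.trace σ) v : Coh N χ 𝒪) = opP 𝒪 𝒪 χ hMN hℓ v

theorem IsFrobCompat.mono {Dat : GaloisRep.DeformationRingData 𝒪 ρbar 𝒟} {S₁ S₂ : Finset ℕ}
    {φ : Dat.R →ₐ[𝒪] Module.End 𝒪 (cohPart χ hMN hl a)} (h : IsFrobCompat Dat S₁ φ)
    (hS : S₁ ⊆ S₂) : IsFrobCompat Dat S₂ φ :=
  fun ℓ hℓ hℓS => h ℓ hℓ fun h' => hℓS (hS h')

/-- **The action commutes with the diamonds.** -/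
theorem IsFrobCompat.mem_equivEnd (h𝒟 : GaloisRep.IsDeformationCondition 𝒪 𝒟)
    {Dat : GaloisRep.DeformationRingData 𝒪 ρbar 𝒟} {S₁ : Finset ℕ}
    {φ : Dat.R →ₐ[𝒪] Module.End 𝒪 (cohPart χ hMN hl a)} (h : IsFrobCompat Dat S₁ φ)
    (B : DBasis hMN hχ (cohPart χ hMN hl a) d) (r : Dat.R) : φ r ∈ B.equivEnd := by
  have := moduleFinite_coh (χ := χ) 𝒪 𝒪 hMN
  have := isNoetherian_of_isNoetherianRing_of_finite 𝒪 (Coh N χ 𝒪)
  refine B.mem_equivEnd.mpr fun δ x => ?_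
  refine (LinearMap.congr_fun (intertwine_of_frobTraces h𝒟 Dat S₁ φ φ (B.dia δ) ?_ r) x).symm
  rintro _ ⟨ℓ, hℓ, hℓS, A, hA, σ, hσ, rfl⟩
  refine LinearMap.ext fun v => Subtype.ext ?_
  show (B.dia δ (φ (Dat.ρ.trace σ) v) : Coh N χ 𝒪) = φ (Dat.ρ.trace σ) (B.dia δ v)
  rw [B.coe_dia, h ℓ hℓ hℓS A hA σ hσ, h ℓ hℓ hℓS A hA σ hσ, B.coe_dia]
  exact LinearMap.congr_fun (diamond_opP_comm 𝒪 𝒪 hMN hχ δ hℓ).eq _

variable (B : DBasis hMN hχ (cohPart χ hMN hl a) d) {S : Type*} [CommRing S] [Algebra 𝒪 S]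
  (ε : D →* S) {R : Type} [CommRing R] [Algebra 𝒪 R]

/-- The matrices of an action commuting with the diamonds, along a map into the acting ring. -/
def actMat {P : Type*} [CommRing P] [Algebra 𝒪 P] (φ : R →ₐ[𝒪] Module.End 𝒪 (cohPart χ hMN hl a))
    (hφ : ∀ r, φ r ∈ B.equivEnd) (γ : P →ₐ[𝒪] R) : P →ₐ[𝒪] Matrix (Fin d) (Fin d) S :=
  ((B.matHom ε).comp (φ.codRestrict B.equivEnd hφ)).comp γ

theorem actMat_apply {P : Type*} [CommRing P] [Algebra 𝒪 P]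
    (φ : R →ₐ[𝒪] Module.End 𝒪 (cohPart χ hMN hl a)) (hφ : ∀ r, φ r ∈ B.equivEnd)
    (γ : P →ₐ[𝒪] R) (x : P) : actMat B ε φ hφ γ x = B.mat B ε (φ (γ x)) := rfl

theorem ker_le_ker_actMat {P : Type*} [CommRing P] [Algebra 𝒪 P]
    (φ : R →ₐ[𝒪] Module.End 𝒪 (cohPart χ hMN hl a)) (hφ : ∀ r, φ r ∈ B.equivEnd)
    (γ : P →ₐ[𝒪] R) : RingHom.ker γ ≤ RingHom.ker (actMat B ε φ hφ γ) := fun x hx => by
  rw [RingHom.mem_ker] at hx ⊢
  rw [actMat_apply, hx, map_zero]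
  exact B.mat_zero B ε

/-- Nilpotent elements act nilpotently with the rank as exponent. -/
theorem actMat_pow_eq_zero {P : Type*} [CommRing P] [Algebra 𝒪 P]
    (φ : R →ₐ[𝒪] Module.End 𝒪 (cohPart χ hMN hl a)) (hφ : ∀ r, φ r ∈ B.equivEnd)
    (γ : P →ₐ[𝒪] R) {x : P} (hx : IsNilpotent (φ (γ x))) {K : ℕ} (hK : d ≤ K) :
    actMat B ε φ hφ γ (x ^ K) = 0 := by
  rw [actMat_apply, map_pow, map_pow,
    pow_eq_zero_of_le hK (B.pow_eq_zero (B.mem_equivEnd.mp (hφ _)) hx)]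
  exact B.mat_zero B ε

end FLTAgent.RT.Sys
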