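import Fermat.Agent.RT.Sys.Lower

/-!
# The characters for lowering

On `ℤ/p × (ℤ/pᵏ) ^ r` the character `ζ²` on the first factor times the character of the
Taylor–Wiles diamonds is congruent to the latter modulo `ζ - 1`.
-/

set_option autoImplicit false

noncomputable section

namespace FLTAgent.RT.Sys

open IsLocalRing

variable {𝒪 : Type} [CommRing 𝒪] [IsLocalRing 𝒪]

/-- The diamonds of a level used for lowering. -/
abbrev LowerGroup (p k r : ℕ) : Type :=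
  Multiplicative (ZMod p) × Multiplicative (Fin r → ZMod (p ^ k))

theorem odd_card_lowerGroup {p : ℕ} (k r : ℕ) [Fact p.Prime] (hp2 : p ≠ 2) :
    Odd (Nat.card (LowerGroup p k r)) := by
  rw [Nat.card_prod, Nat.card_congr Multiplicative.toAdd, Nat.card_zmod]
  exact ((Fact.out : p.Prime).odd_of_ne_two hp2).mul (odd_card_twGroup p k r hp2)

theorem isPGroup_lowerGroup (p k r : ℕ) [Fact p.Prime] : IsPGroup p (LowerGroup p k r) := by
  obtain ⟨a, ha⟩ := (isPGroup_twGroup p k r).exists_card_eq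
  exact IsPGroup.of_card (n := 1 + a) (by
    rw [Nat.card_prod, Nat.card_congr Multiplicative.toAdd, Nat.card_zmod, ha, pow_add, pow_one])

/-- **The characters for lowering**: `ζ²` at the first generator, `1 + y_j` at the others. -/
theorem exists_lowerEps {p k r n : ℕ} [Fact p.Prime] (hp : (p : 𝒪) ∈ maximalIdeal 𝒪)
    (hn : n ≤ k + 1) {ζ : 𝒪} (hζ : ζ ^ p = 1) :
    ∃ (ε : LowerGroup p k r →* STrunc 𝒪 r n) (κ : LowerGroup p k r →* 𝒪)
      (ε₁ : Multiplicative (Fin r → ZMod (p ^ k)) →* STrunc 𝒪 r n),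
      (∀ δ, ε δ = algebraMap 𝒪 _ (κ δ) * ε₁ (MonoidHom.snd _ _ δ)) ∧
      κ (Multiplicative.ofAdd 1, 1) = ζ ^ 2 ∧
      (∀ j, ε₁ (twGen j) = 1 + yVar r n j) ∧ (∀ j, ε (1, twGen j) = 1 + yVar r n j) ∧
      ε (Multiplicative.ofAdd 1, 1) = algebraMap 𝒪 _ (ζ ^ 2) ∧
      ∀ δ, algebraMap 𝒪 _ (ζ - 1) ∣ ε δ - ε₁ (MonoidHom.snd _ _ δ) := by
  obtain ⟨ε₁, hε₁⟩ := exists_twEps (r := r) hp hn
  obtain ⟨κ, hκ⟩ : ∃ κ : Multiplicative (ZMod p) →* 𝒪,
      ∀ a, κ a = (ζ ^ 2) ^ (Multiplicative.toAdd a).val := by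
    have hp2 : (ζ ^ 2) ^ p = 1 := by rw [← pow_mul, mul_comm, pow_mul, hζ, one_pow]
    exact ⟨{ toFun := fun a => (ζ ^ 2) ^ (Multiplicative.toAdd a).val
             map_one' := by simp
             map_mul' := fun a b => by
               rw [← pow_add, toAdd_mul, ZMod.val_add, ← pow_eq_pow_mod _ hp2] },
      fun a => rfl⟩
  have : Fact (1 < p) := ⟨(Fact.out : p.Prime).one_lt⟩
  refine ⟨((algebraMap 𝒪 (STrunc 𝒪 r n)).toMonoidHom.comp κ).coprod ε₁,
    κ.comp (MonoidHom.fst _ _), ε₁, fun δ => rfl, ?_, hε₁, fun j => by simp [hε₁], ?_, fun δ => ?_⟩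
  · simp [hκ, ZMod.val_one]
  · simp [hκ, ZMod.val_one]
  · rw [MonoidHom.coprod_apply, MonoidHom.comp_apply, hκ, MonoidHom.coe_snd,
      RingHom.toMonoidHom_eq_coe, MonoidHom.coe_coe,
      show ∀ a b : STrunc 𝒪 r n, a * b - b = (a - 1) * b from fun a b => by ring]
    refine dvd_mul_of_dvd_left ?_ _
    rw [← map_one (algebraMap 𝒪 (STrunc 𝒪 r n)), ← map_sub]
    refine map_dvd _ (dvd_trans ?_ (sub_one_dvd_pow_sub_one _ _))
    exact sub_one_dvd_pow_sub_one _ _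

end FLTAgent.RT.Sys
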