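import Fermat.Agent.RT.Sys.Inst
import Fermat.Agent.RT.Sys.LowerEps

/-!
# The base level of a system, and the norms at a level for lowering

Setting the diamond parameters to zero, a stage acts through the deformation ring of the base
level; at a level with vanishing old part a power of the raising element kills the norms.
-/

set_option autoImplicit false
set_option linter.unusedSectionVars false

noncomputable section

namespace FLTAgent.RT.Sys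

open IsLocalRing Matrix FLTAgent.GalRep FLTAgent.Deformation

variable {𝒪 : Type} [CommRing 𝒪] [IsDomain 𝒪] [IsDiscreteValuationRing 𝒪]
  [IsAdicComplete (maximalIdeal 𝒪) 𝒪] [Finite (ResidueField 𝒪)] [CharZero 𝒪]

/-- An action on a module with a basis as matrices. -/
def baseMat {R P : Type} [CommRing R] [Algebra 𝒪 R] [AddCommGroup P] [Module 𝒪 P] {d : ℕ}
    (e : Module.Basis (Fin d) 𝒪 P) (φ : R →ₐ[𝒪] Module.End 𝒪 P) :
    R →ₐ[𝒪] Matrix (Fin d) (Fin d) 𝒪 :=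
  (LinearMap.toMatrixAlgEquiv e).toAlgHom.comp φ

theorem baseMat_apply {R P : Type} [CommRing R] [Algebra 𝒪 R] [AddCommGroup P] [Module 𝒪 P]
    {d : ℕ} (e : Module.Basis (Fin d) 𝒪 P) (φ : R →ₐ[𝒪] Module.End 𝒪 P) (x : R) :
    baseMat e φ x = LinearMap.toMatrix e e (φ x) := rfl

theorem baseMat_eq_zero {R P : Type} [CommRing R] [Algebra 𝒪 R] [AddCommGroup P] [Module 𝒪 P]
    {d : ℕ} (e : Module.Basis (Fin d) 𝒪 P) (φ : R →ₐ[𝒪] Module.End 𝒪 P) {x : R} (h : φ x = 0) :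
    baseMat e φ x = 0 := by
  rw [baseMat_apply, h, map_zero]

variable {ι X : Type} [Finite ι] [Finite X] [DecidableEq ι] {Ds : ι → LocalDatum 𝒪} {qs : ι → ℕ}
  {ρbar : ResidualGaloisRep (ResidueField 𝒪)} {rank : Finset ι → ℕ} {p : ℕ} {J : Type}
  {l : J → ℕ} {hl : ∀ j, (l j).Prime} {r : ℕ} {Δ : Type} [CommGroup Δ] [Fintype Δ]
  [Fact (Odd (Nat.card Δ))] {gen : Fin r → Δ}

/-- **A stage acts through the base level once the diamond parameters are zero**: the hypothesis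
`hbase` of the end of the chain. -/
theorem act_augT_eq_baseMat (L : LevelData Ds qs X ρbar rank p l hl r Δ gen) {n : ℕ}
    (ε : Δ →* STrunc 𝒪 r n)
    (hε : ((augTₐ (𝒪 := 𝒪) r n : STrunc 𝒪 r n →* 𝒪 ⧸ maximalIdeal 𝒪 ^ n)).comp ε = 1)
    (A : Finset ι) {P₀ : Type} [AddCommGroup P₀] [Module 𝒪 P₀]
    (e : Module.Basis (Fin (rank A)) 𝒪 P₀) {R₀ : Type} [CommRing R₀] [Algebra 𝒪 R₀]
    (φ₀ : R₀ →ₐ[𝒪] Module.End 𝒪 P₀) (f : L.Dat.R →ₐ[𝒪] R₀)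
    {c : cohPart L.χ (L.dvd A) hl L.a →ₗ[𝒪] P₀} (hc : ∀ j, c ((L.basis A).vec j) = e j)
    (hd : ∀ δ v, c ((L.basis A).dia δ v) = c v)
    (h : ∀ x, c ∘ₗ L.φ A x = φ₀ (f x) ∘ₗ c) (g : MvPowerSeries (LocVar ι X) 𝒪) :
    (L.act ε A g).map (augT r n) =
      (baseMat e φ₀ (f (L.γ g))).map (Ideal.Quotient.mk (maximalIdeal 𝒪 ^ n)) :=
  L.act_augT ε hε A e hc hd (h (L.γ g))

end FLTAgent.RT.Sys

namespace FLTAgent.RT.Sys

open IsLocalRing Matrix FLTAgent.GalRep FLTAgent.Deformation LevelRaise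

local notation "Γℚ" => AlgebraicClosure ℚ ≃ₐ[ℚ] AlgebraicClosure ℚ

variable {𝒪 : Type} [CommRing 𝒪] [IsDomain 𝒪] [IsDiscreteValuationRing 𝒪]
  [IsAdicComplete (maximalIdeal 𝒪) 𝒪] [Finite (ResidueField 𝒪)] [CharZero 𝒪]
  {ρbar : ResidualGaloisRep (ResidueField 𝒪)}
  {𝒟 : ∀ ⦃A : Type⦄ [CommRing A] [IsLocalRing A] [Algebra 𝒪 A], GaloisRepAdic A → Prop}

/-- **At a level for lowering a power of the raising element kills the norms**: the input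
`LowerLevel.kills`, from the vanishing of the part without the prime. -/
theorem exists_pow_raise_kills (h𝒟 : GaloisRep.IsDeformationCondition 𝒪 𝒟)
    {Dat : GaloisRep.DeformationRingData 𝒪 ρbar 𝒟} (h35 : LevelDrop.NewformSpecialCharpoly)
    {M M' N q d : ℕ} [NeZero N] [NeZero q] (W : WData N q) {D D' : Type} [CommGroup D] [Fintype D]
    [CommGroup D'] [Fintype D'] {χ : (ZMod M)ˣ →* D} {χ' : (ZMod M')ˣ →* D'}
    [Fact (Odd (Nat.card D))] [Fact (Odd (Nat.card D'))] {hMN : M ∣ N * q}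
    {hχ : Function.Surjective χ} (hM'N : M' ∣ N) (π : D →* D') [Fintype π.ker] (hM'M : M' ∣ M)
    (hχ' : π.comp χ = χ'.comp (ZMod.unitsMap hM'M)) {J : Type} {l : J → ℕ}
    {hl : ∀ i, (l i).Prime} (hne : ∀ i, l i ≠ q) {a : J → 𝒪} (hNE : NonEis l a)
    (hsq : Squarefree M') (hex : ∀ r : ℕ, r.Prime → r ∣ M' → ¬ r ^ 2 ∣ N) {p : ℕ} [Fact p.Prime]
    (hp : (p : 𝒪) ∈ maximalIdeal 𝒪) (hqp : q ≠ p) (h0 : cohPart χ' hM'N hl a = ⊥)
    (B : DBasis hMN hχ (cohPart χ hMN hl a) d) {S₁ S₁' : Finset ℕ}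
    (hkl : ∀ i, l i ∣ M → l i ∣ M') (hkS : ∀ ℓ : ℕ, ℓ.Prime → ℓ ∣ M → ℓ ∈ S₁ ∪ S₁')
    {φ : Dat.R →ₐ[𝒪] Module.End 𝒪 (cohPart χ hMN hl a)} (hφ : IsFrobCompat Dat S₁ φ)
    {φ' : Dat.R →ₐ[𝒪] Module.End 𝒪 (cohPart χ' (hM'N.trans (dvd_mul_right N q)) hl a)}
    (hφ' : IsFrobCompat Dat S₁' φ') (Aq : ValuationSubring (AlgebraicClosure ℚ))
    (hAq : Aq.LiesOverPrime q) (σq : Γℚ) (hσq : Aq.IsFrobeniusAt σq q) :
    ∃ m : ℕ, ∀ v, (φ (Dat.ρ.trace σq ^ 2 - ((q : Dat.R) + 1) ^ 2) ^ m)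
      (∑ δ : π.ker, B.dia (δ : D) v) = 0 :=
  exists_pow_kills_norms h𝒟 B π hM'M hχ' hkl hkS hφ
    (φ' := φ') hφ'
    (isNilpotent_raise_of_cohPart_eq_bot W hM'N hl hne h𝒟 h35 hNE hsq hex hp hqp h0 hφ' Aq hAq
      σq hσq)

end FLTAgent.RT.Sys
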