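import Fermat.Agent.RT.Sys.Act
import Fermat.Agent.RT.HeckeRep.CohRep
import Fermat.Agent.RT.Coh.Theta
import Fermat.Agent.RT.LocalFacts
import Fermat.Agent.RT.Gen.LocalCoord

/-!
# The action of a deformation ring on a Taylor–Wiles level

The action exists as soon as the maximal Hecke representation satisfies the deformation condition;
it factors through the smaller deformation ring unramified at a prime outside the level, so the
inertia coordinates there act as zero and the trace of Frobenius as the operator.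
-/

set_option autoImplicit false
set_option linter.unusedSectionVars false

noncomputable section

namespace FLTAgent.RT.Sys

open IsLocalRing Matrix FLTAgent.GalRep FLTAgent.Deformation

local notation "Γℚ" => AlgebraicClosure ℚ ≃ₐ[ℚ] AlgebraicClosure ℚ

variable {𝒪 : Type} [CommRing 𝒪] [IsDomain 𝒪] [IsDiscreteValuationRing 𝒪]
  [IsAdicComplete (maximalIdeal 𝒪) 𝒪] [Finite (ResidueField 𝒪)] [CharZero 𝒪]
  {ρbar : ResidualGaloisRep (ResidueField 𝒪)}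
  {M N : ℕ} {D : Type} [CommGroup D] [Fintype D] {χ : (ZMod M)ˣ →* D}
  [Fact (Odd (Nat.card D))] [NeZero N] {hMN : M ∣ N} {ι : Type} {l : ι → ℕ}
  {hl : ∀ i, (l i).Prime} {a : ι → 𝒪}
  {𝒟 : ∀ ⦃A : Type⦄ [CommRing A] [IsLocalRing A] [Algebra 𝒪 A], GaloisRepAdic A → Prop}

/-- **A deformation ring acts on the part of a level**, if the maximal Hecke representation
satisfies its condition. -/
theorem exists_isFrobCompat (h𝒟 : GaloisRep.IsDeformationCondition 𝒪 𝒟)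
    (Dat : GaloisRep.DeformationRingData 𝒪 ρbar 𝒟) (hne : NonEis l a) (hsq : Squarefree M)
    (hex : ∀ q : ℕ, q.Prime → q ∣ M → ¬ q ^ 2 ∣ N) [Nontrivial (cohPart χ hMN hl a)]
    {N' : ℕ} [NeZero N'] (hN' : N' = N * M) {p : ℕ} [Fact p.Prime] {S : Finset ℕ}
    (hmod : Nonempty (MatModel N' p ↑S)) (hS : ∀ q : ℕ, q.Prime → q ∣ N' → q ∈ S) (hpS : p ∈ S)
    (hp2 : p ≠ 2) (hp : (p : 𝒪) ∈ maximalIdeal 𝒪)
    (hcov : ∀ ℓ : ℕ, ℓ.Prime → ¬ ℓ ∣ N' → ℓ ∉ S → ∃ i, l i = ℓ) [Nonempty ι]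
    (habs : ρbar.IsAbsolutelyIrreducible) (S₁ : Finset ℕ)
    (hres : ∀ i, ¬ l i ∣ N' → l i ∉ S → l i ∉ S₁ → l i ≠ p →
      ∀ A : ValuationSubring (AlgebraicClosure ℚ), A.LiesOverPrime (l i) →
        ∀ σ : Γℚ, A.IsFrobeniusAt σ (l i) →
          LinearMap.trace (ResidueField 𝒪) ρbar.V (ρbar.ρ σ) = residue 𝒪 (a i))
    (hmax : ∀ (b : ℕ → 𝒪),
      (∀ ℓ : ℕ, ℓ.Prime → ¬ ℓ ∣ N' → ℓ ∉ S → ∃ i, l i = ℓ ∧ b ℓ = a i) →
      ∀ H : MaxDatum N' S 𝒪 b ρbar, 𝒟 H.H.ρ) :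
    ∃ φ : Dat.R →ₐ[𝒪] Module.End 𝒪 (cohPart χ hMN hl a),
      IsFrobCompat Dat S φ ∧ ∀ r s, Commute (φ r) (φ s) := by
  have := isAddTorsionFree_of_charZero (O := 𝒪)
  obtain ⟨Θ, hΘ⟩ := exists_theta (χ := χ) hMN hl a hne hsq hex hN'
  obtain ⟨φ, hcomm, -, hφ⟩ := exists_algHom_cohPart hMN hl a hmod hS hpS hp2 hp hcov Θ
    (fun ℓ hℓ hℓN _ v => hΘ ℓ hℓ hℓN v) habs S₁ hres h𝒟 Dat hmax
  refine ⟨φ, fun ℓ hℓ hℓS A hA σ hσ v => ?_, hcomm⟩
  have hℓN : ¬ ℓ ∣ N' := fun hd => hℓS (hS ℓ hℓ hd)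
  rw [hφ ℓ hℓ hℓN hℓS A hA σ hσ]
  exact hΘ ℓ hℓ hℓN v

variable {𝒟' : ∀ ⦃A : Type⦄ [CommRing A] [IsLocalRing A] [Algebra 𝒪 A], GaloisRepAdic A → Prop}

/-- A deformation ring maps to that of a stronger condition. -/
theorem exists_algHom_of_le (Dat : GaloisRep.DeformationRingData 𝒪 ρbar 𝒟)
    (Dat' : GaloisRep.DeformationRingData 𝒪 ρbar 𝒟') (h : 𝒟 Dat'.ρ) :
    ∃ (π : Dat.R →ₐ[𝒪] Dat'.R) (hπ : IsLocalHom (π : Dat.R →+* Dat'.R)),
      (Dat.ρ.baseChangeAlong (π : Dat.R →+* Dat'.R) hπ).IsEquiv Dat'.ρ := by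
  obtain ⟨π, ⟨hπ, he⟩, -⟩ := Dat.universal Dat'.R Dat'.residue_surjective Dat'.ρ h
    Dat'.residual_isEquiv
  exact ⟨π, hπ, he⟩

/-- The actions factor through the map between the deformation rings. -/
theorem IsFrobCompat.eq_comp (h𝒟 : GaloisRep.IsDeformationCondition 𝒪 𝒟)
    {Dat : GaloisRep.DeformationRingData 𝒪 ρbar 𝒟}
    {Dat' : GaloisRep.DeformationRingData 𝒪 ρbar 𝒟'} {S₁ S₁' : Finset ℕ}
    {φ : Dat.R →ₐ[𝒪] Module.End 𝒪 (cohPart χ hMN hl a)} (hφ : IsFrobCompat Dat S₁ φ)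
    {φ' : Dat'.R →ₐ[𝒪] Module.End 𝒪 (cohPart χ hMN hl a)} (hφ' : IsFrobCompat Dat' S₁' φ')
    (π : Dat.R →ₐ[𝒪] Dat'.R) (hπ : IsLocalHom (π : Dat.R →+* Dat'.R))
    (he : (Dat.ρ.baseChangeAlong (π : Dat.R →+* Dat'.R) hπ).IsEquiv Dat'.ρ) :
    φ = φ'.comp π := by
  have := moduleFinite_coh (χ := χ) 𝒪 𝒪 hMN
  have := isNoetherian_of_isNoetherianRing_of_finite 𝒪 (Coh N χ 𝒪)
  refine AlgHom.ext fun r => ?_
  have := intertwine_of_frobTraces h𝒟 Dat (S₁ ∪ S₁') φ (φ'.comp π) LinearMap.id ?_ r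
  · rwa [LinearMap.id_comp, LinearMap.comp_id] at this
  rintro _ ⟨ℓ, hℓ, hℓS, A, hA, σ, hσ, rfl⟩
  rw [Finset.mem_union, not_or] at hℓS
  refine LinearMap.ext fun v => Subtype.ext ?_
  show (φ (Dat.ρ.trace σ) v : Coh N χ 𝒪) = φ' (π (Dat.ρ.trace σ)) v
  rw [hφ ℓ hℓ hℓS.1 A hA σ hσ, show π (Dat.ρ.trace σ) = Dat'.ρ.trace σ by
    rw [← CommAlg.trace_eq_of_isEquiv he, CommAlg.trace_baseChangeAlong]; rfl]
  exact (hφ' ℓ hℓ hℓS.2 A hA σ hσ v).symm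

section Coordinates

variable {R R' : Type} [CommRing R] [IsLocalRing R] [Algebra 𝒪 R] [CommRing R'] [IsLocalRing R']
  [Algebra 𝒪 R'] {ρ : GaloisRepAdic R} {Mr : Gal →* Mat R} {hMr : MatCont Mr}

/-- Inertia coordinates vanish after a map to an unramified deformation. -/
theorem map_locCoord_eq_zero (hequiv : ρ.IsEquiv (matRep Mr hMr)) {q : ℕ}
    {A : ValuationSubring (AlgebraicClosure ℚ)} (hA : A.LiesOverPrime q) {φ₀ : Gal}
    {Ds : LocalDatum 𝒪} (C : Gen.LocalCoord Ds Mr A φ₀) (π : R →ₐ[𝒪] R')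
    (hπ : IsLocalHom (π : R →+* R')) {ρ' : GaloisRepAdic R'}
    (he : (ρ.baseChangeAlong (π : R →+* R') hπ).IsEquiv ρ') (hunr : ρ'.IsUnramifiedAt q)
    (k : Fin 8) (hk : 4 ≤ k) : π (C.v k) = 0 := by
  obtain ⟨e₁⟩ := baseChangeAlong_isEquiv_matRep (π : R →+* R') hπ hequiv
  obtain ⟨e₂⟩ := he
  let e := e₂.symm.trans e₁
  have h1 : mapRep (π : R →+* R') Mr C.τ = 1 := by
    have hid : (matRep (mapRep (π : R →+* R') Mr) (hMr.map _ hπ)).ρ C.τ = 1 := by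
      refine LinearMap.ext fun w => ?_
      obtain ⟨x, rfl⟩ := e.toLinearEquiv.surjective w
      rw [← e.map_apply, hunr A hA C.τ C.tau_mem]
      rfl
    rw [← DFunLike.congr_fun (repMatrix_matRep _ (hMr.map (π : R →+* R') hπ)) C.τ]
    show LinearMap.toMatrixAlgEquiv _ ((matRep _ _).ρ C.τ) = 1
    rw [hid, map_one]
  have h2 : sMat (fun i => π (C.v i)) = 1 := by
    rw [← sMat_map π, ← C.tau_eq, conjRep_apply, ← AlgHom.mapMatrix_apply, map_mul, map_mul,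
      show π.mapMatrix (Mr C.τ) = 1 from h1, mul_one, ← map_mul, Units.mul_inv, map_one]
  have h3 := fun i j => congrFun (congrFun h2 i) j
  simp only [sMat, Matrix.add_apply] at h3
  have h00 := h3 0 0
  have h01 := h3 0 1
  have h10 := h3 1 0
  have h11 := h3 1 1
  simp at h00 h01 h10 h11
  fin_cases k <;> simp_all

/-- The trace of the Frobenius matrix of the coordinates. -/
theorem trace_phiMat_eq (hequiv : ρ.IsEquiv (matRep Mr hMr)) {Ds : LocalDatum 𝒪}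
    {A : ValuationSubring (AlgebraicClosure ℚ)} {φ₀ : Gal} (C : Gen.LocalCoord Ds Mr A φ₀) :
    (Ds.phiMat C.v).trace = ρ.trace φ₀ := by
  rw [← C.phi_eq, conjRep_apply, Matrix.trace_units_conj, CommAlg.trace_eq_of_isEquiv hequiv,
    GaloisRepAdic.trace]
  show _ = LinearMap.trace R _ (Matrix.toLin' (Mr φ₀))
  rw [Matrix.trace_toLin'_eq]

end Coordinates

/-- **At a prime outside the level**: the inertia coordinates act as zero and the trace of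
Frobenius as the operator. -/
theorem IsFrobCompat.unr_and_frob (h𝒟 : GaloisRep.IsDeformationCondition 𝒪 𝒟)
    {Dat : GaloisRep.DeformationRingData 𝒪 ρbar 𝒟}
    {Dat' : GaloisRep.DeformationRingData 𝒪 ρbar 𝒟'} {S₁ S₁' : Finset ℕ}
    {φ : Dat.R →ₐ[𝒪] Module.End 𝒪 (cohPart χ hMN hl a)} (hφ : IsFrobCompat Dat S₁ φ)
    {φ' : Dat'.R →ₐ[𝒪] Module.End 𝒪 (cohPart χ hMN hl a)} (hφ' : IsFrobCompat Dat' S₁' φ')
    (hsub : 𝒟 Dat'.ρ) {Mr : Gal →* Mat Dat.R} {hMr : MatCont Mr}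
    (hequiv : Dat.ρ.IsEquiv (matRep Mr hMr)) {q : ℕ} (hq : q.Prime) (hqS : q ∉ S₁')
    (hunr : Dat'.ρ.IsUnramifiedAt q) {A : ValuationSubring (AlgebraicClosure ℚ)}
    (hA : A.LiesOverPrime q) {φ₀ : Gal} (hφ₀ : A.IsFrobeniusAt φ₀ q) {Ds : LocalDatum 𝒪}
    (C : Gen.LocalCoord Ds Mr A φ₀) {ι' X : Type} [Finite ι'] [Finite X]
    {Dfam : ι' → LocalDatum 𝒪} {i : ι'} (hi : Dfam i = Ds)
    (γ : MvPowerSeries (LocVar ι' X) 𝒪 →ₐ[𝒪] Dat.R) (hγ : ∀ k, γ (locCoord i k) = C.v k) :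
    (∀ k : Fin 8, 4 ≤ k → φ (γ (locCoord i k)) = 0) ∧
      ∀ v, (φ (γ (frobTrace Dfam i)) v : Coh N χ 𝒪) = opP 𝒪 𝒪 χ hMN hq v := by
  obtain ⟨π, hπ, he⟩ := exists_algHom_of_le Dat Dat' hsub
  rw [hφ.eq_comp h𝒟 hφ' π hπ he]
  refine ⟨fun k hk => ?_, fun v => ?_⟩
  · rw [AlgHom.comp_apply, hγ, map_locCoord_eq_zero hequiv hA C π hπ he hunr k hk, map_zero]
  · have e1 : γ (frobTrace Dfam i) = Dat.ρ.trace φ₀ := by
      have e : ∀ w : MvPowerSeries (LocVar ι' X) 𝒪 →ₐ[𝒪] Dat.R,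
          w (frobTrace Dfam i) = ((Dfam i).phiMat fun k => w (locCoord i k)).trace := fun w => by
        rw [← (Dfam i).phiMat_map w, frobTrace, Matrix.trace_fin_two, Matrix.trace_fin_two,
          map_add]
        rfl
      rw [e, hi, show (fun k => γ (locCoord i k)) = C.v from funext hγ, trace_phiMat_eq hequiv]
    rw [AlgHom.comp_apply, e1, show π (Dat.ρ.trace φ₀) = Dat'.ρ.trace φ₀ by
      rw [← CommAlg.trace_eq_of_isEquiv he, CommAlg.trace_baseChangeAlong]; rfl]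
    exact hφ' q hq hqS A hA φ₀ hφ₀ v

end FLTAgent.RT.Sys
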