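import Fermat.Agent.RT.Sys.Build
import Fermat.Agent.RT.World.Point

/-!
# Setting the diamond parameters to zero

Modulo the diamond parameters the matrices of a level are those of the base level in the fixed
basis, along any map to the base part fixed by the diamonds sending the basis to that basis.
-/

set_option autoImplicit false
set_option linter.unusedSectionVars false

noncomputable section

namespace FLTAgent.RT.Sys

open IsLocalRing Matrix

variable {O : Type} [CommRing O] {M N d : ℕ} {D : Type} [CommGroup D] [Fintype D]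
  {χ : (ZMod M)ˣ →* D} [Fact (Odd (Nat.card D))] [NeZero N] {hMN : M ∣ N}
  {hχ : Function.Surjective χ} {P : Submodule O (Coh N χ O)} (B : DBasis hMN hχ P d)
  {P₀ : Type*} [AddCommGroup P₀] [Module O P₀] (e₀ : Module.Basis (Fin d) O P₀) {c : P →ₗ[O] P₀}

/-- With the trivial character the coordinates are those of the image in the base part. -/
theorem DBasis.repr_eq_coord_one (hc : ∀ j, c (B.vec j) = e₀ j)
    (hd : ∀ δ v, c (B.dia δ v) = c v) (x : P) (i : Fin d) :
    e₀.repr (c x) i = B.coord (1 : D →* O) x i := by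
  obtain ⟨f, rfl⟩ := B.equiv.surjective x
  rw [B.coord_apply, LinearEquiv.symm_apply_apply, B.equiv_eq_sum]
  simp only [map_sum, map_smul, hd, hc, Module.Basis.repr_self, Finsupp.finsetSum_apply,
    Finsupp.smul_single, smul_eq_mul, mul_one, MonoidHom.one_apply]
  refine Finset.sum_congr rfl fun δ _ => ?_
  rw [Finset.sum_eq_single i]
  · rw [Finsupp.single_eq_same]
  · intro j _ hj; rw [Finsupp.single_eq_of_ne]; exact hj.symm
  · simp

/-- With the trivial character the matrix is that of the map induced on the base part. -/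
theorem DBasis.mat_one_of_base (hc : ∀ j, c (B.vec j) = e₀ j)
    (hd : ∀ δ v, c (B.dia δ v) = c v) {f : Module.End O P} {f₀ : Module.End O P₀}
    (h : c ∘ₗ f = f₀ ∘ₗ c) : B.mat B (1 : D →* O) f = LinearMap.toMatrix e₀ e₀ f₀ :=
  Matrix.ext fun i j => by
    rw [B.mat_apply, LinearMap.toMatrix_apply, ← B.repr_eq_coord_one e₀ hc hd, ← hc]
    exact congrArg (fun z => e₀.repr z i) (LinearMap.congr_fun h (B.vec j))

/-- Along a map killing the character the matrix becomes that of the base. -/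
theorem DBasis.map_mat_of_base (hc : ∀ j, c (B.vec j) = e₀ j)
    (hd : ∀ δ v, c (B.dia δ v) = c v) {f : Module.End O P} {f₀ : Module.End O P₀}
    (h : c ∘ₗ f = f₀ ∘ₗ c) {A A₀ : Type} [CommRing A] [Algebra O A] [CommRing A₀] [Algebra O A₀]
    (ε : D →* A) (g : A →ₐ[O] A₀) (hg : (g : A →* A₀).comp ε = 1) :
    (B.mat B ε f).map g = (LinearMap.toMatrix e₀ e₀ f₀).map (algebraMap O A₀) := by
  have h2 : (1 : D →* A₀) = ((Algebra.ofId O A₀ : O →ₐ[O] A₀) : O →* A₀).comp (1 : D →* O) :=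
    MonoidHom.ext fun _ => (map_one (Algebra.ofId O A₀)).symm
  rw [← B.mat_algHom B ε g, hg, h2, B.mat_algHom B, B.mat_one_of_base e₀ hc hd h]
  rfl

end FLTAgent.RT.Sys

namespace FLTAgent.RT.Sys

open IsLocalRing Matrix

variable {𝒪 : Type} [CommRing 𝒪] [IsLocalRing 𝒪]

/-- Setting the diamond parameters to zero, as algebras. -/
def augTₐ (r n : ℕ) : STrunc 𝒪 r n →ₐ[𝒪] 𝒪 ⧸ maximalIdeal 𝒪 ^ n :=
  { Ideal.quotientMap (maximalIdeal 𝒪 ^ n) MvPowerSeries.constantCoeff
      ((Ideal.pow_right_mono (fun _ hf => Deformation.mem_maximalIdeal_powerSeries.mp hf) n).trans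
        (Ideal.le_comap_pow _ n)) with
    commutes' := fun c => by
      show Ideal.quotientMap _ _ _ (Ideal.Quotient.mk _ (algebraMap 𝒪 _ c)) = _
      rw [Ideal.quotientMap_mk, Deformation.constantCoeff_algebraMap]
      rfl }

end FLTAgent.RT.Sys

namespace FLTAgent.RT.Sys

open IsLocalRing Matrix

variable {𝒪 : Type} [CommRing 𝒪] [IsDomain 𝒪] [IsDiscreteValuationRing 𝒪]
  [IsAdicComplete (maximalIdeal 𝒪) 𝒪] [Finite (ResidueField 𝒪)] [CharZero 𝒪]

theorem coe_augTₐ (r n : ℕ) (w : STrunc 𝒪 r n) : augTₐ r n w = augT r n w := rfl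

/-- Setting the diamond parameters to zero kills the character. -/
theorem augT_character {m r n : ℕ} [NeZero m]
    {ε : Multiplicative (Fin r → ZMod m) →* STrunc 𝒪 r n}
    (hε : ∀ j, ε (twGen j) = 1 + yVar r n j) :
    ((augTₐ (𝒪 := 𝒪) r n : STrunc 𝒪 r n →* 𝒪 ⧸ maximalIdeal 𝒪 ^ n)).comp ε = 1 :=
  character_ext fun j => by
    show augTₐ r n (ε (twGen j)) = 1
    rw [hε, map_add, map_one, coe_augTₐ, yVar, augT, Ideal.quotientMap_mk,
      MvPowerSeries.constantCoeff_X, map_zero, add_zero]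

variable {ι X : Type} [Finite ι] [Finite X] [DecidableEq ι] {Ds : ι → LocalDatum 𝒪} {qs : ι → ℕ}
  {ρbar : ResidualGaloisRep (ResidueField 𝒪)} {rank : Finset ι → ℕ} {p : ℕ} {J : Type}
  {l : J → ℕ} {hl : ∀ j, (l j).Prime} {r : ℕ} {Δ : Type} [CommGroup Δ] [Fintype Δ]
  [Fact (Odd (Nat.card Δ))] {gen : Fin r → Δ}

/-- **Modulo the diamond parameters a level acts as the base level.** -/
theorem LevelData.act_augT (L : LevelData Ds qs X ρbar rank p l hl r Δ gen) {n : ℕ}
    (ε : Δ →* STrunc 𝒪 r n)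
    (hε : ((augTₐ (𝒪 := 𝒪) r n : STrunc 𝒪 r n →* 𝒪 ⧸ maximalIdeal 𝒪 ^ n)).comp ε = 1)
    (A : Finset ι) {P₀ : Type} [AddCommGroup P₀] [Module 𝒪 P₀]
    (e₀ : Module.Basis (Fin (rank A)) 𝒪 P₀) {c : cohPart L.χ (L.dvd A) hl L.a →ₗ[𝒪] P₀}
    (hc : ∀ j, c ((L.basis A).vec j) = e₀ j) (hd : ∀ δ v, c ((L.basis A).dia δ v) = c v)
    {f : MvPowerSeries (LocVar ι X) 𝒪} {f₀ : Module.End 𝒪 P₀}
    (h : c ∘ₗ L.φ A (L.γ f) = f₀ ∘ₗ c) :
    (L.act ε A f).map (augT r n) =
      (LinearMap.toMatrix e₀ e₀ f₀).map (Ideal.Quotient.mk (maximalIdeal 𝒪 ^ n)) := by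
  exact (L.basis A).map_mat_of_base e₀ hc hd h ε (augTₐ r n) hε

end FLTAgent.RT.Sys
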