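import Mathlib.GroupTheory.SpecificGroups.Cyclic
import Mathlib.GroupTheory.PGroup
import Mathlib.Data.ZMod.Units
import Mathlib.Data.Nat.ChineseRemainder
import Mathlib.RingTheory.IntegralDomain
import Mathlib.FieldTheory.Finite.Basic

/-!
# The diamond characters of Taylor–Wiles levels

For primes `q i ≡ 1` modulo `m`, a surjective homomorphism from the units modulo their product to
`(ℤ/m) ^ r`, the `i`th coordinate depending only on the class modulo `q i`.
-/

set_option autoImplicit false

noncomputable section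

namespace FLTAgent.RT.Sys

/-- The units modulo a prime map onto every cyclic group of order dividing their number. -/
theorem exists_units_hom_surjective {q m : ℕ} (hq : q.Prime) (h : m ∣ q - 1) :
    ∃ f : (ZMod q)ˣ →* Multiplicative (ZMod m), Function.Surjective f := by
  have : Fact q.Prime := ⟨hq⟩
  have hcard : Nat.card (ZMod q)ˣ = q - 1 := by
    rw [Nat.card_eq_fintype_card, ZMod.card_units]
  let e := zmodCyclicMulEquiv (inferInstance : IsCyclic (ZMod q)ˣ)
  have hd : m ∣ Nat.card (ZMod q)ˣ := hcard ▸ h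
  refine ⟨(AddMonoidHom.toMultiplicative (ZMod.castHom hd (ZMod m)).toAddMonoidHom).comp
    e.symm.toMonoidHom, fun y => ?_⟩
  obtain ⟨z, hz⟩ := ZMod.castHom_surjective hd (Multiplicative.toAdd y)
  refine ⟨e (Multiplicative.ofAdd z), ?_⟩
  show Multiplicative.ofAdd (ZMod.castHom hd (ZMod m)
    (Multiplicative.toAdd (e.symm (e (Multiplicative.ofAdd z))))) = y
  rw [MulEquiv.symm_apply_apply, toAdd_ofAdd, hz, ofAdd_toAdd]

/-- The units modulo a product of distinct primes realise every family of units. -/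
theorem exists_unit_unitsMap_eq {r : ℕ} {qv : Fin r → ℕ} (hq : ∀ i, (qv i).Prime)
    (hinj : Function.Injective qv) (v : ∀ i, (ZMod (qv i))ˣ) :
    ∃ u : (ZMod (∏ i, qv i))ˣ,
      ∀ i, ZMod.unitsMap (Finset.dvd_prod_of_mem qv (Finset.mem_univ i)) u = v i := by
  have hcop : Set.Pairwise (↑(Finset.univ : Finset (Fin r)) : Set (Fin r))
      (Function.onFun Nat.Coprime qv) := fun i _ j _ hij =>
    (Nat.coprime_primes (hq i) (hq j)).mpr (hinj.ne hij)
  obtain ⟨k, hk⟩ := Nat.chineseRemainderOfFinset (fun i => ((v i : ZMod (qv i))).val) qv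
    Finset.univ (fun i _ => (hq i).ne_zero) hcop
  have hcast : ∀ i, (k : ZMod (qv i)) = v i := fun i => by
    have : NeZero (qv i) := ⟨(hq i).ne_zero⟩
    rw [(ZMod.natCast_eq_natCast_iff _ _ _).mpr (hk i (Finset.mem_univ i)), ZMod.natCast_zmod_val]
  have hu : Nat.Coprime k (∏ i, qv i) := Nat.Coprime.prod_right fun i _ => by
    have := (v i).isUnit
    rwa [← hcast i, ZMod.isUnit_iff_coprime] at this
  refine ⟨ZMod.unitOfCoprime k hu, fun i => Units.ext ?_⟩
  rw [ZMod.unitsMap_val, ZMod.coe_unitOfCoprime,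
    ZMod.cast_natCast (Finset.dvd_prod_of_mem qv (Finset.mem_univ i)), hcast]

/-- **The character of the Taylor–Wiles level**: surjective, with `i`th coordinate a surjection
from the units modulo `q i`. -/
theorem exists_twChar {m r : ℕ} {qv : Fin r → ℕ} (hq : ∀ i, (qv i).Prime)
    (hinj : Function.Injective qv) (hdvd : ∀ i, m ∣ qv i - 1) :
    ∃ (χ : (ZMod (∏ i, qv i))ˣ →* Multiplicative (Fin r → ZMod m))
      (g : ∀ i, (ZMod (qv i))ˣ →* Multiplicative (ZMod m)),
      Function.Surjective χ ∧ (∀ i, Function.Surjective (g i)) ∧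
      ∀ u i, Multiplicative.toAdd (χ u) i = Multiplicative.toAdd
        (g i (ZMod.unitsMap (Finset.dvd_prod_of_mem qv (Finset.mem_univ i)) u)) := by
  choose g hg using fun i => exists_units_hom_surjective (hq i) (hdvd i)
  let χ : (ZMod (∏ i, qv i))ˣ →* Multiplicative (Fin r → ZMod m) :=
    { toFun := fun u => Multiplicative.ofAdd fun i => Multiplicative.toAdd
        (g i (ZMod.unitsMap (Finset.dvd_prod_of_mem qv (Finset.mem_univ i)) u))
      map_one' := by simp [map_one]; rfl
      map_mul' := fun u v => by simp [map_mul]; rfl }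
  refine ⟨χ, g, fun y => ?_, hg, fun u i => rfl⟩
  choose v hv using fun i => hg i (Multiplicative.ofAdd (Multiplicative.toAdd y i))
  obtain ⟨u, hu⟩ := exists_unit_unitsMap_eq hq hinj v
  exact ⟨u, Multiplicative.toAdd.injective (funext fun i => by
    show Multiplicative.toAdd (g i (ZMod.unitsMap _ u)) = _
    rw [hu, hv, toAdd_ofAdd])⟩

variable (p k r : ℕ) [Fact p.Prime]

instance neZero_prime_pow : NeZero (p ^ k) := ⟨pow_ne_zero k (Fact.out : p.Prime).ne_zero⟩

omit [Fact p.Prime] in
/-- The groups `(ℤ/pᵏ) ^ r` are `p`-groups. -/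
theorem isPGroup_twGroup : IsPGroup p (Multiplicative (Fin r → ZMod (p ^ k))) :=
  IsPGroup.of_card (n := k * r) (by
    rw [Nat.card_congr Multiplicative.toAdd, Nat.card_fun, Nat.card_zmod, Nat.card_fin, pow_mul])

theorem odd_card_twGroup (hp2 : p ≠ 2) :
    Odd (Nat.card (Multiplicative (Fin r → ZMod (p ^ k)))) := by
  rw [Nat.card_congr Multiplicative.toAdd, Nat.card_fun, Nat.card_zmod, Nat.card_fin]
  exact (((Fact.out : p.Prime).odd_of_ne_two hp2).pow).pow

theorem coprime_three_twGroup (hp3 : p ≠ 3) :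
    Nat.Coprime 3 (Nat.card (Multiplicative (Fin r → ZMod (p ^ k)))) := by
  rw [Nat.card_congr Multiplicative.toAdd, Nat.card_fun, Nat.card_zmod, Nat.card_fin]
  exact Nat.Coprime.pow_right _ (Nat.Coprime.pow_right _
    ((Nat.coprime_primes Nat.prime_three Fact.out).mpr (Ne.symm hp3)))

end FLTAgent.RT.Sys
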