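import Fermat.Agent.RT.World.System
import Fermat.Agent.RT.Sys.TWChar
import Mathlib.RingTheory.Ideal.Quotient.Operations

/-!
# The character of the diamonds in the truncated power series

For `n ≤ k + 1` there is a character of `(ℤ/pᵏ) ^ r` in `O⟦y₁, …, y_r⟧ / m ^ n` sending the `j`th
generator to `1 + y_j`.
-/

set_option autoImplicit false

noncomputable section

namespace FLTAgent.RT.Sys

open IsLocalRing

/-- The powers `p ^ k` of elements congruent to one come close to one. -/
theorem pow_prime_pow_sub_one_mem {S : Type*} [CommRing S] {I : Ideal S} {p : ℕ}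
    (hp : (p : S) ∈ I) {u : S} (hu : u - 1 ∈ I) (k : ℕ) : u ^ p ^ k - 1 ∈ I ^ (k + 1) := by
  induction k with
  | zero => simpa using hu
  | succ k ih =>
    have h1 : u ^ p ^ k - 1 ∈ I := Ideal.pow_le_self k.succ_ne_zero ih
    have hsum : ∑ i ∈ Finset.range p, (u ^ p ^ k) ^ i ∈ I := by
      have e : ∑ i ∈ Finset.range p, (u ^ p ^ k) ^ i =
          (∑ i ∈ Finset.range p, ((u ^ p ^ k) ^ i - 1)) + (p : S) := by
        rw [Finset.sum_sub_distrib, Finset.sum_const, Finset.card_range, nsmul_eq_mul, mul_one,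
          sub_add_cancel]
      rw [e]
      refine I.add_mem (sum_mem fun i _ => ?_) hp
      rw [← geom_sum_mul (u ^ p ^ k) i]
      exact I.mul_mem_left _ h1
    rw [pow_succ p k, pow_mul, ← geom_sum_mul (u ^ p ^ k) p, pow_succ' I]
    exact Ideal.mul_mem_mul hsum ih

/-- The `j`th generator of `(ℤ/m) ^ r`. -/
def twGen {m r : ℕ} (j : Fin r) : Multiplicative (Fin r → ZMod m) :=
  Multiplicative.ofAdd (Pi.single j 1)

/-- A character of `(ℤ/m) ^ r` with prescribed values at the generators. -/
theorem exists_character {A : Type*} [CommRing A] {m r : ℕ} [NeZero m] (u : Fin r → A)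
    (hu : ∀ j, u j ^ m = 1) :
    ∃ ε : Multiplicative (Fin r → ZMod m) →* A, ∀ j, ε (twGen j) = u j := by
  have h0 : ∀ (j : Fin r) (a b : ℕ), a ≡ b [MOD m] → u j ^ a = u j ^ b := fun j a b h => by
    rw [← Nat.div_add_mod a m, ← Nat.div_add_mod b m, h, pow_add, pow_add, pow_mul, pow_mul,
      hu, one_pow, one_pow]
  let ε : Multiplicative (Fin r → ZMod m) →* A :=
    { toFun := fun x => ∏ j, u j ^ (Multiplicative.toAdd x j).val
      map_one' := by simp
      map_mul' := fun x y => by
        rw [← Finset.prod_mul_distrib]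
        refine Finset.prod_congr rfl fun j _ => ?_
        rw [← pow_add, toAdd_mul, Pi.add_apply]
        exact h0 j _ _ (by rw [ZMod.val_add]; exact Nat.mod_modEq _ _) }
  refine ⟨ε, fun j => ?_⟩
  show ∏ i, u i ^ (Multiplicative.toAdd (twGen (m := m) j) i).val = u j
  rw [Finset.prod_eq_single j (fun i _ hi => by simp [twGen, hi]) (by simp)]
  show u j ^ ((Pi.single j 1 : Fin r → ZMod m) j).val = u j
  rw [Pi.single_eq_same]
  conv_rhs => rw [← pow_one (u j)]
  exact h0 j _ _ (by rw [← ZMod.natCast_eq_natCast_iff, ZMod.natCast_zmod_val, Nat.cast_one])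

variable {𝒪 : Type} [CommRing 𝒪] [IsLocalRing 𝒪]

/-- The variable `y_j` in the truncation. -/
def yVar (r n : ℕ) (j : Fin r) : STrunc 𝒪 r n :=
  Ideal.Quotient.mk _ (MvPowerSeries.X j)

/-- **The character of the diamonds** at level `n`. -/
theorem exists_twEps {p k r n : ℕ} [Fact p.Prime] (hp : (p : 𝒪) ∈ maximalIdeal 𝒪)
    (hn : n ≤ k + 1) :
    ∃ ε : Multiplicative (Fin r → ZMod (p ^ k)) →* STrunc 𝒪 r n,
      ∀ j, ε (twGen j) = 1 + yVar r n j := by
  refine exists_character _ fun j => ?_
  rw [yVar, ← map_one (Ideal.Quotient.mk (maximalIdeal (MvPowerSeries (Fin r) 𝒪) ^ n)), ← map_add,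
    ← map_pow, Ideal.Quotient.eq]
  refine Ideal.pow_le_pow_right hn (pow_prime_pow_sub_one_mem ?_ ?_ k)
  · rw [← map_natCast (algebraMap 𝒪 (MvPowerSeries (Fin r) 𝒪)),
      Deformation.mem_maximalIdeal_powerSeries, Deformation.constantCoeff_algebraMap]
    exact hp
  · rw [add_sub_cancel_left]
    exact Deformation.span_X_le_maximalIdeal (Ideal.subset_span ⟨j, rfl⟩)

/-- Every element is a product of powers of the generators, so characters agreeing there agree. -/
theorem character_ext {A : Type*} [MulOneClass A] {m r : ℕ} [NeZero m]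
    {ε ε' : Multiplicative (Fin r → ZMod m) →* A} (h : ∀ j, ε (twGen j) = ε' (twGen j)) :
    ε = ε' := by
  refine MonoidHom.ext fun x => ?_
  have hx : x ∈ Submonoid.closure (Set.range (twGen (m := m) (r := r))) := by
    have e : x = ∏ j, twGen (m := m) j ^ (Multiplicative.toAdd x j).val := by
      refine Multiplicative.toAdd.injective (funext fun i => ?_)
      rw [toAdd_prod, Finset.sum_apply, Finset.sum_eq_single i]
      · simp [twGen]
      · intro j _ hj; simp [twGen, Ne.symm hj]
      · simp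
    rw [e]
    exact prod_mem fun j _ => pow_mem (Submonoid.subset_closure (Set.mem_range_self j)) _
  exact MonoidHom.eqOn_closureM (fun y hy => by obtain ⟨j, rfl⟩ := hy; exact h j) hx

/-- Modulo the augmentation the character is trivial. -/
theorem twEps_sub_one_mem {m r n : ℕ} [NeZero m]
    {ε : Multiplicative (Fin r → ZMod m) →* STrunc 𝒪 r n}
    (hε : ∀ j, ε (twGen j) = 1 + yVar r n j) (δ : Multiplicative (Fin r → ZMod m)) :
    ε δ - 1 ∈ Ideal.span (Set.range (yVar (𝒪 := 𝒪) r n)) := by
  set J := Ideal.span (Set.range (yVar (𝒪 := 𝒪) r n))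
  have h : (Ideal.Quotient.mk J : STrunc 𝒪 r n →* STrunc 𝒪 r n ⧸ J).comp ε = 1 :=
    character_ext fun j => by
      show Ideal.Quotient.mk J (ε (twGen j)) = 1
      rw [hε, map_add, map_one,
        Ideal.Quotient.eq_zero_iff_mem.mpr (Ideal.subset_span (Set.mem_range_self j)), add_zero]
  have h1 : Ideal.Quotient.mk J (ε δ) = 1 := DFunLike.congr_fun h δ
  rw [← Ideal.Quotient.eq, h1, map_one]

end FLTAgent.RT.Sys
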