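import Fermat.Agent.RT.Sys.Raise
import Fermat.Agent.RT.Sys.Eps

/-!
# Systems from Taylor–Wiles levels

For every `n` the parts of the levels indexed by the sets of auxiliary primes, free over the group
algebra of the diamonds and acted on by a deformation ring, give a system; after setting the
diamond parameters to zero its actions are those of the base levels.
-/

set_option autoImplicit false
set_option linter.unusedSectionVars false

noncomputable section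

namespace FLTAgent.RT.Sys

open IsLocalRing Matrix

variable {𝒪 : Type} [CommRing 𝒪] [IsDomain 𝒪] [IsDiscreteValuationRing 𝒪]
  [IsAdicComplete (maximalIdeal 𝒪) 𝒪] [Finite (ResidueField 𝒪)] [CharZero 𝒪]
  {ι X : Type} [Finite ι] [Finite X] [DecidableEq ι]

theorem commute_quad {R : Type*} [Ring R] {x u v : R} (hu : Commute x u) (hv : Commute x v) :
    Commute x (u ^ 2 - (v ^ 2 - (1 + 1)) * u + 1) :=
  ((hu.pow_right 2).sub_right (((hv.pow_right 2).sub_right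
    ((Commute.one_right x).add_right (Commute.one_right x))).mul_right hu)).add_right
      (Commute.one_right x)

theorem quad_add {R : Type*} [Ring R] (u v : R) :
    u ^ 2 - (v ^ 2 - (1 + 1)) * u + 1 + v ^ 2 * u = u ^ 2 + (1 + 1) * u + 1 := by
  rw [sub_mul]; abel

theorem eq_quad {R : Type*} [Ring R] {f u v : R} (h : f + v ^ 2 * u = u ^ 2 + (1 + 1) * u + 1) :
    u ^ 2 - (v ^ 2 - (1 + 1)) * u + 1 = f := by
  rw [eq_sub_of_add_eq h, sub_mul]; abel

section Quad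

variable {M N d : ℕ} {D : Type} [CommGroup D] [Fintype D] {χ : (ZMod M)ˣ →* D}
  [Fact (Odd (Nat.card D))] [NeZero N] {hMN : M ∣ N} {hχ : Function.Surjective χ}
  {P : Submodule 𝒪 (Coh N χ 𝒪)} (B : DBasis hMN hχ P d) {S : Type} [CommRing S] [Algebra 𝒪 S]
  (ε : D →* S)

theorem DBasis.isEquivariant_dia (δ : D) : B.IsEquivariant B (B.dia δ) := fun δ' x => by
  rw [← Module.End.mul_apply, ← map_mul, mul_comm, map_mul, Module.End.mul_apply]

set_option maxHeartbeats 1600000 in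
/-- A nilpotent quadratic relation between equivariant maps holds for their matrices. -/
theorem DBasis.mat_quad_pow {u v : B.equivEnd} {K : ℕ}
    (hn : IsNilpotent ((u : Module.End 𝒪 P) ^ 2 - ((v : Module.End 𝒪 P) ^ 2 - 2) * u + 1))
    (hK : d ≤ K) :
    (B.matHom ε u ^ 2 - (B.matHom ε v ^ 2 - 2) * B.matHom ε u + 1) ^ K = 0 := by
  replace hn : IsNilpotent ((u : Module.End 𝒪 P) ^ 2 -
      ((v : Module.End 𝒪 P) ^ 2 - (1 + 1)) * (u : Module.End 𝒪 P) + 1) := by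
    rwa [show (1 : Module.End 𝒪 P) + 1 = 2 from one_add_one_eq_two]
  let F : Module.End 𝒪 P :=
    (u : Module.End 𝒪 P) ^ 2 - ((v : Module.End 𝒪 P) ^ 2 - (1 + 1)) * u + 1
  have hFB : F ∈ B.equivEnd := by
    refine (Subalgebra.mem_centralizer_iff 𝒪).mpr ?_
    rintro _ ⟨δ, rfl⟩
    have h1 : Commute (B.dia δ) (u : Module.End 𝒪 P) :=
      (Subalgebra.mem_centralizer_iff 𝒪).mp u.2 _ ⟨δ, rfl⟩
    have h2 : Commute (B.dia δ) (v : Module.End 𝒪 P) :=
      (Subalgebra.mem_centralizer_iff 𝒪).mp v.2 _ ⟨δ, rfl⟩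
    exact (commute_quad (R := Module.End 𝒪 P) h1 h2).eq
  let FF : B.equivEnd := ⟨F, hFB⟩
  have hz : B.matHom ε FF ^ K = 0 := by
    rw [← map_pow, show FF ^ K = 0 from Subtype.ext
      (pow_eq_zero_of_le hK (B.pow_eq_zero (B.mem_equivEnd.mp hFB) hn)), map_zero]
  have hid : FF + v ^ 2 * u = u ^ 2 + (1 + 1) * u + 1 :=
    Subtype.ext (quad_add (u : Module.End 𝒪 P) (v : Module.End 𝒪 P))
  have h := congrArg (B.matHom ε) hid
  simp only [map_add, map_mul, map_pow, map_one] at h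
  rw [← hz, show (2 : Matrix (Fin d) (Fin d) S) = 1 + 1 from one_add_one_eq_two.symm]
  exact congrArg (· ^ K) (eq_quad h)

end Quad

/-- The levels at one stage: for every set `A` of auxiliary primes a part free over `𝒪[Δ]`, acted
on by a deformation ring whose generators are the local coordinates. -/
structure LevelData (Ds : ι → LocalDatum 𝒪) (qs : ι → ℕ) (X : Type) [Finite X]
    (ρbar : ResidualGaloisRep (ResidueField 𝒪)) (rank : Finset ι → ℕ) (p : ℕ)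
    {J : Type} (l : J → ℕ) (hl : ∀ j, (l j).Prime) (r : ℕ) (Δ : Type) [CommGroup Δ] [Fintype Δ]
    [Fact (Odd (Nat.card Δ))] (gen : Fin r → Δ) : Type 1 where
  𝒟 : ∀ ⦃A : Type⦄ [CommRing A] [IsLocalRing A] [Algebra 𝒪 A], GaloisRepAdic A → Prop
  isCond : GaloisRep.IsDeformationCondition 𝒪 𝒟
  Dat : GaloisRep.DeformationRingData 𝒪 ρbar 𝒟
  γ : MvPowerSeries (LocVar ι X) 𝒪 →ₐ[𝒪] Dat.R
  S₁ : Finset ℕ
  mem : ∀ i, qs i ∈ S₁
  isPGroup : IsPGroup p Δ
  a : J → 𝒪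
  M : ℕ
  χ : (ZMod M)ˣ →* Δ
  surj : Function.Surjective χ
  N : Finset ι → ℕ
  [neZero : ∀ A, NeZero (N A)]
  dvd : ∀ A, M ∣ N A
  ell : ∀ A, EllCond χ (N A)
  level_insert : ∀ A i, i ∉ A → N (insert i A) = N A * qs i
  not_dvd : ∀ A i, i ∉ A → ¬ qs i ∣ N A
  raiseHyp : ∀ A i, i ∉ A → RaiseHyp (N A) (qs i) l a
  basis : ∀ A, DBasis (dvd A) surj (cohPart χ (dvd A) hl a) (rank A)
  φ : ∀ A, Dat.R →ₐ[𝒪] Module.End 𝒪 (cohPart χ (dvd A) hl a)
  compat : ∀ A, IsFrobCompat Dat S₁ (φ A)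
  rel : ∀ i, (Ds i).Rel 2 fun k => γ (locCoord i k)
  norm : ∀ i, (Ds i).IsNorm fun k => γ (locCoord i k)
  unr : ∀ A i, i ∉ A → ∀ k : Fin 8, 4 ≤ k → IsNilpotent (φ A (γ (locCoord i k)))
  frob : ∀ A i, i ∉ A → ∀ (hq : (qs i).Prime) v,
    (φ A (γ (frobTrace Ds i)) v : Coh (N A) χ 𝒪) = opP 𝒪 𝒪 χ (dvd A) hq v
  new : ∀ A i, i ∉ A → ∀ [NeZero (qs i)] (W : LevelRaise.WData (N A) (qs i))
    (hne : ∀ j, l j ≠ qs i)
    (φ' : Dat.R →ₐ[𝒪] Module.End 𝒪 (upPart χ (dvd A) hl a (qs i))), IsFrobCompat Dat S₁ φ' →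
      ∃ m : ℕ, ∀ z, ∃ x₁ x₂, (φ' (γ (raisingElt Ds i)) ^ m) z =
        degFst W (dvd A) hl hne x₁ + degSnd W (dvd A) hl hne x₂
  t : Finset ι → Fin r → MvPowerSeries (LocVar ι X) 𝒪
  dia_rel : ∀ A j, IsNilpotent
    ((basis A).dia (gen j) ^ 2 - (φ A (γ (t A j)) ^ 2 - 2) * (basis A).dia (gen j) + 1)

attribute [instance] LevelData.neZero

variable {Ds : ι → LocalDatum 𝒪} {qs : ι → ℕ} {ρbar : ResidualGaloisRep (ResidueField 𝒪)}
  {rank : Finset ι → ℕ} {p : ℕ} {J : Type} {l : J → ℕ} {hl : ∀ j, (l j).Prime} {r : ℕ}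
  {Δ : Type} [CommGroup Δ] [Fintype Δ] [Fact (Odd (Nat.card Δ))] {gen : Fin r → Δ}

variable (L : LevelData Ds qs X ρbar rank p l hl r Δ gen)

theorem LevelData.mem_equivEnd (A : Finset ι) (x : L.Dat.R) : L.φ A x ∈ (L.basis A).equivEnd :=
  (L.compat A).mem_equivEnd L.isCond (L.basis A) x

variable {n : ℕ} (ε : Δ →* STrunc 𝒪 r n)

/-- The matrices of one level. -/
def LevelData.act (A : Finset ι) :
    MvPowerSeries (LocVar ι X) 𝒪 →ₐ[𝒪] Matrix (Fin (rank A)) (Fin (rank A)) (STrunc 𝒪 r n) :=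
  actMat (L.basis A) ε (L.φ A) (L.mem_equivEnd A) L.γ

theorem LevelData.rel_act (A : Finset ι) (i : ι) :
    (Ds i).Rel 2 fun k => Ideal.Quotient.mk (RingHom.ker (L.act ε A)) (locCoord i k) := by
  have h1 : (Ds i).Rel 2 fun k => Ideal.Quotient.mk (RingHom.ker L.γ) (locCoord i k) :=
    LocalDatum.Rel.of_ker L.γ (L.rel i)
  exact h1.map (Ideal.Quotient.factorₐ 𝒪 (ker_le_ker_actMat _ ε _ _ L.γ))

theorem LevelData.norm_act (A : Finset ι) (i : ι) :
    (Ds i).IsNorm fun k => Ideal.Quotient.mk (RingHom.ker (L.act ε A)) (locCoord i k) := by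
  intro T hT
  exact ⟨Ideal.Quotient.eq_zero_iff_mem.mpr (ker_le_ker_actMat _ ε _ _ L.γ (L.norm i T hT).1),
    Ideal.Quotient.eq_zero_iff_mem.mpr (ker_le_ker_actMat _ ε _ _ L.γ (L.norm i T hT).2)⟩

/-- Transport of a level along an equality of levels. -/
theorem exists_transport {M N N' d : ℕ} {D : Type} [CommGroup D] [Fintype D]
    {χ : (ZMod M)ˣ →* D} [Fact (Odd (Nat.card D))] {hχ : Function.Surjective χ} [NeZero N]
    [NeZero N'] {hMN : M ∣ N} (hMN' : M ∣ N') (h : N = N') {a : J → 𝒪}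
    (B : DBasis hMN hχ (cohPart χ hMN hl a) d)
    {𝒟 : ∀ ⦃A : Type⦄ [CommRing A] [IsLocalRing A] [Algebra 𝒪 A], GaloisRepAdic A → Prop}
    {Dat : GaloisRep.DeformationRingData 𝒪 ρbar 𝒟} {S₁ : Finset ℕ}
    (φ : Dat.R →ₐ[𝒪] Module.End 𝒪 (cohPart χ hMN hl a)) (hφ : IsFrobCompat Dat S₁ φ)
    (hφB : ∀ x, φ x ∈ B.equivEnd) {P : Type} [CommRing P] [Algebra 𝒪 P] {S : Type} [CommRing S]
    [Algebra 𝒪 S] (ε : D →* S) (γ : P →ₐ[𝒪] Dat.R) :
    ∃ (B' : DBasis hMN' hχ (cohPart χ hMN' hl a) d)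
      (φ' : Dat.R →ₐ[𝒪] Module.End 𝒪 (cohPart χ hMN' hl a)) (_ : IsFrobCompat Dat S₁ φ')
      (hφ'B : ∀ x, φ' x ∈ B'.equivEnd),
      actMat B' ε φ' hφ'B γ = actMat B ε φ hφB γ := by
  subst h
  exact ⟨B, φ, hφ, hφB, rfl⟩

theorem LevelData.nonempty_raise [Fact p.Prime] (hp : (p : 𝒪) ∈ maximalIdeal 𝒪)
    (hqs : ∀ i, (qs i).Prime) (hDs : ∀ i, (Ds i).q = qs i) {K : ℕ} (hK : ∀ A, rank A ≤ K)
    (hK0 : 0 < K) (A : Finset ι) (i : ι) (hi : i ∉ A) :
    Nonempty (TruncRaise (L.act ε A) (L.act ε (insert i A))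
      (((Ds i).q : MvPowerSeries (LocVar ι X) 𝒪) + 1) (frobTrace Ds i) (raisingElt Ds i) K) := by
  have : NeZero (qs i) := ⟨(hqs i).ne_zero⟩
  obtain ⟨W⟩ := LevelRaise.exists_wData (hqs i) (L.not_dvd A i hi)
  have hne := (L.raiseHyp A i hi).ne
  obtain ⟨B', φ', hφ', hφ'B, he⟩ := exists_transport
    ((L.dvd A).trans (dvd_mul_right (L.N A) (qs i))) (L.level_insert A i hi)
    (L.basis (insert i A)) (L.φ (insert i A)) (L.compat (insert i A))
    (L.mem_equivEnd (insert i A)) ε L.γ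
  show Nonempty (TruncRaise (actMat _ ε _ _ L.γ) (actMat _ ε _ _ L.γ) _ _ _ K)
  rw [← he]
  exact nonempty_truncRaise W (L.dvd A) hl hne L.isCond (L.mem i) ε (L.mem_equivEnd A) hφ'B
    (L.compat A) hφ' (L.raiseHyp A i hi) p L.isPGroup hp (L.ell A) L.γ
    (by rw [map_add, map_natCast, map_one, hDs]) (L.frob A i hi W.prime)
    (L.new A i hi W hne φ' hφ') (hK _) hK0

/-- The relation between the diamond parameters and the traces. -/
theorem LevelData.dia_rel_act (hε : ∀ j, ε (gen j) = 1 + yVar r n j) (A : Finset ι) (j : Fin r)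
    {K : ℕ} (hK : rank A ≤ K) :
    ((algebraMap (MvPowerSeries (Fin r) 𝒪) (Matrix (Fin (rank A)) (Fin (rank A)) (STrunc 𝒪 r n))
          (1 + MvPowerSeries.X j)) ^ 2 -
        (L.act ε A (L.t A j) ^ 2 - 2) *
          algebraMap (MvPowerSeries (Fin r) 𝒪) (Matrix (Fin (rank A)) (Fin (rank A)) (STrunc 𝒪 r n))
            (1 + MvPowerSeries.X j) + 1) ^ K = 0 := by
  have hd : (L.basis A).dia (gen j) ∈ (L.basis A).equivEnd :=
    (L.basis A).mem_equivEnd.mpr ((L.basis A).isEquivariant_dia (gen j))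
  have e1 : algebraMap (MvPowerSeries (Fin r) 𝒪)
      (Matrix (Fin (rank A)) (Fin (rank A)) (STrunc 𝒪 r n)) (1 + MvPowerSeries.X j) =
      (L.basis A).matHom ε ⟨_, hd⟩ := by
    rw [DBasis.matHom_apply, DBasis.mat_dia, hε, Algebra.algebraMap_eq_smul_one]
    ext x y
    rw [Matrix.smul_apply, Matrix.smul_apply, yVar, Algebra.smul_def]
    rfl
  rw [e1]
  exact (L.basis A).mat_quad_pow ε (v := ⟨_, L.mem_equivEnd A _⟩) (L.dia_rel A j) hK

end FLTAgent.RT.Sys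

namespace FLTAgent.RT.Sys

open IsLocalRing Matrix

variable {𝒪 : Type} [CommRing 𝒪] [IsDomain 𝒪] [IsDiscreteValuationRing 𝒪]
  [IsAdicComplete (maximalIdeal 𝒪) 𝒪] [Finite (ResidueField 𝒪)] [CharZero 𝒪]
  {ι X : Type} [Fintype ι] [Finite X] [DecidableEq ι] {Ds : ι → LocalDatum 𝒪} {qs : ι → ℕ}
  {ρbar : ResidualGaloisRep (ResidueField 𝒪)} {rank : Finset ι → ℕ} {p : ℕ} [Fact p.Prime]
  {J : Type} {l : J → ℕ} {hl : ∀ j, (l j).Prime} {r : ℕ} {Δ : ℕ → Type} [∀ n, CommGroup (Δ n)]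
  [∀ n, Fintype (Δ n)] [∀ n, Fact (Odd (Nat.card (Δ n)))] {gen : ∀ n, Fin r → Δ n}

/-- **The system of a sequence of levels.** -/
def buildSystem (L : ∀ n, LevelData Ds qs X ρbar rank p l hl r (Δ n) (gen n))
    (ε : ∀ n, Δ n →* STrunc 𝒪 r n) (hε : ∀ n j, ε n (gen n j) = 1 + yVar r n j)
    (hp : (p : 𝒪) ∈ maximalIdeal 𝒪) (hqs : ∀ i, (qs i).Prime) (hDs : ∀ i, (Ds i).q = qs i) :
    System Ds X r :=
  let K := ∑ A : Finset ι, rank A + 1
  have hK : ∀ A, rank A ≤ K := fun A =>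
    (Finset.single_le_sum (f := rank) (fun _ _ => Nat.zero_le _) (Finset.mem_univ A)).trans
      (Nat.le_succ _)
  { K := K
    K_pos := Nat.succ_pos _
    rank := rank
    act := fun n A => (L n).act (ε n) A
    rel := fun n A i => (L n).rel_act (ε n) A i
    norm := fun n A i => (L n).norm_act (ε n) A i
    unr := fun n A i hi k hk =>
      actMat_pow_eq_zero _ (ε n) _ _ _ ((L n).unr A i hi k hk) (hK A)
    raise := fun n A i hi =>
      ((L n).nonempty_raise (ε n) hp hqs hDs hK (Nat.succ_pos _) A i hi).some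
    dia := fun n A j => (L n).t A j
    dia_rel := fun n A j => (L n).dia_rel_act (ε n) (hε n) A j (hK A) }

theorem buildSystem_act (L : ∀ n, LevelData Ds qs X ρbar rank p l hl r (Δ n) (gen n))
    (ε : ∀ n, Δ n →* STrunc 𝒪 r n) (hε : ∀ n j, ε n (gen n j) = 1 + yVar r n j)
    (hp : (p : 𝒪) ∈ maximalIdeal 𝒪) (hqs : ∀ i, (qs i).Prime) (hDs : ∀ i, (Ds i).q = qs i)
    (n : ℕ) (A : Finset ι) :
    (buildSystem L ε hε hp hqs hDs).act n A = (L n).act (ε n) A := rfl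

end FLTAgent.RT.Sys
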