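import Fermat.Agent.RT.Coh.Free
import Mathlib.Algebra.MonoidAlgebra.MapDomain
import Mathlib.LinearAlgebra.Matrix.ToLin
import Mathlib.LinearAlgebra.Matrix.Charpoly.Coeff
import Mathlib.RepresentationTheory.Maschke
import Mathlib.RingTheory.SimpleModule.Basic
import Mathlib.RingTheory.Polynomial.Nilpotent

/-!
# Matrices of maps commuting with the diamonds

A basis over `O[D]` of a part turns the maps commuting with the diamonds into matrices over any
algebra equipped with a character of `D`.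
-/

set_option autoImplicit false

noncomputable section

namespace FLTAgent.RT.Sys

open LevelRaise CongruenceSubgroup IsLocalRing Matrix
open scoped MatrixGroups

/-- A nilpotent matrix over a reduced ring vanishes at the power given by its size. -/
theorem pow_eq_zero_of_isNilpotent {A : Type*} [CommRing A] [IsReduced A] {d : ℕ}
    {X : Matrix (Fin d) (Fin d) A} (hX : IsNilpotent X) : X ^ d = 0 := by
  have h := Matrix.isNilpotent_charpoly_sub_pow_of_isNilpotent hX
  rw [Fintype.card_fin] at h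
  have h' := Matrix.aeval_self_charpoly X
  have h0 : X.charpoly - Polynomial.X ^ d = 0 := Polynomial.ext fun k => by
    rw [Polynomial.coeff_zero]
    exact (Polynomial.isNilpotent_iff.mp h k).eq_zero
  rwa [sub_eq_zero.mp h0, map_pow, Polynomial.aeval_X] at h'

/-- The group algebra over a domain of characteristic zero is reduced. -/
theorem isReduced_monoidAlgebra (O D : Type*) [CommRing O] [IsDomain O] [CharZero O] [CommGroup D]
    [Finite D] : IsReduced (MonoidAlgebra O D) := by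
  have : CharZero (FractionRing O) :=
    charZero_of_injective_algebraMap (IsFractionRing.injective O (FractionRing O))
  have : NeZero (Nat.card D : FractionRing O) := ⟨by simp [Nat.card_pos.ne']⟩
  have : IsSemisimpleRing (MonoidAlgebra (FractionRing O) D) := inferInstance
  have : IsReduced (MonoidAlgebra (FractionRing O) D) := inferInstance
  exact isReduced_of_injective (MonoidAlgebra.mapRingHom D (algebraMap O (FractionRing O)))
    fun x y h => by
      ext m
      exact IsFractionRing.injective O (FractionRing O)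
        (by simpa using congrArg (fun z => z.coeff m) h)

variable {M N : ℕ} {D : Type*} [CommGroup D] [Fintype D] {χ : (ZMod M)ˣ →* D}
  [Fact (Odd (Nat.card D))] [NeZero N] {O : Type*} [CommRing O] {hMN : M ∣ N}
  {hχ : Function.Surjective χ} {P : Submodule O (Coh N χ O)} {d : ℕ}

/-- A basis of `P` over the group algebra of the diamonds. -/
structure DBasis (hMN : M ∣ N) (hχ : Function.Surjective χ) (P : Submodule O (Coh N χ O))
    (d : ℕ) where
  b : Fin d → Coh N χ O
  injective : Function.Injective (diamondSum hMN hχ b)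
  range_eq : LinearMap.range (diamondSum hMN hχ b) = P

variable (B : DBasis hMN hχ P d)

/-- The coordinates over the group algebra. -/
def DBasis.equiv : (D → Fin d → O) ≃ₗ[O] P :=
  (LinearEquiv.ofInjective _ B.injective).trans (LinearEquiv.ofEq _ _ B.range_eq)

theorem DBasis.coe_equiv (c : D → Fin d → O) :
    (B.equiv c : Coh N χ O) = diamondSum hMN hχ B.b c := rfl

include B in
theorem DBasis.diamond_mem (δ : D) {x : Coh N χ O} (hx : x ∈ P) :
    diamond O O χ hMN hχ δ x ∈ P := by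
  rw [← B.range_eq] at hx ⊢
  obtain ⟨c, rfl⟩ := hx
  exact ⟨_, (diamond_diamondSum hMN hχ B.b δ c).symm⟩

/-- The diamonds on `P`. -/
def DBasis.dia : D →* Module.End O P where
  toFun δ := (diamond O O χ hMN hχ δ).restrict fun _ hx => B.diamond_mem δ hx
  map_one' := LinearMap.ext fun x => Subtype.ext (by
    show diamond O O χ hMN hχ 1 x = x
    rw [map_one]; rfl)
  map_mul' δ ε := LinearMap.ext fun x => Subtype.ext (by
    show diamond O O χ hMN hχ (δ * ε) x = diamond O O χ hMN hχ δ (diamond O O χ hMN hχ ε x)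
    rw [map_mul]; rfl)

theorem DBasis.coe_dia (δ : D) (x : P) :
    (B.dia δ x : Coh N χ O) = diamond O O χ hMN hχ δ x := rfl

theorem DBasis.dia_equiv (δ : D) (c : D → Fin d → O) :
    B.dia δ (B.equiv c) = B.equiv fun ε => c (δ⁻¹ * ε) :=
  Subtype.ext (by rw [B.coe_dia, B.coe_equiv, B.coe_equiv, diamond_diamondSum])

/-- The `j`th basis vector. -/
def DBasis.vec (j : Fin d) : P :=
  ⟨B.b j, by
    classical
    refine B.range_eq.le ⟨fun δ i => if δ = 1 ∧ i = j then 1 else 0, ?_⟩
    rw [diamondSum_apply, Finset.sum_eq_single (1 : D)]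
    · rw [map_one, Module.End.one_apply, Finset.sum_eq_single j] <;> simp +contextual
    · intro δ _ hδ; simp [hδ]
    · simp⟩

theorem DBasis.coe_vec (j : Fin d) : (B.vec j : Coh N χ O) = B.b j := rfl

theorem DBasis.equiv_eq_sum (c : D → Fin d → O) :
    B.equiv c = ∑ δ, ∑ j, c δ j • B.dia δ (B.vec j) := by
  refine Subtype.ext ?_
  rw [B.coe_equiv, diamondSum_apply]
  simp only [AddSubmonoidClass.coe_finsetSum, Submodule.coe_smul, B.coe_dia, B.coe_vec, map_sum,
    map_smul]

theorem DBasis.vec_eq_equiv [DecidableEq D] (j : Fin d) :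
    B.vec j = B.equiv (Pi.single 1 (Pi.single j 1)) := by
  rw [B.equiv_eq_sum, Finset.sum_eq_single (1 : D)]
  · rw [Finset.sum_eq_single j] <;> simp +contextual
  · intro δ _ hδ; simp [hδ]
  · simp

section Coord

variable {A : Type*} [CommRing A] [Algebra O A] (ε : D →* A)

/-- The coordinates in an algebra with a character. -/
def DBasis.coord : P →ₗ[O] (Fin d → A) where
  toFun x i := ∑ δ, B.equiv.symm x δ i • ε δ
  map_add' x y := funext fun i => by simp [add_smul, Finset.sum_add_distrib]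
  map_smul' c x := funext fun i => by simp [Finset.smul_sum, mul_smul]

theorem DBasis.coord_apply (x : P) (i : Fin d) :
    B.coord ε x i = ∑ δ, B.equiv.symm x δ i • ε δ := rfl

theorem DBasis.coord_dia (δ : D) (x : P) : B.coord ε (B.dia δ x) = ε δ • B.coord ε x := by
  obtain ⟨c, rfl⟩ := B.equiv.surjective x
  funext i
  rw [B.dia_equiv, Pi.smul_apply, B.coord_apply, B.coord_apply, LinearEquiv.symm_apply_apply,
    LinearEquiv.symm_apply_apply, Finset.smul_sum]
  refine Fintype.sum_equiv (Equiv.mulLeft δ⁻¹) _ _ fun η => ?_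
  rw [Equiv.coe_mulLeft, smul_eq_mul, mul_smul_comm, ← map_mul, mul_inv_cancel_left]

theorem DBasis.coord_vec (j : Fin d) : B.coord ε (B.vec j) = Pi.single j 1 := by
  classical
  funext i
  rw [B.coord_apply, B.vec_eq_equiv, LinearEquiv.symm_apply_apply, Finset.sum_eq_single (1 : D)]
  · rcases eq_or_ne i j with rfl | h <;> simp [*]
  · intro δ _ hδ; simp [hδ]
  · simp

theorem DBasis.coord_comp {A' : Type*} [CommRing A'] [Algebra O A'] (g : A →ₐ[O] A') (x : P)
    (i : Fin d) : B.coord ((g : A →* A').comp ε) x i = g (B.coord ε x i) := by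
  simp [DBasis.coord_apply, map_sum]

theorem DBasis.coord_sub_mem {J : Ideal A} {ε' : D →* A} (h : ∀ δ, ε δ - ε' δ ∈ J) (x : P)
    (i : Fin d) : B.coord ε x i - B.coord ε' x i ∈ J := by
  rw [B.coord_apply, B.coord_apply, ← Finset.sum_sub_distrib]
  refine sum_mem fun δ _ => ?_
  rw [← smul_sub, Algebra.smul_def]
  exact J.mul_mem_left _ (h δ)

theorem DBasis.coord_mem_of_mem_smul {I : Ideal O} {J : Ideal A}
    (hIJ : ∀ c ∈ I, algebraMap O A c ∈ J) {x : P} (hx : x ∈ I • (⊤ : Submodule O P)) (i : Fin d) :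
    B.coord ε x i ∈ J := by
  refine Submodule.smul_induction_on (p := fun x => B.coord ε x i ∈ J) hx (fun c hc y _ => ?_)
    fun y z hy hz => ?_
  · rw [map_smul, Pi.smul_apply, Algebra.smul_def]
    exact J.mul_mem_right _ (hIJ c hc)
  · rw [map_add, Pi.add_apply]; exact J.add_mem hy hz

/-- The corestriction in the base coordinates. -/
theorem DBasis.coresC_eq_sum (x : P) :
    coresC O χ hMN hχ (x : Coh N χ O) =
      ∑ i, B.coord (1 : D →* O) x i • coresC O χ hMN hχ (B.b i) := by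
  obtain ⟨c, rfl⟩ := B.equiv.surjective x
  rw [B.coe_equiv, diamondSum_apply, map_sum]
  simp only [coresC_diamond, map_sum, map_smul]
  rw [Finset.sum_comm]
  simp [DBasis.coord_apply, Finset.sum_smul]

end Coord

/-- The universal coordinates are injective. -/
theorem DBasis.eq_zero_of_coord_of {x : P}
    (h : B.coord (MonoidAlgebra.of O D) x = 0) : x = 0 := by
  classical
  obtain ⟨c, rfl⟩ := B.equiv.surjective x
  rw [show c = 0 from funext fun δ => funext fun i => ?_, map_zero]
  have h1 := congrFun h i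
  rw [B.coord_apply, LinearEquiv.symm_apply_apply] at h1
  have h2 := congrArg (fun z : MonoidAlgebra O D => z.coeff δ) h1
  simp only [MonoidAlgebra.of_apply, MonoidAlgebra.smul_single, smul_eq_mul, mul_one,
    MonoidAlgebra.coeff_sum, MonoidAlgebra.coeff_single, Pi.zero_apply, MonoidAlgebra.coeff_zero,
    Finsupp.finsetSum_apply, Finsupp.single_apply, Finset.sum_ite_eq', Finset.mem_univ, if_true,
    Finsupp.coe_zero] at h2
  exact h2

variable {M₂ N₂ : ℕ} {χ₂ : (ZMod M₂)ˣ →* D} [NeZero N₂] {hMN₂ : M₂ ∣ N₂}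
  {hχ₂ : Function.Surjective χ₂} {P₂ : Submodule O (Coh N₂ χ₂ O)} {d₂ : ℕ}
  (B₂ : DBasis hMN₂ hχ₂ P₂ d₂)
  {M₃ N₃ : ℕ} {χ₃ : (ZMod M₃)ˣ →* D} [NeZero N₃] {hMN₃ : M₃ ∣ N₃}
  {hχ₃ : Function.Surjective χ₃} {P₃ : Submodule O (Coh N₃ χ₃ O)} {d₃ : ℕ}
  (B₃ : DBasis hMN₃ hχ₃ P₃ d₃)
  {A : Type*} [CommRing A] [Algebra O A] (ε : D →* A)

/-- A map commuting with the diamonds. -/
def DBasis.IsEquivariant (f : P →ₗ[O] P₂) : Prop :=
  ∀ δ x, f (B.dia δ x) = B₂.dia δ (f x)

/-- The matrix of a map. -/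
def DBasis.mat (f : P →ₗ[O] P₂) : Matrix (Fin d₂) (Fin d) A :=
  Matrix.of fun i j => B₂.coord ε (f (B.vec j)) i

theorem DBasis.mat_apply (f : P →ₗ[O] P₂) (i : Fin d₂) (j : Fin d) :
    B.mat B₂ ε f i j = B₂.coord ε (f (B.vec j)) i := rfl

variable {B B₂}

/-- The matrix computes an equivariant map in coordinates. -/
theorem DBasis.coord_map {f : P →ₗ[O] P₂} (hf : B.IsEquivariant B₂ f) (x : P) :
    B₂.coord ε (f x) = B.mat B₂ ε f *ᵥ B.coord ε x := by
  obtain ⟨c, rfl⟩ := B.equiv.surjective x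
  funext i
  have e1 : f (B.equiv c) = ∑ δ, ∑ j, c δ j • B₂.dia δ (f (B.vec j)) := by
    rw [B.equiv_eq_sum]
    simp only [map_sum, map_smul, hf _ _]
  rw [e1]
  simp only [map_sum, map_smul, B₂.coord_dia, Finset.sum_apply, Pi.smul_apply, Matrix.mulVec,
    dotProduct, B.coord_apply, LinearEquiv.symm_apply_apply, Finset.mul_sum, B.mat_apply]
  rw [Finset.sum_comm]
  refine Finset.sum_congr rfl fun j _ => Finset.sum_congr rfl fun δ _ => ?_
  rw [smul_eq_mul, mul_smul_comm, mul_comm]

theorem DBasis.mat_comp {f : P →ₗ[O] P₂} {g : P₂ →ₗ[O] P₃} (hg : B₂.IsEquivariant B₃ g) :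
    B.mat B₃ ε (g ∘ₗ f) = B₂.mat B₃ ε g * B.mat B₂ ε f :=
  Matrix.ext fun i j => by
    rw [B.mat_apply, LinearMap.comp_apply, DBasis.coord_map ε hg]
    rfl

theorem DBasis.IsEquivariant.comp {f : P →ₗ[O] P₂} {g : P₂ →ₗ[O] P₃}
    (hf : B.IsEquivariant B₂ f) (hg : B₂.IsEquivariant B₃ g) : B.IsEquivariant B₃ (g ∘ₗ f) :=
  fun δ x => by rw [LinearMap.comp_apply, LinearMap.comp_apply, hf, hg]

variable (B B₂)

theorem DBasis.mat_id : B.mat B ε LinearMap.id = 1 :=
  Matrix.ext fun i j => by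
    rw [B.mat_apply, LinearMap.id_apply, B.coord_vec, Matrix.one_apply, Pi.single_apply]

theorem DBasis.mat_add (f g : P →ₗ[O] P₂) :
    B.mat B₂ ε (f + g) = B.mat B₂ ε f + B.mat B₂ ε g :=
  Matrix.ext fun i j => by simp [DBasis.mat_apply]

theorem DBasis.mat_smul (c : O) (f : P →ₗ[O] P₂) :
    B.mat B₂ ε (c • f) = c • B.mat B₂ ε f :=
  Matrix.ext fun i j => by simp [DBasis.mat_apply]

theorem DBasis.mat_zero : B.mat B₂ ε (0 : P →ₗ[O] P₂) = 0 :=
  Matrix.ext fun i j => by simp [DBasis.mat_apply]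

theorem DBasis.mat_dia (δ : D) : B.mat B ε (B.dia δ) = ε δ • (1 : Matrix (Fin d) (Fin d) A) :=
  Matrix.ext fun i j => by
    rw [B.mat_apply, B.coord_dia, B.coord_vec, Matrix.smul_apply, Pi.smul_apply, Matrix.one_apply,
      Pi.single_apply]

theorem DBasis.mat_algHom {A' : Type*} [CommRing A'] [Algebra O A'] (g : A →ₐ[O] A')
    (f : P →ₗ[O] P₂) : B.mat B₂ ((g : A →* A').comp ε) f = (B.mat B₂ ε f).map g :=
  Matrix.ext fun _ _ => B₂.coord_comp ε g _ _

/-- Congruent characters give congruent matrices. -/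
theorem DBasis.mat_sub_mem {J : Ideal A} {ε' : D →* A} (h : ∀ δ, ε δ - ε' δ ∈ J)
    (f : P →ₗ[O] P₂) (i : Fin d₂) (j : Fin d) :
    B.mat B₂ ε f i j - B.mat B₂ ε' f i j ∈ J :=
  B₂.coord_sub_mem ε h _ _

theorem DBasis.mat_mem {I : Ideal O} {J : Ideal A} (hIJ : ∀ c ∈ I, algebraMap O A c ∈ J)
    {f : P →ₗ[O] P₂} (hf : ∀ x, f x ∈ I • (⊤ : Submodule O P₂)) (i : Fin d₂) (j : Fin d) :
    B.mat B₂ ε f i j ∈ J :=
  B₂.coord_mem_of_mem_smul ε hIJ (hf _) i

/-- With the trivial character the matrix is that of the corestricted map. -/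
theorem DBasis.mat_one_eq_toMatrix {P₀ : Submodule O (Coh N trivChar O)}
    {P₀' : Submodule O (Coh N₂ trivChar O)} (b₀ : Module.Basis (Fin d) O P₀)
    (b₀' : Module.Basis (Fin d₂) O P₀')
    (hb : ∀ j, coresC O χ hMN hχ (B.b j) = (b₀ j : Coh N trivChar O))
    (hb' : ∀ j, coresC O χ₂ hMN₂ hχ₂ (B₂.b j) = (b₀' j : Coh N₂ trivChar O))
    (f : P →ₗ[O] P₂) (f₀ : P₀ →ₗ[O] P₀')
    (h : ∀ (x : P) (y : P₀), coresC O χ hMN hχ (x : Coh N χ O) = y →
      coresC O χ₂ hMN₂ hχ₂ (f x : Coh N₂ χ₂ O) = f₀ y) :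
    B.mat B₂ (1 : D →* O) f = LinearMap.toMatrix b₀ b₀' f₀ := by
  refine Matrix.ext fun i j => ?_
  have e := h (B.vec j) (b₀ j) (hb j)
  rw [B₂.coresC_eq_sum] at e
  simp only [hb'] at e
  have e' : f₀ (b₀ j) = ∑ k, B₂.coord (1 : D →* O) (f (B.vec j)) k • b₀' k :=
    Subtype.ext (by simp [← e])
  rw [LinearMap.toMatrix_apply, e', b₀'.repr_sum_self, B.mat_apply]

/-- The maps of `P` commuting with the diamonds. -/
def DBasis.equivEnd : Subalgebra O (Module.End O P) := Subalgebra.centralizer O (Set.range B.dia)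

theorem DBasis.mem_equivEnd {f : Module.End O P} :
    f ∈ B.equivEnd ↔ B.IsEquivariant B f := by
  rw [DBasis.equivEnd, Subalgebra.mem_centralizer_iff]
  exact ⟨fun h δ x => (LinearMap.congr_fun (h _ ⟨δ, rfl⟩) x).symm,
    fun h g ⟨δ, e⟩ => e ▸ LinearMap.ext fun x => (h δ x).symm⟩

/-- The matrix as an algebra homomorphism. -/
def DBasis.matHom : B.equivEnd →ₐ[O] Matrix (Fin d) (Fin d) A where
  toFun f := B.mat B ε (f : Module.End O P)
  map_one' := B.mat_id ε
  map_mul' f g := DBasis.mat_comp B ε (B.mem_equivEnd.mp f.2)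
  map_zero' := B.mat_zero B ε
  map_add' f g := B.mat_add B ε _ _
  commutes' c := by
    show B.mat B ε (c • (1 : Module.End O P)) = _
    rw [B.mat_smul, show (1 : Module.End O P) = LinearMap.id from rfl, B.mat_id,
      Algebra.algebraMap_eq_smul_one]

theorem DBasis.matHom_apply (f : B.equivEnd) :
    B.matHom ε f = B.mat B ε (f : Module.End O P) := rfl

/-- **Uniform nilpotence.** A nilpotent map commuting with the diamonds vanishes at the power
given by the rank. -/
theorem DBasis.pow_eq_zero [IsDomain O] [CharZero O] {f : Module.End O P}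
    (hf : B.IsEquivariant B f) (hn : IsNilpotent f) : f ^ d = 0 := by
  have := isReduced_monoidAlgebra O D
  let F : B.equivEnd := ⟨f, B.mem_equivEnd.mpr hf⟩
  have hF : IsNilpotent F := by
    obtain ⟨k, hk⟩ := hn
    exact ⟨k, Subtype.ext hk⟩
  have hm := pow_eq_zero_of_isNilpotent (hF.map (B.matHom (MonoidAlgebra.of O D)))
  rw [← map_pow] at hm
  have hz : ∀ x, (f ^ d) x = 0 := fun x => B.eq_zero_of_coord_of (by
    rw [show f ^ d = ((F ^ d : B.equivEnd) : Module.End O P) from rfl,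
      DBasis.coord_map _ (B.mem_equivEnd.mp (F ^ d).2), ← B.matHom_apply, hm, Matrix.zero_mulVec])
  exact LinearMap.ext hz

/-- Lifts of a prescribed basis of the part on `Γ₀(N)` form a basis over `O[D]`. -/
theorem exists_dBasis [IsDomain O] [IsDiscreteValuationRing O] [IsAdicComplete (maximalIdeal O) O]
    [Finite (ResidueField O)] [CharZero O] {ι : Type*} {l : ι → ℕ} (hMN : M ∣ N)
    (hχ : Function.Surjective χ) (hl : ∀ i, (l i).Prime) {a : ι → O} (p : ℕ) [Fact p.Prime]
    (hD : IsPGroup p D) (hp : (p : O) ∈ maximalIdeal O) (he : EllCond χ N) (hne : NonEis l a)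
    {d : ℕ} (b₀ : Module.Basis (Fin d) O (cohPart trivChar (one_dvd N) hl a)) :
    ∃ B : DBasis hMN hχ (cohPart χ hMN hl a) d,
      ∀ j, coresC O χ hMN hχ (B.b j) = (b₀ j : Coh N trivChar O) := by
  choose b hbmem hb using fun j => exists_coresC_eq_of_mem_cohPart hMN hχ hl he (b₀ j).2
  refine ⟨⟨b, diamondSum_injective hMN hχ hl p hD hp hne b b₀ hb,
    le_antisymm ?_ (cohPart_le_range_diamondSum hMN hχ hl p hD hp he b hbmem b₀ hb)⟩, hb⟩
  rintro _ ⟨f, rfl⟩
  rw [diamondSum_apply]
  exact sum_mem fun δ _ => diamond_mem_cohPart hMN hχ hl δ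
    (sum_mem fun j _ => Submodule.smul_mem _ _ (hbmem j))

end FLTAgent.RT.Sys
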