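import Fermat.Agent.RT.Sys.RelRes
import Fermat.Agent.RT.Sys.Act

/-!
# Congruences from the classes fixed by a subgroup of the diamonds

An action nilpotent on the part of a level with a quotient character kills the norms over the
kernel of the quotient; then, for a character congruent to one of the quotient, its matrices to the
power of the rank vanish modulo the congruence.
-/

set_option autoImplicit false
set_option linter.unusedSectionVars false

noncomputable section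

namespace FLTAgent.RT.Sys

open IsLocalRing Matrix

section Basis

variable {M N d : ℕ} {D D' : Type*} [CommGroup D] [Fintype D] [CommGroup D'] [Fintype D']
  {χ : (ZMod M)ˣ →* D} [Fact (Odd (Nat.card D))] [NeZero N] {O : Type*} [CommRing O] {hMN : M ∣ N}
  {hχ : Function.Surjective χ} {P : Submodule O (Coh N χ O)} (B : DBasis hMN hχ P d)
  (π : D →* D') [Fintype π.ker]

/-- An equivariant map killing the norms over the kernel vanishes over the group algebra of the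
quotient. -/
theorem DBasis.mat_of_eq_zero {f : Module.End O P} (hf : B.IsEquivariant B f)
    (h : ∀ v, f (∑ δ : π.ker, B.dia (δ : D) v) = 0) :
    B.mat B ((MonoidAlgebra.of O D').comp π) f = 0 := by
  classical
  refine Matrix.ext fun i j => ?_
  have hx : ∑ δ : π.ker, B.dia (δ : D) (f (B.vec j)) = 0 := by
    rw [← h (B.vec j), map_sum]
    exact Finset.sum_congr rfl fun δ _ => (hf _ _).symm
  obtain ⟨c, hc⟩ := B.equiv.surjective (f (B.vec j))
  have hsum : ∀ η, ∑ δ : π.ker, c ((δ : D)⁻¹ * η) i = 0 := fun η => by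
    have h1 : B.equiv (∑ δ : π.ker, fun η => c ((δ : D)⁻¹ * η)) = 0 := by
      rw [map_sum, ← hx, ← hc]
      exact Finset.sum_congr rfl fun δ _ => (B.dia_equiv _ _).symm
    have h2 := congrFun (congrFun ((LinearEquiv.map_eq_zero_iff _).mp h1) η) i
    simpa using h2
  rw [B.mat_apply, B.coord_apply, ← hc, LinearEquiv.symm_apply_apply, Matrix.zero_apply]
  ext e
  simp only [MonoidAlgebra.coeff_sum, Finsupp.finsetSum_apply, MonoidHom.comp_apply,
    MonoidAlgebra.of_apply, MonoidAlgebra.smul_single, smul_eq_mul, mul_one,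
    MonoidAlgebra.coeff_single, Finsupp.single_apply, MonoidAlgebra.coeff_zero, Finsupp.coe_zero,
    Pi.zero_apply]
  rw [← Finset.sum_filter]
  by_cases he : ∃ η, π η = e
  · obtain ⟨η₀, rfl⟩ := he
    rw [← hsum η₀]
    refine (Finset.sum_bij' (fun (δ : π.ker) _ => (δ : D)⁻¹ * η₀)
      (fun η hη => ⟨η₀ * η⁻¹, ?_⟩) (fun δ _ => ?_) (fun η _ => Finset.mem_univ _)
      (fun δ _ => ?_) (fun η _ => ?_) fun δ _ => rfl).symm
    · rw [MonoidHom.mem_ker, map_mul, map_inv, (Finset.mem_filter.mp hη).2, mul_inv_cancel]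
    · refine Finset.mem_filter.mpr ⟨Finset.mem_univ _, ?_⟩
      rw [map_mul, map_inv, MonoidHom.mem_ker.mp δ.2, inv_one, one_mul]
    · exact Subtype.ext (by simp)
    · simp
  · refine Finset.sum_eq_zero fun η hη => absurd ⟨η, (Finset.mem_filter.mp hη).2⟩ he

/-- A map with a power killing the norms: the rank suffices as exponent, and every character
congruent to a character of the quotient gives congruent entries. -/
theorem DBasis.mat_pow_mem [IsDomain O] [CharZero O] {f : Module.End O P}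
    (hf : B.IsEquivariant B f) {m : ℕ} (h : ∀ v, (f ^ m) (∑ δ : π.ker, B.dia (δ : D) v) = 0)
    {A : Type*} [CommRing A] [Algebra O A] {J : Ideal A} {ε : D →* A} {ε₁ : D' →* A}
    (hε : ∀ δ, ε δ - ε₁ (π δ) ∈ J) {K : ℕ} (hK : d ≤ K) (i j : Fin d) :
    B.mat B ε (f ^ K) i j ∈ J := by
  have := isReduced_monoidAlgebra O D'
  let F : B.equivEnd := ⟨f, B.mem_equivEnd.mpr hf⟩
  let Φ := B.matHom ((MonoidAlgebra.of O D').comp π)
  have hz : Φ F ^ m = 0 := by
    rw [← map_pow, DBasis.matHom_apply, SubmonoidClass.coe_pow]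
    exact B.mat_of_eq_zero π (B.mem_equivEnd.mp (F ^ m).2) h
  have hd : B.mat B ((MonoidAlgebra.of O D').comp π) (f ^ K) = 0 := by
    rw [← pow_eq_zero_of_le hK (pow_eq_zero_of_isNilpotent ⟨m, hz⟩), ← map_pow]
    rfl
  have h1 : B.mat B (ε₁.comp π) (f ^ K) = 0 := by
    have e : ε₁.comp π = ((MonoidAlgebra.lift O A D' ε₁ : MonoidAlgebra O D' →ₐ[O] A) :
        MonoidAlgebra O D' →* A).comp ((MonoidAlgebra.of O D').comp π) :=
      MonoidHom.ext fun δ => (MonoidAlgebra.lift_of ε₁ (π δ)).symm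
    rw [e, B.mat_algHom B, hd]
    exact Matrix.map_zero _ (map_zero _)
  have h2 := B.mat_sub_mem B ε (ε' := ε₁.comp π) (J := J) hε (f ^ K) i j
  rwa [h1, Matrix.zero_apply, sub_zero] at h2

/-- If the product with `dia h₀ - 1` is nilpotent, the power given by the rank has vanishing matrix
for every character which is a scalar character not `1` at `h₀` times a character of the quotient
trivial at `h₀`. -/
theorem DBasis.mat_pow_eq_zero_of_mul [IsDomain O] [CharZero O] {A : Type*} [CommRing A]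
    [Algebra O A] (ε : D →* A) (κ : D →* O) {ε₁ : D' →* A}
    (hε : ∀ δ, ε δ = algebraMap O A (κ δ) * ε₁ (π δ)) {h₀ : D} (hπ : π h₀ = 1) (hκ : κ h₀ ≠ 1)
    {f : Module.End O P} (hf : B.IsEquivariant B f) (hn : IsNilpotent ((B.dia h₀ - 1) * f)) :
    B.mat B ε f ^ d = 0 := by
  classical
  let ε₀ : D →* MonoidAlgebra O D' :=
    ((algebraMap O (MonoidAlgebra O D')).toMonoidHom.comp κ) * (MonoidAlgebra.of O D').comp π
  have hd : B.dia h₀ ∈ B.equivEnd :=
    B.mem_equivEnd.mpr fun δ x => by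
      rw [← Module.End.mul_apply, ← Module.End.mul_apply, ← map_mul, ← map_mul, mul_comm]
  let F : B.equivEnd := ⟨f, B.mem_equivEnd.mpr hf⟩
  let H : B.equivEnd := ⟨B.dia h₀, hd⟩
  have hX : (H * F + (-1 : O) • F) ^ d = 0 := by
    refine Subtype.ext (B.pow_eq_zero (B.mem_equivEnd.mp (H * F + (-1 : O) • F).2) ?_)
    rwa [show ((H * F + (-1 : O) • F : B.equivEnd) : Module.End O P) = (B.dia h₀ - 1) * f by
      refine LinearMap.ext fun x => ?_
      show B.dia h₀ (f x) + (-1 : O) • f x = B.dia h₀ (f x) - f x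
      refine Subtype.ext ?_
      simp [sub_eq_add_neg]]
  have h1 := congrArg (B.matHom ε₀) hX
  rw [map_pow, map_add, map_mul, map_smul, map_zero, DBasis.matHom_apply, DBasis.matHom_apply,
    DBasis.mat_dia] at h1
  have hc : ε₀ h₀ = algebraMap O _ (κ h₀) := by
    simp [ε₀, hπ]
  rw [hc, algebraMap_smul, smul_one_mul, ← add_smul, ← sub_eq_add_neg, smul_pow] at h1
  have h0 : B.mat B ε₀ f ^ d = 0 := by
    refine Matrix.ext fun i j => MonoidAlgebra.ext (Finsupp.ext fun e => ?_)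
    have := congrArg (fun Z => (Z i j).coeff e) h1
    simpa [sub_ne_zero.mpr hκ] using this
  have e : ε = ((MonoidAlgebra.lift O A D' ε₁ : MonoidAlgebra O D' →ₐ[O] A) :
      MonoidAlgebra O D' →* A).comp ε₀ := MonoidHom.ext fun δ => by
    rw [hε, ← Algebra.smul_def]
    simp [ε₀]
  rw [e, B.mat_algHom B]
  show ((MonoidAlgebra.lift O A D' ε₁).mapMatrix (B.mat B ε₀ f)) ^ d = 0
  rw [← map_pow, h0, map_zero]

end Basis

section Part

variable {𝒪 : Type} [CommRing 𝒪] [IsDomain 𝒪] [IsDiscreteValuationRing 𝒪]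
  [IsAdicComplete (maximalIdeal 𝒪) 𝒪] [Finite (ResidueField 𝒪)] [CharZero 𝒪]
  {ρbar : ResidualGaloisRep (ResidueField 𝒪)}
  {𝒟 : ∀ ⦃A : Type⦄ [CommRing A] [IsLocalRing A] [Algebra 𝒪 A], GaloisRepAdic A → Prop}
  {M M' N d : ℕ} {D D' : Type} [CommGroup D] [Fintype D] [CommGroup D'] [Fintype D']
  {χ : (ZMod M)ˣ →* D} {χ' : (ZMod M')ˣ →* D'} [Fact (Odd (Nat.card D))]
  [Fact (Odd (Nat.card D'))] [NeZero N] {hMN : M ∣ N} {hχ : Function.Surjective χ}
  {J : Type*} {l : J → ℕ} {hl : ∀ i, (l i).Prime} {a : J → 𝒪}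

/-- **An action nilpotent on the part of the quotient level has a power killing the norms.** -/
theorem exists_pow_kills_norms (h𝒟 : GaloisRep.IsDeformationCondition 𝒪 𝒟)
    {Dat : GaloisRep.DeformationRingData 𝒪 ρbar 𝒟} {S₁ S₁' : Finset ℕ}
    (B : DBasis hMN hχ (cohPart χ hMN hl a) d) (π : D →* D') [Fintype π.ker] (hM'M : M' ∣ M)
    (hχ' : π.comp χ = χ'.comp (ZMod.unitsMap hM'M))
    (hkl : ∀ i, l i ∣ M → l i ∣ M') (hkS : ∀ ℓ : ℕ, ℓ.Prime → ℓ ∣ M → ℓ ∈ S₁ ∪ S₁')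
    {φ : Dat.R →ₐ[𝒪] Module.End 𝒪 (cohPart χ hMN hl a)} (hφ : IsFrobCompat Dat S₁ φ)
    {φ' : Dat.R →ₐ[𝒪] Module.End 𝒪 (cohPart χ' (hM'M.trans hMN) hl a)}
    (hφ' : IsFrobCompat Dat S₁' φ') {r : Dat.R} (hr : IsNilpotent (φ' r)) :
    ∃ m : ℕ, ∀ v, (φ r ^ m) (∑ δ : π.ker, B.dia (δ : D) v) = 0 := by
  have := moduleFinite_coh (χ := χ) 𝒪 𝒪 hMN
  have := moduleFinite_coh (χ := χ') 𝒪 𝒪 (hM'M.trans hMN)
  have := isNoetherian_of_isNoetherianRing_of_finite 𝒪 (Coh N χ 𝒪)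
  have := isNoetherian_of_isNoetherianRing_of_finite 𝒪 (Coh N χ' 𝒪)
  have hle : gammaH N χ ≤ gammaH N χ' := gammaH_le_quot π hM'M hχ' hMN
  have hcomm : ∀ i φ, resH 𝒪 𝒪 hle (opP 𝒪 𝒪 χ' (hM'M.trans hMN) (hl i) φ) =
      opP 𝒪 𝒪 χ hMN (hl i) (resH 𝒪 𝒪 hle φ) := fun i φ =>
    (resH_opP hMN _ hle (hl i) (bal_quot π hM'M hχ' (hl i) (hkl i)) φ).symm
  let c : cohPart χ' (hM'M.trans hMN) hl a →ₗ[𝒪] cohPart χ hMN hl a :=
    (resH 𝒪 𝒪 hle).restrict fun _ hψ => map_mem_cohPart _ hl a hMN _ hcomm hψ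
  have hint : c ∘ₗ φ' r = φ r ∘ₗ c := by
    refine intertwine_of_frobTraces h𝒟 Dat (S₁ ∪ S₁') φ' φ c ?_ r
    rintro _ ⟨ℓ, hℓ, hℓS, A, hA, σ, hσ, rfl⟩
    refine LinearMap.ext fun v => Subtype.ext ?_
    have hnot := hℓS
    rw [Finset.mem_union, not_or] at hnot
    show resH 𝒪 𝒪 hle (φ' (Dat.ρ.trace σ) v : Coh N χ' 𝒪) = φ (Dat.ρ.trace σ) (c v)
    rw [hφ' ℓ hℓ hnot.2 A hA σ hσ, hφ ℓ hℓ hnot.1 A hA σ hσ]
    exact (resH_opP hMN _ hle hℓ
      (bal_quot π hM'M hχ' hℓ fun hd => absurd (hkS ℓ hℓ hd) hℓS) _).symm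
  obtain ⟨m, hm⟩ := hr
  refine ⟨m, fun v => ?_⟩
  obtain ⟨ψ, hψ⟩ := exists_resH_eq_sum (R := 𝒪) π hM'M hχ' hMN hχ (v : Coh N χ 𝒪)
  have hv : c ⟨_, cohProj_mem (hM'M.trans hMN) hl a ψ⟩ = ∑ δ : π.ker, B.dia (δ : D) v :=
    Subtype.ext (by
      show resH 𝒪 𝒪 hle (cohProj χ' (hM'M.trans hMN) hl a ψ) = _
      rw [cohProj_map _ hl a hMN _ hcomm, hψ, AddSubmonoidClass.coe_finsetSum, map_sum]
      refine Finset.sum_congr rfl fun δ _ => ?_
      rw [← B.coe_dia]
      exact (mem_cohPart_iff hMN hl a).mp (B.dia (δ : D) v).2)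
  have hpow : ∀ (n : ℕ) u, (φ r ^ n) (c u) = c ((φ' r ^ n) u) := by
    intro n
    induction n with
    | zero => simp
    | succ n ih =>
      intro u
      rw [pow_succ, pow_succ, Module.End.mul_apply, Module.End.mul_apply, ← ih,
        ← show c (φ' r u) = φ r (c u) from LinearMap.congr_fun hint u]
  rw [← hv, hpow, hm, LinearMap.zero_apply, map_zero]

end Part

end FLTAgent.RT.Sys
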