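import Fermat.Agent.RT.Sys.Action
import Fermat.Agent.RT.Sys.Aug
import Fermat.Agent.RT.Sys.TWLevel
import Fermat.Agent.RT.HeckeRep.NewPart

/-!
# The levels at one stage from the deformation ring and the Taylor–Wiles primes

From a deformation ring with local coordinates at the primes `qs`, Taylor–Wiles primes for the base
levels and Frobenius compatible actions on the parts, the data of one stage of a system; the parts
corestrict to the base parts, intertwining the actions with those of a smaller deformation ring.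
-/

set_option autoImplicit false
set_option linter.unusedSectionVars false

noncomputable section

namespace FLTAgent.RT.Sys

open IsLocalRing Matrix FLTAgent.GalRep FLTAgent.Deformation

local notation "Γℚ" => AlgebraicClosure ℚ ≃ₐ[ℚ] AlgebraicClosure ℚ

/-- The base level with the primes of `A`. -/
abbrev baseN {ι : Type} (N₀ : ℕ) (qs : ι → ℕ) (A : Finset ι) : ℕ := N₀ * ∏ i ∈ A, qs i

/-- The level at one stage. -/
abbrev stageN {ι : Type} {r : ℕ} (N₀ : ℕ) (qs : ι → ℕ) (qv : Fin r → ℕ) (A : Finset ι) : ℕ :=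
  baseN N₀ qs A * ∏ j, qv j

section Arith

variable {ι : Type} {r N₀ : ℕ} {qs : ι → ℕ} {qv : Fin r → ℕ}

theorem not_dvd_baseN (hqs : ∀ i, (qs i).Prime) {q : ℕ} (hq : q.Prime) (h₀ : ¬ q ∣ N₀)
    {A : Finset ι} (hA : ∀ i ∈ A, qs i ≠ q) : ¬ q ∣ baseN N₀ qs A := fun hd => by
  rcases hq.dvd_mul.mp hd with hd | hd
  · exact h₀ hd
  · obtain ⟨i, hi, hqi⟩ := hq.prime.exists_mem_finset_dvd hd
    exact hA i hi ((Nat.prime_dvd_prime_iff_eq hq (hqs i)).mp hqi).symm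

theorem not_dvd_stageN (hqs : ∀ i, (qs i).Prime) (hinj : Function.Injective qs)
    (hqv : ∀ j, (qv j).Prime) (hne : ∀ i j, qs i ≠ qv j) (h₀ : ∀ i, ¬ qs i ∣ N₀)
    (A : Finset ι) (i : ι) (hi : i ∉ A) : ¬ qs i ∣ stageN N₀ qs qv A := fun hd => by
  rcases (hqs i).dvd_mul.mp hd with hd | hd
  · exact not_dvd_baseN hqs (hqs i) (h₀ i) (fun k hk e => hi (hinj e ▸ hk)) hd
  · obtain ⟨j, -, hqj⟩ := (hqs i).prime.exists_mem_finset_dvd hd
    exact hne i j ((Nat.prime_dvd_prime_iff_eq (hqs i) (hqv j)).mp hqj)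

theorem stageN_insert [DecidableEq ι] (A : Finset ι) (i : ι) (hi : i ∉ A) :
    stageN N₀ qs qv (insert i A) = stageN N₀ qs qv A * qs i := by
  simp only [stageN, baseN, Finset.prod_insert hi]
  ring

theorem squarefree_prod_primes (hqv : ∀ j, (qv j).Prime) (hinj : Function.Injective qv) :
    Squarefree (∏ j, qv j) :=
  Finset.squarefree_prod_of_pairwise_isCoprime (fun a _ b _ hab =>
    Nat.coprime_iff_isRelPrime.1 ((Nat.coprime_primes (hqv a) (hqv b)).2 fun e => hab (hinj e)))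
    fun j _ => (hqv j).squarefree

theorem not_sq_dvd_stageN (hqs : ∀ i, (qs i).Prime) (hqv : ∀ j, (qv j).Prime)
    (hinj : Function.Injective qv) (hne : ∀ i j, qs i ≠ qv j) (h₀ : ∀ j, ¬ qv j ∣ N₀)
    (A : Finset ι) (q : ℕ) (hq : q.Prime) (hqd : q ∣ ∏ j, qv j) : ¬ q ^ 2 ∣ stageN N₀ qs qv A := by
  intro hd
  obtain ⟨j, -, hqj⟩ := hq.prime.exists_mem_finset_dvd hqd
  obtain rfl := (Nat.prime_dvd_prime_iff_eq hq (hqv j)).mp hqj
  have hco : Nat.Coprime (qv j ^ 2) (baseN N₀ qs A) :=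
    Nat.Coprime.pow_left _ ((hq.coprime_iff_not_dvd).mpr
      (not_dvd_baseN hqs hq (h₀ j) fun i _ => hne i j))
  exact hq.not_isUnit (squarefree_prod_primes hqv hinj (qv j)
    (by rw [← pow_two]; exact hco.dvd_of_dvd_mul_left hd))

theorem neZero_baseN [NeZero N₀] (hqs : ∀ i, (qs i).Prime) (A : Finset ι) :
    NeZero (baseN N₀ qs A) :=
  ⟨mul_ne_zero (NeZero.ne N₀) (Finset.prod_ne_zero_iff.mpr fun i _ => (hqs i).ne_zero)⟩

theorem neZero_stageN [NeZero N₀] (hqs : ∀ i, (qs i).Prime) (hqv : ∀ j, (qv j).Prime)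
    (A : Finset ι) : NeZero (stageN N₀ qs qv A) :=
  ⟨mul_ne_zero (neZero_baseN hqs A).ne (Finset.prod_ne_zero_iff.mpr fun j _ => (hqv j).ne_zero)⟩

end Arith

variable {𝒪 : Type} [CommRing 𝒪] [IsDomain 𝒪] [IsDiscreteValuationRing 𝒪]
  [IsAdicComplete (maximalIdeal 𝒪) 𝒪] [Finite (ResidueField 𝒪)] [CharZero 𝒪]

/-- The trace of the Frobenius matrix of the coordinates is the trace at the Frobenius element. -/
theorem gamma_frobTrace {ι X R : Type} [Finite ι] [Finite X] [CommRing R] [IsLocalRing R]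
    [Algebra 𝒪 R] {ρ : GaloisRepAdic R} {Mr : Gal →* Mat R} {hMr : MatCont Mr}
    (hequiv : ρ.IsEquiv (matRep Mr hMr)) {Ds : ι → LocalDatum 𝒪} {i : ι}
    {A : ValuationSubring (AlgebraicClosure ℚ)} {φ₀ : Gal} (C : Gen.LocalCoord (Ds i) Mr A φ₀)
    (γ : MvPowerSeries (LocVar ι X) 𝒪 →ₐ[𝒪] R) (hγ : ∀ k, γ (locCoord i k) = C.v k) :
    γ (frobTrace Ds i) = ρ.trace φ₀ := by
  have e : γ (frobTrace Ds i) = ((Ds i).phiMat fun k => γ (locCoord i k)).trace := by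
    rw [← (Ds i).phiMat_map γ, frobTrace, Matrix.trace_fin_two, Matrix.trace_fin_two, map_add]
    rfl
  rw [e, show (fun k => γ (locCoord i k)) = C.v from funext hγ, trace_phiMat_eq hequiv]

/-- The raising element is the square of the trace at the Frobenius element minus `(q + 1)²`. -/
theorem gamma_raisingElt {ι X R : Type} [Finite ι] [Finite X] [CommRing R] [IsLocalRing R]
    [Algebra 𝒪 R] {ρ : GaloisRepAdic R} {Mr : Gal →* Mat R} {hMr : MatCont Mr}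
    (hequiv : ρ.IsEquiv (matRep Mr hMr)) {Ds : ι → LocalDatum 𝒪} {i : ι} {q : ℕ}
    (hq : (Ds i).q = q)
    {A : ValuationSubring (AlgebraicClosure ℚ)} {φ₀ : Gal} (C : Gen.LocalCoord (Ds i) Mr A φ₀)
    (γ : MvPowerSeries (LocVar ι X) 𝒪 →ₐ[𝒪] R) (hγ : ∀ k, γ (locCoord i k) = C.v k) :
    γ (raisingElt Ds i) = ρ.trace φ₀ ^ 2 - ((q : R) + 1) ^ 2 := by
  simp only [raisingElt, map_sub, map_pow, map_add, map_natCast, map_one,
    gamma_frobTrace hequiv C γ hγ, hq]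

variable {ι : Type} [DecidableEq ι] {N₀ r : ℕ} [NeZero N₀] {qs : ι → ℕ} {qv : Fin r → ℕ}
  {J : Type} {l : J → ℕ} (hl : ∀ j, (l j).Prime) {a a' : J → 𝒪}
  (hqs : ∀ i, (qs i).Prime) (hinj : Function.Injective qs) (hqv : ∀ j, (qv j).Prime)
  (hinjv : Function.Injective qv) (hne : ∀ i j, qs i ≠ qv j) (h₀ : ∀ j, ¬ qv j ∣ N₀)
  (hTW : TWPrimes N₀ l a a' (Finset.univ.image qv)) (hNE : NonEis l a)

include hqs hne hTW in
/-- The primes are Taylor–Wiles primes for every base level. -/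
theorem twPrimes_baseN (A : Finset ι) :
    TWPrimes (baseN N₀ qs A) l a a' (Finset.univ.image qv) where
  prime := hTW.prime
  not_dvd q hq := by
    obtain ⟨j, -, rfl⟩ := Finset.mem_image.mp hq
    exact not_dvd_baseN hqs (hTW.prime _ hq) (hTW.not_dvd _ hq) fun i _ => hne i j
  of_notMem := hTW.of_notMem
  index := hTW.index

variable {Δ : Type} [CommGroup Δ] [Fintype Δ] [Fact (Odd (Nat.card Δ))]
  {χ : (ZMod (∏ j, qv j))ˣ →* Δ} (hχ : Function.Surjective χ) (p : ℕ) [Fact p.Prime]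
  (hΔ : IsPGroup p Δ) (hp : (p : 𝒪) ∈ maximalIdeal 𝒪)
  (hell : Nat.Coprime 3 (Nat.card Δ) ∨ ModularCurve.nuThree N₀ = 0) {rank : Finset ι → ℕ}
  (e₀ : ∀ A : Finset ι,
    haveI := neZero_baseN (N₀ := N₀) hqs A
    Module.Basis (Fin (rank A)) 𝒪 (cohPart trivChar (one_dvd (baseN N₀ qs A)) hl a))

include hqs hqv hell in
theorem ellCond_stageN (A : Finset ι) : EllCond χ (stageN N₀ qs qv A) := by
  refine hell.imp id fun h => ?_
  have h1 : NeZero (∏ i ∈ A, qs i) := ⟨Finset.prod_ne_zero_iff.mpr fun i _ => (hqs i).ne_zero⟩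
  have h2 : NeZero (∏ j, qv j) := ⟨Finset.prod_ne_zero_iff.mpr fun j _ => (hqv j).ne_zero⟩
  have h3 := neZero_baseN (N₀ := N₀) hqs A
  exact nuThree_mul_eq_zero _ (nuThree_mul_eq_zero _ h)

include hqs hqv hinjv hne hTW hNE hχ hΔ hp hell in
theorem exists_twBasis (A : Finset ι) :
    haveI := neZero_stageN (N₀ := N₀) hqs hqv A
    haveI := neZero_baseN (N₀ := N₀) hqs A
    ∃ (B : DBasis (dvd_mul_left (∏ j, qv j) (baseN N₀ qs A)) hχ
        (cohPart χ (dvd_mul_left (∏ j, qv j) (baseN N₀ qs A)) hl a') (rank A))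
      (c : cohPart χ (dvd_mul_left (∏ j, qv j) (baseN N₀ qs A)) hl a' →ₗ[𝒪]
        cohPart trivChar (one_dvd (baseN N₀ qs A)) hl a),
      (∀ j, c (B.vec j) = e₀ A j) ∧ (∀ δ v, c (B.dia δ v) = c v) ∧ Function.Surjective c ∧
      ∀ (ℓ : ℕ) (hℓ : ℓ.Prime), ℓ ∉ Finset.univ.image qv →
        ∀ v w : cohPart χ (dvd_mul_left (∏ j, qv j) (baseN N₀ qs A)) hl a',
          (w : Coh (stageN N₀ qs qv A) χ 𝒪) = opP 𝒪 𝒪 χ (dvd_mul_left _ _) hℓ v →
            (c w : Coh (baseN N₀ qs A) trivChar 𝒪) =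
              opP 𝒪 𝒪 trivChar (one_dvd _) hℓ (c v) := by
  have := neZero_stageN (N₀ := N₀) hqs hqv A
  have := neZero_baseN (N₀ := N₀) hqs A
  obtain ⟨B, c, e, h1, h2, h3, -, -, h4⟩ := (twPrimes_baseN hqs hne hTW A).exists_dBasis hl
    (dvd_mul_left (∏ j, qv j) (baseN N₀ qs A)) hχ
    (by rw [Finset.prod_image fun x _ y _ e => hinjv e]) p hΔ hp
    (ellCond_stageN hqs hqv hell A) hNE (e₀ A)
  exact ⟨B, c, h1, h2, h3, h4⟩

/-- The basis of the part at one stage. -/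
def twBasis (A : Finset ι) :
    haveI := neZero_stageN (N₀ := N₀) hqs hqv A
    DBasis (dvd_mul_left (∏ j, qv j) (baseN N₀ qs A)) hχ
      (cohPart χ (dvd_mul_left (∏ j, qv j) (baseN N₀ qs A)) hl a') (rank A) :=
  (exists_twBasis hl hqs hqv hinjv hne hTW hNE hχ p hΔ hp hell e₀ A).choose

/-- The corestriction to the base part. -/
def twCores (A : Finset ι) :
    haveI := neZero_stageN (N₀ := N₀) hqs hqv A
    haveI := neZero_baseN (N₀ := N₀) hqs A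
    cohPart χ (dvd_mul_left (∏ j, qv j) (baseN N₀ qs A)) hl a' →ₗ[𝒪]
      cohPart trivChar (one_dvd (baseN N₀ qs A)) hl a :=
  (exists_twBasis hl hqs hqv hinjv hne hTW hNE hχ p hΔ hp hell e₀ A).choose_spec.choose

theorem twCores_spec (A : Finset ι) :
    haveI := neZero_stageN (N₀ := N₀) hqs hqv A
    haveI := neZero_baseN (N₀ := N₀) hqs A
    let B := twBasis hl hqs hqv hinjv hne hTW hNE hχ p hΔ hp hell e₀ A
    let c := twCores hl hqs hqv hinjv hne hTW hNE hχ p hΔ hp hell e₀ A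
    (∀ j, c (B.vec j) = e₀ A j) ∧ (∀ δ v, c (B.dia δ v) = c v) ∧ Function.Surjective c ∧
      ∀ (ℓ : ℕ) (hℓ : ℓ.Prime), ℓ ∉ Finset.univ.image qv →
        ∀ v w : cohPart χ (dvd_mul_left (∏ j, qv j) (baseN N₀ qs A)) hl a',
          (w : Coh (stageN N₀ qs qv A) χ 𝒪) = opP 𝒪 𝒪 χ (dvd_mul_left _ _) hℓ v →
            (c w : Coh (baseN N₀ qs A) trivChar 𝒪) =
              opP 𝒪 𝒪 trivChar (one_dvd _) hℓ (c v) :=
  (exists_twBasis hl hqs hqv hinjv hne hTW hNE hχ p hΔ hp hell e₀ A).choose_spec.choose_spec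

section Data

variable {X : Type} [Finite ι] [Finite X] {Ds : ι → LocalDatum 𝒪}
  {ρbar : ResidualGaloisRep (ResidueField 𝒪)}
  {𝒟 : ∀ ⦃A : Type⦄ [CommRing A] [IsLocalRing A] [Algebra 𝒪 A], GaloisRepAdic A → Prop}
  (h𝒟 : GaloisRep.IsDeformationCondition 𝒪 𝒟) (Dat : GaloisRep.DeformationRingData 𝒪 ρbar 𝒟)
  {Mr : Gal →* Mat Dat.R} {hMr : MatCont Mr} (hequiv : Dat.ρ.IsEquiv (matRep Mr hMr))
  {P : ι → ValuationSubring (AlgebraicClosure ℚ)} (hP : ∀ i, (P i).LiesOverPrime (qs i))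
  {σ : ι → Gal} (hσ : ∀ i, (P i).IsFrobeniusAt (σ i) (qs i))
  (C : ∀ i, Gen.LocalCoord (Ds i) Mr (P i) (σ i)) (hDq : ∀ i, (Ds i).q = qs i)
  (γ : MvPowerSeries (LocVar ι X) 𝒪 →ₐ[𝒪] Dat.R) (hγ : ∀ i k, γ (locCoord i k) = (C i).v k)
  (htr : ∀ i, (Mr (C i).τ).trace = 2) (h₀' : ∀ i, ¬ qs i ∣ N₀) (hqp : ∀ i, qs i ≠ p)
  (h35 : LevelDrop.NewformSpecialCharpoly)
  (hraise : ∀ A i, i ∉ A → RaiseHyp (baseN N₀ qs A) (qs i) l a)
  (S₁ : Finset ℕ) (hmem : ∀ i, qs i ∈ S₁)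
  (φ : ∀ A : Finset ι,
    haveI := neZero_stageN (N₀ := N₀) hqs hqv A
    Dat.R →ₐ[𝒪] Module.End 𝒪 (cohPart χ (dvd_mul_left (∏ j, qv j) (baseN N₀ qs A)) hl a'))
  (hφ : ∀ A : Finset ι,
    haveI := neZero_stageN (N₀ := N₀) hqs hqv A
    IsFrobCompat Dat S₁ (φ A))
  (hout : ∀ (A : Finset ι) (i : ι), i ∉ A →
    haveI := neZero_stageN (N₀ := N₀) hqs hqv A
    ∃ (𝒟' : ∀ ⦃A : Type⦄ [CommRing A] [IsLocalRing A] [Algebra 𝒪 A], GaloisRepAdic A → Prop)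
      (Dat' : GaloisRep.DeformationRingData 𝒪 ρbar 𝒟') (S₁' : Finset ℕ)
      (φ' : Dat'.R →ₐ[𝒪]
        Module.End 𝒪 (cohPart χ (dvd_mul_left (∏ j, qv j) (baseN N₀ qs A)) hl a')),
      IsFrobCompat Dat' S₁' φ' ∧ 𝒟 Dat'.ρ ∧ qs i ∉ S₁' ∧ Dat'.ρ.IsUnramifiedAt (qs i))
  (gen : Fin r → Δ) (t : Finset ι → Fin r → MvPowerSeries (LocVar ι X) 𝒪)
  (hdia : ∀ (A : Finset ι) (j : Fin r),
    haveI := neZero_stageN (N₀ := N₀) hqs hqv A
    ∀ B : DBasis (dvd_mul_left (∏ j, qv j) (baseN N₀ qs A)) hχ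
      (cohPart χ (dvd_mul_left (∏ j, qv j) (baseN N₀ qs A)) hl a') (rank A),
    IsNilpotent (B.dia (gen j) ^ 2 - (φ A (γ (t A j)) ^ 2 - 2) * B.dia (gen j) + 1))

/-- **The levels at one stage.** -/
def levelData : LevelData Ds qs X ρbar rank p l hl r Δ gen where
  𝒟 := 𝒟
  isCond := h𝒟
  Dat := Dat
  γ := γ
  S₁ := S₁
  mem := hmem
  isPGroup := hΔ
  a := a'
  M := ∏ j, qv j
  χ := χ
  surj := hχ
  N := stageN N₀ qs qv
  neZero := neZero_stageN hqs hqv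
  dvd A := dvd_mul_left _ _
  ell := ellCond_stageN hqs hqv hell
  level_insert A i hi := stageN_insert A i hi
  not_dvd := not_dvd_stageN hqs hinj hqv hne h₀'
  raiseHyp A i hi := by
    have := neZero_baseN (N₀ := N₀) hqs A
    have h := (twPrimes_baseN hqs hne hTW A).raiseHyp (hraise A i hi)
    rwa [Finset.prod_image fun x _ y _ e => hinjv e] at h
  basis := twBasis hl hqs hqv hinjv hne hTW hNE hχ p hΔ hp hell e₀
  φ := φ
  compat := hφ
  rel i := by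
    rw [show (fun k => γ (locCoord i k)) = (C i).v from funext (hγ i)]
    exact (C i).rel (by rw [htr, map_ofNat])
  norm i := by
    rw [show (fun k => γ (locCoord i k)) = (C i).v from funext (hγ i)]
    exact (C i).isNorm
  unr A i hi k hk := by
    have := neZero_stageN (N₀ := N₀) hqs hqv A
    obtain ⟨𝒟', Dat', S₁', φ', hφ', hsub, hnot, hun⟩ := hout A i hi
    exact ⟨1, by rw [pow_one, ((hφ A).unr_and_frob h𝒟 hφ' hsub hequiv (hqs i) hnot hun (hP i)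
      (hσ i) (C i) rfl γ (hγ i)).1 k hk]⟩
  frob A i hi hq := by
    have := neZero_stageN (N₀ := N₀) hqs hqv A
    obtain ⟨𝒟', Dat', S₁', φ', hφ', hsub, hnot, hun⟩ := hout A i hi
    exact ((hφ A).unr_and_frob h𝒟 hφ' hsub hequiv hq hnot hun (hP i)
      (hσ i) (C i) rfl γ (hγ i)).2
  new A i hi := by
    intro _ W hnel φ' hφ'
    have := neZero_stageN (N₀ := N₀) hqs hqv A
    obtain ⟨𝒟', Dat', S₁', ψ, hψ, hsub, hnot, hun⟩ := hout A i hi
    have hT := ((hφ A).unr_and_frob h𝒟 hψ hsub hequiv W.prime hnot hun (hP i)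
      (hσ i) (C i) rfl γ (hγ i)).2
    rw [gamma_raisingElt hequiv (hDq i) (C i) γ (hγ i)]
    exact exists_pow_eq_degFst_add_degSnd W _ hl hnel h𝒟 h35
      ((twPrimes_baseN hqs hne hTW A).nonEis hNE) (squarefree_prod_primes hqv hinjv)
      (not_sq_dvd_stageN hqs hqv hinjv hne h₀ A) hp (hqp i) (hφ A) hφ' (P i) (hP i) (σ i) (hσ i)
      fun v => by rw [← gamma_frobTrace hequiv (C i) γ (hγ i)]; exact hT v
  t := t
  dia_rel A j := hdia A j _

end Data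

/-- The corestriction to the base part intertwines the actions. -/
theorem twCores_intertwine {ρbar : ResidualGaloisRep (ResidueField 𝒪)}
    {𝒟 : ∀ ⦃A : Type⦄ [CommRing A] [IsLocalRing A] [Algebra 𝒪 A], GaloisRepAdic A → Prop}
    (h𝒟 : GaloisRep.IsDeformationCondition 𝒪 𝒟) {Dat : GaloisRep.DeformationRingData 𝒪 ρbar 𝒟}
    {𝒟₀ : ∀ ⦃A : Type⦄ [CommRing A] [IsLocalRing A] [Algebra 𝒪 A], GaloisRepAdic A → Prop}
    {D₀ : GaloisRep.DeformationRingData 𝒪 ρbar 𝒟₀} (f : Dat.R →ₐ[𝒪] D₀.R)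
    (hf : ∀ σ, f (Dat.ρ.trace σ) = D₀.ρ.trace σ) (A : Finset ι) {S₁ S₀ : Finset ℕ}
    (φ : haveI := neZero_stageN (N₀ := N₀) hqs hqv A
      Dat.R →ₐ[𝒪] Module.End 𝒪 (cohPart χ (dvd_mul_left (∏ j, qv j) (baseN N₀ qs A)) hl a'))
    (hφ : haveI := neZero_stageN (N₀ := N₀) hqs hqv A
      IsFrobCompat Dat S₁ φ)
    (φ₀ : haveI := neZero_baseN (N₀ := N₀) hqs A
      D₀.R →ₐ[𝒪] Module.End 𝒪 (cohPart trivChar (one_dvd (baseN N₀ qs A)) hl a))
    (hφ₀ : haveI := neZero_baseN (N₀ := N₀) hqs A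
      IsFrobCompat D₀ S₀ φ₀) (x : Dat.R) :
    (twCores hl hqs hqv hinjv hne hTW hNE hχ p hΔ hp hell e₀ A) ∘ₗ φ x =
      φ₀ (f x) ∘ₗ twCores hl hqs hqv hinjv hne hTW hNE hχ p hΔ hp hell e₀ A := by
  have := neZero_stageN (N₀ := N₀) hqs hqv A
  have := neZero_baseN (N₀ := N₀) hqs A
  have := moduleFinite_coh (χ := χ) 𝒪 𝒪 (dvd_mul_left (∏ j, qv j) (baseN N₀ qs A))
  have := moduleFinite_coh (χ := trivChar) 𝒪 𝒪 (one_dvd (baseN N₀ qs A))
  have := isNoetherian_of_isNoetherianRing_of_finite 𝒪 (Coh (stageN N₀ qs qv A) χ 𝒪)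
  have := isNoetherian_of_isNoetherianRing_of_finite 𝒪 (Coh (baseN N₀ qs A) trivChar 𝒪)
  obtain ⟨-, -, -, hc⟩ := twCores_spec hl hqs hqv hinjv hne hTW hNE hχ p hΔ hp hell e₀ A
  refine intertwine_of_frobTraces h𝒟 Dat (S₁ ∪ S₀ ∪ Finset.univ.image qv) φ (φ₀.comp f) _ ?_ x
  rintro _ ⟨ℓ, hℓ, hℓS, B, hB, τ, hτ, rfl⟩
  simp only [Finset.mem_union, not_or] at hℓS
  refine LinearMap.ext fun v => Subtype.ext ?_
  rw [LinearMap.comp_apply, LinearMap.comp_apply, AlgHom.comp_apply, hf,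
    hφ₀ ℓ hℓ hℓS.1.2 B hB τ hτ]
  exact hc ℓ hℓ hℓS.2 v _ (hφ ℓ hℓ hℓS.1.1 B hB τ hτ v)

end FLTAgent.RT.Sys
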