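import Fermat.Agent.RT.Sys.Build
import Fermat.Agent.RT.Sys.Fixed
import Fermat.Agent.RT.World.Lowering

/-!
# Families for lowering from Taylor–Wiles levels with an extra character

At every stage a part free over the diamonds, with a subgroup of diamonds at the prime `i₀` whose
norms a power of the raising element kills and the trace of inertia at `i₀` among finitely many
values away from the fixed part of the diamond of `i₀`, gives the matrices required for lowering at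
`i₀`.
-/

set_option autoImplicit false
set_option linter.unusedSectionVars false

noncomputable section

namespace FLTAgent.RT.Sys

open IsLocalRing Matrix

variable {𝒪 : Type} [CommRing 𝒪]

/-- The relations from those away from the trace, modulo an ideal containing the trace relation. -/
theorem rel_quotient_of_ker {R B : Type*} [CommRing R] [Algebra 𝒪 R] [CommRing B] [Algebra 𝒪 B]
    {D : LocalDatum 𝒪} {t : 𝒪} (γ : R →ₐ[𝒪] B) {J : Ideal R} (hJ : RingHom.ker γ ≤ J)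
    {v : Fin 8 → R} (hdet : (D.phiMat fun k => γ (v k)).det = (D.q : B))
    (hcomm : (D.phiMat fun k => γ (v k)) * sMat (fun k => γ (v k)) =
      sMat (fun k => γ (v k)) ^ D.q * D.phiMat fun k => γ (v k))
    (hdet_s : (sMat fun k => γ (v k)).det = 1)
    (htr : (sMat v).trace - algebraMap 𝒪 R t ∈ J) :
    D.Rel t fun k => Ideal.Quotient.mk J (v k) := by
  let m : R →ₐ[𝒪] R ⧸ RingHom.ker γ := Ideal.Quotient.mkₐ 𝒪 (RingHom.ker γ)
  let f : (R ⧸ RingHom.ker γ) →ₐ[𝒪] B := Ideal.Quotient.liftₐ (RingHom.ker γ) γ fun _ ha => ha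
  have hf : Function.Injective f := RingHom.kerLift_injective (γ : R →+* B)
  have hfm : ∀ k, f (m (v k)) = γ (v k) := fun k => rfl
  let g : (R ⧸ RingHom.ker γ) →ₐ[𝒪] R ⧸ J := Ideal.Quotient.factorₐ 𝒪 hJ
  have h1 : (D.phiMat fun k => m (v k)).det = (D.q : R ⧸ RingHom.ker γ) := hf (by
    rw [AlgHom.map_det, AlgHom.mapMatrix_apply, D.phiMat_map, map_natCast]
    exact hdet)
  have h2 : (D.phiMat fun k => m (v k)) * sMat (fun k => m (v k)) =
      sMat (fun k => m (v k)) ^ D.q * D.phiMat fun k => m (v k) := Matrix.map_injective hf (by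
    show f.mapMatrix _ = f.mapMatrix _
    rw [map_mul, map_mul, map_pow, AlgHom.mapMatrix_apply, AlgHom.mapMatrix_apply,
      D.phiMat_map, sMat_map]
    exact hcomm)
  have h3 : (sMat fun k => m (v k)).det = 1 := hf (by
    rw [AlgHom.map_det, AlgHom.mapMatrix_apply, sMat_map, map_one]
    exact hdet_s)
  constructor
  · have := congrArg g h1
    rw [AlgHom.map_det, AlgHom.mapMatrix_apply, D.phiMat_map, map_natCast] at this
    exact this
  · have := congrArg g.mapMatrix h2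
    rw [map_mul, map_mul, map_pow, AlgHom.mapMatrix_apply, AlgHom.mapMatrix_apply,
      D.phiMat_map, sMat_map] at this
    exact this
  · have e : (sMat fun k => Ideal.Quotient.mk J (v k)).trace =
        Ideal.Quotient.mk J (sMat v).trace := by
      rw [trace_fin_two, trace_fin_two, map_add]
      show sMat (fun k => Ideal.Quotient.mkₐ 𝒪 J (v k)) 0 0 +
        sMat (fun k => Ideal.Quotient.mkₐ 𝒪 J (v k)) 1 1 = _
      rw [← sMat_map, Matrix.map_apply, Matrix.map_apply]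
      rfl
    rw [e, ← Ideal.Quotient.mk_algebraMap, Ideal.Quotient.mk_eq_mk_iff_sub_mem]
    exact htr
  · have := congrArg g h3
    rw [AlgHom.map_det, AlgHom.mapMatrix_apply, sMat_map, map_one] at this
    exact this

variable [IsDomain 𝒪] [IsDiscreteValuationRing 𝒪]
  [IsAdicComplete (maximalIdeal 𝒪) 𝒪] [Finite (ResidueField 𝒪)] [CharZero 𝒪]
  {ι X : Type} [Finite ι] [Finite X] [DecidableEq ι]

/-- One stage of a family for lowering at `i₀`: the part of a level free over `𝒪[Δ]`, a quotient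
`π` of the diamonds forgetting those at `i₀`, and `h₀` the diamond of the generator of inertia. -/
structure LowerLevel (Ds : ι → LocalDatum 𝒪) (X : Type) [Finite X] (i₀ : ι)
    (ρbar : ResidualGaloisRep (ResidueField 𝒪)) (d : ℕ) {J : Type} (l : J → ℕ)
    (hl : ∀ j, (l j).Prime) (r : ℕ) {Δ Δ' : Type} [CommGroup Δ] [Fintype Δ]
    [Fact (Odd (Nat.card Δ))] [CommGroup Δ'] [Fintype Δ'] (π : Δ →* Δ') [Fintype π.ker]
    (h₀ : Δ) (gen : Fin r → Δ) (Λ : Finset (𝒪 × 𝒪)) : Type 1 where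
  𝒟 : ∀ ⦃A : Type⦄ [CommRing A] [IsLocalRing A] [Algebra 𝒪 A], GaloisRepAdic A → Prop
  isCond : GaloisRep.IsDeformationCondition 𝒪 𝒟
  Dat : GaloisRep.DeformationRingData 𝒪 ρbar 𝒟
  γ : MvPowerSeries (LocVar ι X) 𝒪 →ₐ[𝒪] Dat.R
  a : J → 𝒪
  M : ℕ
  χ : (ZMod M)ˣ →* Δ
  surj : Function.Surjective χ
  N : ℕ
  [neZero : NeZero N]
  dvd : M ∣ N
  basis : DBasis dvd surj (cohPart χ dvd hl a) d
  φ : Dat.R →ₐ[𝒪] Module.End 𝒪 (cohPart χ dvd hl a)
  equiv : ∀ x, φ x ∈ basis.equivEnd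
  det_phi : ∀ i, ((Ds i).phiMat fun k => γ (locCoord i k)).det = ((Ds i).q : Dat.R)
  comm : ∀ i, ((Ds i).phiMat fun k => γ (locCoord i k)) * sMat (fun k => γ (locCoord i k)) =
    sMat (fun k => γ (locCoord i k)) ^ (Ds i).q * (Ds i).phiMat fun k => γ (locCoord i k)
  det_s : ∀ i, (sMat fun k => γ (locCoord i k)).det = 1
  norm : ∀ i, (Ds i).IsNorm fun k => γ (locCoord i k)
  trace : ∀ i, i ≠ i₀ → (sMat fun k => γ (locCoord i k)).trace = 2
  /-- where the diamond of `i₀` is not `1` the trace of inertia at `i₀` comes from `Λ` -/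
  inertia : IsNilpotent ((basis.dia h₀ - 1) * φ (γ (∏ x ∈ Λ,
    ((sMat fun k => locCoord i₀ k).trace - algebraMap 𝒪 _ (x.1 + x.2)))))
  kills : ∃ m : ℕ, ∀ v, (φ (γ (raisingElt Ds i₀)) ^ m) (∑ δ : π.ker, basis.dia (δ : Δ) v) = 0
  t : Fin r → MvPowerSeries (LocVar ι X) 𝒪
  dia_rel : ∀ j, IsNilpotent
    (basis.dia (gen j) ^ 2 - (φ (γ (t j)) ^ 2 - 2) * basis.dia (gen j) + 1)

attribute [instance] LowerLevel.neZero

variable {Ds : ι → LocalDatum 𝒪} {i₀ : ι} {ρbar : ResidualGaloisRep (ResidueField 𝒪)} {d : ℕ}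
  {J : Type} {l : J → ℕ} {hl : ∀ j, (l j).Prime} {r : ℕ} {Δ Δ' : Type} [CommGroup Δ]
  [Fintype Δ] [Fact (Odd (Nat.card Δ))] [CommGroup Δ'] [Fintype Δ'] {π : Δ →* Δ'} [Fintype π.ker]
  {h₀ : Δ} {gen : Fin r → Δ} {Λ : Finset (𝒪 × 𝒪)}
  (L : LowerLevel Ds X i₀ ρbar d l hl r π h₀ gen Λ)
  {n : ℕ} (ε : Δ →* STrunc 𝒪 r n)

/-- The matrices of one stage. -/
def LowerLevel.act :
    MvPowerSeries (LocVar ι X) 𝒪 →ₐ[𝒪] Matrix (Fin d) (Fin d) (STrunc 𝒪 r n) :=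
  actMat L.basis ε L.φ L.equiv L.γ

/-- A nilpotent quadratic relation at a diamond, in matrices. -/
theorem LowerLevel.quad_act {δ : Δ} {x : MvPowerSeries (LocVar ι X) 𝒪}
    (h : IsNilpotent (L.basis.dia δ ^ 2 - (L.φ (L.γ x) ^ 2 - 2) * L.basis.dia δ + 1)) :
    ((ε δ • (1 : Matrix (Fin d) (Fin d) (STrunc 𝒪 r n))) ^ 2 -
      (L.act ε x ^ 2 - 2) * (ε δ • 1) + 1) ^ d = 0 := by
  have hd : L.basis.dia δ ∈ L.basis.equivEnd :=
    L.basis.mem_equivEnd.mpr (L.basis.isEquivariant_dia δ)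
  have := L.basis.mat_quad_pow ε (u := ⟨_, hd⟩) (v := ⟨_, L.equiv (L.γ x)⟩) h le_rfl
  rw [DBasis.matHom_apply, DBasis.matHom_apply, DBasis.mat_dia] at this
  exact this

theorem LowerLevel.norm_act (i : ι) :
    (Ds i).IsNorm fun k => Ideal.Quotient.mk (RingHom.ker (L.act ε)) (locCoord i k) := by
  intro T hT
  exact ⟨Ideal.Quotient.eq_zero_iff_mem.mpr (ker_le_ker_actMat _ ε _ _ L.γ (L.norm i T hT).1),
    Ideal.Quotient.eq_zero_iff_mem.mpr (ker_le_ker_actMat _ ε _ _ L.γ (L.norm i T hT).2)⟩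

variable {ζ : 𝒪}

/-- The product over `Λ` at `i₀`. -/
def traceProd (Λ : Finset (𝒪 × 𝒪)) (i₀ : ι) : MvPowerSeries (LocVar ι X) 𝒪 :=
  ∏ x ∈ Λ, ((sMat fun k => (locCoord i₀ k : MvPowerSeries (LocVar ι X) 𝒪)).trace -
    algebraMap 𝒪 _ (x.1 + x.2))

theorem LowerLevel.traceProd_act {κ : Δ →* 𝒪} {ε₁ : Δ' →* STrunc 𝒪 r n}
    (hε : ∀ δ, ε δ = algebraMap 𝒪 _ (κ δ) * ε₁ (π δ)) (hπ : π h₀ = 1) (hκ : κ h₀ ≠ 1) :
    L.act ε (traceProd Λ i₀ ^ d) = 0 := by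
  rw [map_pow]
  exact L.basis.mat_pow_eq_zero_of_mul π ε κ hε hπ hκ (L.basis.mem_equivEnd.mp (L.equiv _))
    L.inertia

theorem LowerLevel.exists_rel (hd : 0 < d) {i : ι} (hi : i ≠ i₀) :
    ∃ I : Ideal (MvPowerSeries (LocVar ι X) 𝒪), (∀ f ∈ I, L.act ε (f ^ d) = 0) ∧
      (Ds i).Rel 2 fun k => Ideal.Quotient.mk I (locCoord i k) := by
  refine ⟨RingHom.ker (L.act ε), fun f hf => by
      rw [map_pow, RingHom.mem_ker.mp hf, zero_pow hd.ne'],
    rel_quotient_of_ker L.γ (ker_le_ker_actMat _ ε _ _ L.γ) (L.det_phi i) (L.comm i) (L.det_s i)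
      (ker_le_ker_actMat _ ε _ _ L.γ (RingHom.mem_ker.mpr (by
        rw [map_sub, AlgHom.commutes, trace_fin_two, map_add, ← Matrix.map_apply (f := L.γ),
          ← Matrix.map_apply (f := L.γ), sMat_map, ← trace_fin_two, L.trace i hi, map_ofNat,
          sub_self])))⟩

theorem LowerLevel.exists_rel₀ {κ : Δ →* 𝒪} {ε₁ : Δ' →* STrunc 𝒪 r n}
    (hε : ∀ δ, ε δ = algebraMap 𝒪 _ (κ δ) * ε₁ (π δ)) (hπ : π h₀ = 1) (hκ : κ h₀ ≠ 1)
    (hd : 0 < d) :
    ∃ I : Ideal (MvPowerSeries (LocVar ι X) 𝒪), (∀ f ∈ I, L.act ε (f ^ d) = 0) ∧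
      (Ds i₀).RelProd Λ (fun k => locCoord i₀ k) I := by
  refine ⟨RingHom.ker (L.act ε) ⊔ Ideal.span {traceProd Λ i₀}, fun f hf => ?_, ?_⟩
  · obtain ⟨b, hb, c, hc, rfl⟩ := Submodule.mem_sup.mp hf
    obtain ⟨g, rfl⟩ := Ideal.mem_span_singleton'.mp hc
    rw [map_pow, map_add, RingHom.mem_ker.mp hb, zero_add, ← map_pow, mul_pow, map_mul,
      L.traceProd_act ε hε hπ hκ, mul_zero]
  have hker : ∀ {f : MvPowerSeries (LocVar ι X) 𝒪}, L.γ f = 0 →
      f ∈ RingHom.ker (L.act ε) ⊔ Ideal.span {traceProd Λ i₀} := fun hf =>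
    Ideal.mem_sup_left (ker_le_ker_actMat _ ε _ _ L.γ (RingHom.mem_ker.mpr hf))
  constructor
  · refine hker ?_
    rw [map_sub, AlgHom.map_det, AlgHom.mapMatrix_apply, (Ds i₀).phiMat_map, map_natCast,
      L.det_phi, sub_self]
  · intro a b
    refine hker ?_
    rw [← Matrix.map_apply (f := L.γ), ← AlgHom.mapMatrix_apply, map_sub, map_mul, map_mul,
      map_pow, AlgHom.mapMatrix_apply, AlgHom.mapMatrix_apply, (Ds i₀).phiMat_map, sMat_map,
      L.comm, sub_self]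
    rfl
  · refine hker ?_
    rw [map_sub, AlgHom.map_det, AlgHom.mapMatrix_apply, sMat_map, map_one, L.det_s, sub_self]
  · exact Ideal.mem_sup_right (Ideal.subset_span rfl)

theorem LowerLevel.exists_cong {ε₁ : Δ' →* STrunc 𝒪 r n}
    (hε₁ : ∀ δ, algebraMap 𝒪 _ (ζ - 1) ∣ ε δ - ε₁ (π δ)) {K : ℕ} (hK : d ≤ K) :
    ∃ Z : Matrix (Fin d) (Fin d) (STrunc 𝒪 r n),
      L.act ε (raisingElt Ds i₀ ^ K) = (ζ - 1) • Z := by
  obtain ⟨m, hm⟩ := L.kills
  have hmem := fun a b => L.basis.mat_pow_mem π (L.basis.mem_equivEnd.mp (L.equiv _)) hm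
    (J := Ideal.span {algebraMap 𝒪 (STrunc 𝒪 r n) (ζ - 1)}) (ε := ε) (ε₁ := ε₁)
    (fun δ => Ideal.mem_span_singleton.mpr (hε₁ δ)) hK a b
  choose Z hZ using fun a b => Ideal.mem_span_singleton.mp (hmem a b)
  refine ⟨Matrix.of Z, Matrix.ext fun a b => ?_⟩
  show actMat L.basis ε L.φ L.equiv L.γ (raisingElt Ds i₀ ^ K) a b = _
  rw [actMat_apply, map_pow, map_pow, hZ, Matrix.smul_apply, Matrix.of_apply, Algebra.smul_def]

theorem LowerLevel.dia_rel_act (hε : ∀ j, ε (gen j) = 1 + yVar r n j) (j : Fin r) :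
    ((algebraMap (MvPowerSeries (Fin r) 𝒪) (Matrix (Fin d) (Fin d) (STrunc 𝒪 r n))
          (1 + MvPowerSeries.X j)) ^ 2 -
        (L.act ε (L.t j) ^ 2 - 2) *
          algebraMap (MvPowerSeries (Fin r) 𝒪) (Matrix (Fin d) (Fin d) (STrunc 𝒪 r n))
            (1 + MvPowerSeries.X j) + 1) ^ d = 0 := by
  have h := L.quad_act ε (L.dia_rel j)
  rw [hε] at h
  have e : algebraMap (MvPowerSeries (Fin r) 𝒪) (Matrix (Fin d) (Fin d) (STrunc 𝒪 r n))
      (1 + MvPowerSeries.X j) = (1 + yVar (𝒪 := 𝒪) r n j) • 1 := by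
    rw [Algebra.algebraMap_eq_smul_one]
    ext x y
    rw [Matrix.smul_apply, Matrix.smul_apply, yVar, Algebra.smul_def]
    rfl
  rw [e]
  exact h

end FLTAgent.RT.Sys

namespace FLTAgent.RT.Sys

open IsLocalRing Matrix

variable {𝒪 : Type} [CommRing 𝒪] [IsDomain 𝒪] [IsDiscreteValuationRing 𝒪]
  [IsAdicComplete (maximalIdeal 𝒪) 𝒪] [Finite (ResidueField 𝒪)] [CharZero 𝒪]
  {ι X : Type} [Finite ι] [Finite X] [DecidableEq ι] {Ds : ι → LocalDatum 𝒪} {i₀ : ι}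
  {ρbar : ResidualGaloisRep (ResidueField 𝒪)} {d : ℕ} {J : Type} {l : J → ℕ}
  {hl : ∀ j, (l j).Prime} {r : ℕ} {Δ Δ' : ℕ → Type} [∀ n, CommGroup (Δ n)]
  [∀ n, Fintype (Δ n)] [∀ n, Fact (Odd (Nat.card (Δ n)))] [∀ n, CommGroup (Δ' n)]
  [∀ n, Fintype (Δ' n)] {π : ∀ n, Δ n →* Δ' n} [∀ n, Fintype (π n).ker] {h₀ : ∀ n, Δ n}
  {gen : ∀ n, Fin r → Δ n} {ζ : 𝒪} {Λ : Finset (𝒪 × 𝒪)}

/-- **The family for lowering at `i₀`.** -/
def buildLower (L : ∀ n, LowerLevel Ds X i₀ ρbar d l hl r (π n) (h₀ n) (gen n) Λ)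
    (ε : ∀ n, Δ n →* STrunc 𝒪 r n) (κ : ∀ n, Δ n →* 𝒪) (ε₁ : ∀ n, Δ' n →* STrunc 𝒪 r n)
    (hεκ : ∀ n δ, ε n δ = algebraMap 𝒪 _ (κ n δ) * ε₁ n (π n δ))
    (hε : ∀ n j, ε n (gen n j) = 1 + yVar r n j)
    (hπ : ∀ n, π n (h₀ n) = 1) (hκ : ∀ n, κ n (h₀ n) ≠ 1)
    (hε₁ : ∀ n δ, algebraMap 𝒪 _ (ζ - 1) ∣ ε n δ - ε₁ n (π n δ)) (hd : 0 < d) :
    LowerSystem Ds X r i₀ (ζ - 1) Λ where
  K := d
  rank := d
  rank_pos := hd
  act n := (L n).act (ε n)
  rel n _ hi := (L n).exists_rel (ε n) hd hi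
  rel₀ n := (L n).exists_rel₀ (ε n) (hεκ n) (hπ n) (hκ n) hd
  norm n i := (L n).norm_act (ε n) i
  cong n := (L n).exists_cong (ε n) (hε₁ n) le_rfl
  dia n j := (L n).t j
  dia_rel n j := (L n).dia_rel_act (ε n) (hε n) j

end FLTAgent.RT.Sys
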