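import Fermat.Agent.RT.Coh.OpP
import Fermat.Agent.RT.Coh.CohPart

/-!
# Restriction between two diamond levels

If the character `χ'` is a quotient of `χ`, classes of the level of `χ'` restrict to the level of
`χ` compatibly with the operators, and the norm over the kernel of the quotient is a restriction.
-/

set_option autoImplicit false
set_option linter.unusedSectionVars false

noncomputable section

namespace FLTAgent.RT.Sys

open LevelRaise CongruenceSubgroup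
open scoped MatrixGroups

variable {M M' N : ℕ} [NeZero N] {D D' : Type*} [CommGroup D] [CommGroup D']
  {χ : (ZMod M)ˣ →* D} {χ' : (ZMod M')ˣ →* D'} {A : Type*} [AddCommGroup A]
  {R : Type*} [CommRing R] [Module R A]

variable (R A) in
/-- Restriction along an inclusion of diamond levels. -/
def resH (h : gammaH N χ ≤ gammaH N χ') : Coh N χ' A →ₗ[R] Coh N χ A :=
  famTransferL R (isFam_one (ι := Unit) h)

theorem resH_apply_apply (h : gammaH N χ ≤ gammaH N χ') (φ : Coh N χ' A) (γ : gammaH N χ) :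
    resH A R h φ (Additive.ofMul γ) = φ (Additive.ofMul ⟨γ, h γ.2⟩) := by
  show famTransfer (isFam_one (ι := Unit) h) φ (Additive.ofMul γ) = _
  rw [famTransfer_one h φ]
  simp

/-- An operator given by matching families commutes with the restriction. -/
theorem comm_resH {ι ι' : Type*} [Fintype ι] [Fintype ι'] {m : ℕ}
    {η : ι → Matrix (Fin 2) (Fin 2) ℤ} {η' : ι' → Matrix (Fin 2) (Fin 2) ℤ}
    (h : OpFam N χ' m η) (h' : OpFam N χ m η') (hm : m.Prime) (hle : gammaH N χ ≤ gammaH N χ')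
    (hb : ∀ X, X.det = (m : ℤ) → Bal χ X → Bal χ' X)
    (hcard : Fintype.card ι' = Fintype.card ι) (φ : Coh N χ' A) :
    famTransfer (h'.isFam hm) (famTransfer (isFam_one (ι := Unit) hle) φ) =
      famTransfer (isFam_one (ι := Unit) hle) (famTransfer (h.isFam hm) φ) := by
  refine famTransfer_comm_of_cover _ _ _ _ ?_ (by simp [hcard]) (fun _ i => ?_) φ
  · rintro ⟨_, i⟩ ⟨_, j⟩ δ e
    simp only [famMul, Matrix.one_mul] at e
    exact Prod.ext rfl (h'.distinct hm i j δ e)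
  · obtain ⟨j, δ, hj⟩ := h.cover (η' i) (h'.det_eq i) (h'.dvd i) (h'.coprime i)
      (hb _ (h'.det_eq i) (h'.bal i))
    exact ⟨j, (), δ, by rw [Matrix.one_mul, hj, Matrix.mul_one]⟩

variable [Fact (Odd (Nat.card D))] [Fact (Odd (Nat.card D'))]

theorem resH_opP (hMN : M ∣ N) (hM'N : M' ∣ N) (hle : gammaH N χ ≤ gammaH N χ') {ℓ : ℕ}
    (hℓ : ℓ.Prime) (hb : ∀ X, X.det = (ℓ : ℤ) → Bal χ X → Bal χ' X) (φ : Coh N χ' A) :
    opP R A χ hMN hℓ (resH A R hle φ) = resH A R hle (opP R A χ' hM'N hℓ φ) := by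
  have : NeZero ℓ := ⟨hℓ.ne_zero⟩
  by_cases h : ℓ ∣ N
  · rw [opP_of_dvd R A _ hℓ h, opP_of_dvd R A _ hℓ h]
    exact comm_resH (opFam_U hM'N hℓ h) (opFam_U hMN hℓ h) hℓ hle hb rfl φ
  · rw [opP_of_not_dvd R A _ hℓ h, opP_of_not_dvd R A _ hℓ h]
    exact comm_resH (opFam_T hM'N hℓ h) (opFam_T hMN hℓ h) hℓ hle hb rfl φ

section Quotient

variable (π : D →* D') (hM'M : M' ∣ M) (hχ' : π.comp χ = χ'.comp (ZMod.unitsMap hM'M))

include hχ' in
theorem gammaH_le_quot (hMN : M ∣ N) : gammaH N χ ≤ gammaH N χ' := fun γ hγ => by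
  have h1 := (mem_gammaH_iff_dUnit hMN ⟨γ, hγ.1⟩).mp hγ
  refine (mem_gammaH_iff_dUnit (hM'M.trans hMN) ⟨γ, hγ.1⟩).mpr ?_
  rw [show dUnit (hM'M.trans hMN) ⟨γ, hγ.1⟩ = ZMod.unitsMap hM'M (dUnit hMN ⟨γ, hγ.1⟩) from
    Units.ext (by
      rw [ZMod.unitsMap_val, coe_dUnit, coe_dUnit]
      exact (ZMod.cast_intCast (R := ZMod M') hM'M _).symm), ← MonoidHom.comp_apply, ← hχ',
    MonoidHom.comp_apply, h1, map_one]

include hχ' in
/-- Balanced matrices stay balanced at a prime of the same kind for the two moduli. -/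
theorem bal_quot {ℓ : ℕ} (hℓ : ℓ.Prime) (hkind : ℓ ∣ M → ℓ ∣ M')
    (X : Matrix (Fin 2) (Fin 2) ℤ) (hX : X.det = (ℓ : ℤ)) (h : Bal χ X) : Bal χ' X := by
  obtain ⟨h0, hd, u, hu, hu2⟩ := h
  have hπ : ∀ v, π (χ v) = χ' (ZMod.unitsMap hM'M v) := fun v => DFunLike.congr_fun hχ' v
  refine ⟨(Int.natCast_dvd_natCast.mpr hM'M).trans h0, hd, ZMod.unitsMap hM'M u, ?_, ?_⟩
  · rw [ZMod.unitsMap_val, hu]
    exact ZMod.cast_intCast hM'M _
  · rw [← hπ, ← map_mul, hu2, hX]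
    simp only [detChar, Int.natAbs_natCast, hℓ.factorization, Finsupp.prod_single_index,
      pow_zero, pow_one, primeChar]
    by_cases hc : ℓ.Coprime M
    · rw [dif_pos hc, dif_pos (hc.coprime_dvd_right hM'M), hπ]
      congr 1
      exact Units.ext (by
        rw [ZMod.unitsMap_val, ZMod.coe_unitOfCoprime, ZMod.coe_unitOfCoprime,
          ZMod.cast_natCast hM'M])
    · rw [dif_neg hc, map_one, dif_neg]
      intro hc'
      exact hℓ.coprime_iff_not_dvd.mp hc' (hkind (by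
        by_contra hh; exact hc (hℓ.coprime_iff_not_dvd.mpr hh)))

include hχ' in
/-- The norm over the kernel of the quotient is a restriction. -/
theorem exists_resH_eq_sum [Fintype D] [Fintype π.ker] (hMN : M ∣ N)
    (hχ : Function.Surjective χ) (φ : Coh N χ A) :
    ∃ ψ : Coh N χ' A, resH A R (gammaH_le_quot π hM'M hχ' hMN) ψ =
      ∑ δ : π.ker, diamond R A χ hMN hχ (δ : D) φ := by
  have hle := gammaH_le_quot (N := N) π hM'M hχ' hMN
  let ρ₀ : gammaH N χ' →* D := χ.comp ((dUnit hMN).comp (Subgroup.inclusion gammaH_le))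
  have hmemπ : ∀ g : Gamma0 N, (g : SL(2, ℤ)) ∈ gammaH N χ' ↔ χ (dUnit hMN g) ∈ π.ker := fun g => by
    rw [mem_gammaH_iff_dUnit (hM'M.trans hMN), MonoidHom.mem_ker, ← MonoidHom.comp_apply π, hχ',
      MonoidHom.comp_apply, show ZMod.unitsMap hM'M (dUnit hMN g) = dUnit (hM'M.trans hMN) g from
        Units.ext (by
          rw [ZMod.unitsMap_val, coe_dUnit, coe_dUnit]
          exact ZMod.cast_intCast (R := ZMod M') hM'M _)]
  let ρ : gammaH N χ' →* π.ker := ρ₀.codRestrict π.ker fun g => (hmemπ ⟨g, gammaH_le g.2⟩).mp g.2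
  have hker : ∀ γ : gammaH N χ', (γ : SL(2, ℤ)) ∈ gammaH N χ ↔ ρ γ = 1 := fun γ =>
    (mem_gammaH_iff_dUnit hMN ⟨γ, gammaH_le γ.2⟩).trans
      ⟨fun h => Subtype.ext h, fun h => congrArg Subtype.val h⟩
  have hρ : Function.Surjective ρ := fun δ => by
    obtain ⟨g, hg⟩ := exists_dUnit_eq hMN hχ (δ : D)
    exact ⟨⟨g, (hmemπ g).mpr (hg ▸ δ.2)⟩, Subtype.ext hg⟩
  refine ⟨famTransfer (isFam_liftD ρ hker hρ) φ, AddMonoidHom.ext fun γ => ?_⟩
  obtain ⟨γ, rfl⟩ := Additive.ofMul.surjective γ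
  rw [resH_apply_apply, AddMonoidHom.finsetSum_apply]
  set g : gammaH N χ' := ⟨γ, hle γ.2⟩
  have hg : ρ g = 1 := (hker g).mp γ.2
  rw [famTransfer_apply _ φ g (σ := 1)
    (δ := fun δ => ⟨_, conj_mem_of_ker ρ hker hle (liftD ρ hρ δ) γ.2⟩) (fun δ => by
      rw [Equiv.Perm.one_apply, ← matSL_mul, ← matSL_mul, inv_mul_cancel_right])]
  refine Finset.sum_congr rfl fun δ _ => ?_
  rw [diamond_apply hMN hχ (g := ⟨liftD ρ hρ δ, gammaH_le (liftD ρ hρ δ).2⟩)
    (congrArg Subtype.val (ρ_liftD ρ hρ δ))]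
  exact (diamondAt_apply_apply hMN _ φ γ rfl).symm

end Quotient

end FLTAgent.RT.Sys
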